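/-
S25lib / Glue / RLB  (helper2)  --  Project L (S25), block GLUE: pseudo-functoriality of the pullback of
rigidified line bundles (`RigidifiedLineBundle.pullbackAlong`), as isomorphisms of the underlying modules.
-/
import Fermat.Agent.S25lib.Iface

set_option autoImplicit false

noncomputable section

universe u

open AlgebraicGeometry CategoryTheory CategoryTheory.Limits AlgebraicGeometry.RelPicard
  NeronModelInfra GoodReductionJacobian

namespace Fermat.Agent.S25lib.Glue

variable {R : Type u} [CommRing R] {C : Scheme.{u}} {c : C ⟶ Spec (CommRingCat.of R)}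
  {ε : SchemeHomOver (𝟙 (Spec (CommRingCat.of R))) c}

/-- morphisms over the base with the same underlying morphism are equal -/
theorem schemeHomOver_ext {T T' : Scheme.{u}} {t : T ⟶ Spec (CommRingCat.of R)}
    {t' : T' ⟶ Spec (CommRingCat.of R)} {g g' : SchemeHomOver t' t} (h : g.1 = g'.1) : g = g' :=
  Subtype.ext h

/-- the identity, as a morphism over the base -/
def idOver {T : Scheme.{u}} (t : T ⟶ Spec (CommRingCat.of R)) : SchemeHomOver t t :=
  ⟨𝟙 T, Category.id_comp t⟩

/-- a morphism, as a morphism over the base with the induced structure map -/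
def homOver {T T' : Scheme.{u}} (g : T' ⟶ T) (t : T ⟶ Spec (CommRingCat.of R)) :
    SchemeHomOver (g ≫ t) t :=
  ⟨g, rfl⟩

/-- pullback along the identity -/
def pullbackAlongIdIso {T : Scheme.{u}} {t : T ⟶ Spec (CommRingCat.of R)}
    (M : RigidifiedLineBundle c ε t) (g : SchemeHomOver t t) (hg : g.1 = 𝟙 T) :
    (M.pullbackAlong g).L ≅ M.L :=
  (Scheme.Modules.pullbackCongr (show baseChangeSnd c g = 𝟙 _ by
    have : g = idOver t := schemeHomOver_ext hg
    rw [this]
    exact baseChangeSnd_id c t)).app M.L ≪≫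
    (Scheme.Modules.pullbackId (pullback c t)).app M.L

/-- pullback along a composite -/
def pullbackAlongCompIso {T T' T'' : Scheme.{u}} {t : T ⟶ Spec (CommRingCat.of R)}
    {t' : T' ⟶ Spec (CommRingCat.of R)} {t'' : T'' ⟶ Spec (CommRingCat.of R)}
    (M : RigidifiedLineBundle c ε t) (φ : SchemeHomOver t' t) (χ : SchemeHomOver t'' t')
    (ψ : SchemeHomOver t'' t) (hψ : ψ.1 = χ.1 ≫ φ.1) :
    (M.pullbackAlong ψ).L ≅ ((M.pullbackAlong φ).pullbackAlong χ).L :=
  (Scheme.Modules.pullbackCongr (show baseChangeSnd c ψ = baseChangeSnd c χ ≫ baseChangeSnd c φ by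
    have : ψ = postComp φ χ := schemeHomOver_ext hψ
    rw [this]
    exact (baseChangeSnd_comp c φ χ).symm)).app M.L ≪≫
    ((Scheme.Modules.pullbackComp _ _).app M.L).symm

/-- pullback respects isomorphisms -/
theorem pullbackAlong_iso {T T' : Scheme.{u}} {t : T ⟶ Spec (CommRingCat.of R)}
    {t' : T' ⟶ Spec (CommRingCat.of R)} {M M' : RigidifiedLineBundle c ε t}
    (ψ : SchemeHomOver t' t) (h : Nonempty (M.L ≅ M'.L)) :
    Nonempty ((M.pullbackAlong ψ).L ≅ (M'.pullbackAlong ψ).L) :=
  RigidifiedLineBundle.pullbackAlong_congr ψ h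

/-- pullback along equal morphisms -/
theorem pullbackAlong_congr_hom {T T' : Scheme.{u}} {t : T ⟶ Spec (CommRingCat.of R)}
    {t' : T' ⟶ Spec (CommRingCat.of R)} (M : RigidifiedLineBundle c ε t)
    {ψ ψ' : SchemeHomOver t' t} (h : ψ.1 = ψ'.1) :
    Nonempty ((M.pullbackAlong ψ).L ≅ (M.pullbackAlong ψ').L) := by
  have : ψ = ψ' := schemeHomOver_ext h
  rw [this]
  exact ⟨Iso.refl _⟩

end Fermat.Agent.S25lib.Glue
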