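/-
S25lib / Glue / Ext  (helper2)  --  Project L (S25), block GLUE: **Zariski descent for rigidified line bundles**.
`RigApp c`: for every `T` over the base and every open `V ⊆ T`, the functions on `C ×_k V` come from `V`.
* `sep_ext` (SEP): two rigidified bundles on `C ×_k T` which are isomorphic over an open cover of `T` are
  isomorphic.
* `glue_ext` (GLUE): rigidified bundles over an open cover of `T`, isomorphic over the overlaps, come from a
  rigidified bundle over `T`.
-/
import Fermat.Agent.S25lib.Glue.RigPush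
import Fermat.Agent.S25lib.Glue.RLB

set_option autoImplicit false

noncomputable section

universe u

open AlgebraicGeometry CategoryTheory CategoryTheory.Limits AlgebraicGeometry.RelPicard
  NeronModelInfra GoodReductionJacobian TopologicalSpace

namespace Fermat.Agent.S25lib.Glue

variable {R : Type u} [CommRing R] {C : Scheme.{u}} (c : C ⟶ Spec (CommRingCat.of R))
  (ε : SchemeHomOver (𝟙 (Spec (CommRingCat.of R))) c)

/-- the functions on `C ×_k V`, `V` open in `T`, come from `V` -/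
def RigApp : Prop :=
  ∀ {T : Scheme.{u}} (t : T ⟶ Spec (CommRingCat.of R)) (V : T.Opens),
    Function.Surjective ((pullback.snd c t).app V)

theorem rigSection_snd {T : Scheme.{u}} (t : T ⟶ Spec (CommRingCat.of R)) :
    rigSection c t ε ≫ pullback.snd c t = 𝟙 T := by
  unfold rigSection
  rw [pullback.lift_snd]

variable {c}

instance isOpenImmersion_baseChangeSnd {T T' : Scheme.{u}} {t : T ⟶ Spec (CommRingCat.of R)}
    {t' : T' ⟶ Spec (CommRingCat.of R)} (g : SchemeHomOver t' t) [IsOpenImmersion g.1] :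
    IsOpenImmersion (baseChangeSnd c g) := by
  unfold baseChangeSnd
  infer_instance

theorem mem_range_baseChangeSnd_iff {T T' : Scheme.{u}} {t : T ⟶ Spec (CommRingCat.of R)}
    {t' : T' ⟶ Spec (CommRingCat.of R)} (g : SchemeHomOver t' t) (x : ↥(pullback c t)) :
    x ∈ Set.range (baseChangeSnd c g).base ↔
      (pullback.snd c t).base x ∈ Set.range g.1.base := by
  unfold baseChangeSnd
  have := Scheme.Pullback.range_map c t' c t (𝟙 C) g.1 (𝟙 _)
    ((Category.comp_id c).trans (Category.id_comp c).symm) ((Category.comp_id t').trans g.2.symm)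
  have h2 : x ∈ Set.range (pullback.map c t' c t (𝟙 C) g.1 (𝟙 _)
      ((Category.comp_id c).trans (Category.id_comp c).symm)
      ((Category.comp_id t').trans g.2.symm)).base ↔ _ := Set.ext_iff.mp this x
  rw [h2]
  constructor
  · rintro ⟨-, h⟩
    exact h
  · intro h
    exact ⟨⟨(pullback.fst c t).base x, rfl⟩, h⟩

theorem opensRange_baseChangeSnd {T T' : Scheme.{u}} {t : T ⟶ Spec (CommRingCat.of R)}
    {t' : T' ⟶ Spec (CommRingCat.of R)} (g : SchemeHomOver t' t) [IsOpenImmersion g.1] :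
    (baseChangeSnd c g).opensRange = (pullback.snd c t) ⁻¹ᵁ g.1.opensRange := by
  ext x
  exact mem_range_baseChangeSnd_iff g x

theorem iSup_opensRange_eq_top {T : Scheme.{u}} {A : Type*} {Tα : A → Scheme.{u}}
    (f : ∀ α, Tα α ⟶ T) [∀ α, IsOpenImmersion (f α)]
    (hcov : ∀ x : T, ∃ α, x ∈ Set.range (f α).base) : ⨆ α, (f α).opensRange = ⊤ := by
  rw [eq_top_iff]
  intro x _
  obtain ⟨α, hα⟩ := hcov x
  exact Opens.mem_iSup.mpr ⟨α, hα⟩

variable {ε}

/-- **(SEP)** -/
theorem sep_ext (hq : RigApp c) {T : Scheme.{u}} (t : T ⟶ Spec (CommRingCat.of R)) {A : Type*}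
    {Tα : A → Scheme.{u}} {tα : ∀ α, Tα α ⟶ Spec (CommRingCat.of R)}
    (g : ∀ α, SchemeHomOver (tα α) t) [∀ α, IsOpenImmersion (g α).1]
    (hcov : ∀ x : T, ∃ α, x ∈ Set.range (g α).1.base) (M M' : RigidifiedLineBundle c ε t)
    (h : ∀ α, Nonempty ((M.pullbackAlong (g α)).L ≅ (M'.pullbackAlong (g α)).L)) :
    Nonempty (M.L ≅ M'.L) := by
  refine sep_intrinsic (σ := rigSection c t ε) (q := pullback.snd c t) (rigSection_snd c ε t)
    (hq t) (fun α => (g α).1.opensRange) (iSup_opensRange_eq_top (fun α => (g α).1) hcov) M.L M'.L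
    (locGen_of_isInvertible M.isInvertible ⊤) (Rig.ofIso _ _ M.rigidified.some)
    (Rig.ofIso _ _ M'.rigidified.some) (fun α => ?_)
  obtain ⟨e⟩ := h α
  have φ : LocIso M.L M'.L (baseChangeSnd c (g α)).opensRange :=
    ((ResIso.pull (baseChangeSnd c (g α)) M.L).postcomp e).locIso
      (ResIso.pull (baseChangeSnd c (g α)) M'.L)
  exact ⟨φ.restrict (le_of_eq (opensRange_baseChangeSnd (g α)).symm)⟩

/-- **(GLUE)** -/
theorem glue_ext (hq : RigApp c) {T : Scheme.{u}} (t : T ⟶ Spec (CommRingCat.of R)) {A : Type*}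
    {Tα : A → Scheme.{u}} {tα : ∀ α, Tα α ⟶ Spec (CommRingCat.of R)}
    (g : ∀ α, SchemeHomOver (tα α) t) [∀ α, IsOpenImmersion (g α).1]
    (hcov : ∀ x : T, ∃ α, x ∈ Set.range (g α).1.base)
    (M : ∀ α, RigidifiedLineBundle c ε (tα α))
    (compat : ∀ α β, ∃ (Y : Scheme.{u}) (y : Y ⟶ Spec (CommRingCat.of R))
      (p₁ : SchemeHomOver y (tα α)) (p₂ : SchemeHomOver y (tα β)),
      IsOpenImmersion p₁.1 ∧ IsOpenImmersion p₂.1 ∧ p₁.1 ≫ (g α).1 = p₂.1 ≫ (g β).1 ∧
      Set.range (g α).1.base ∩ Set.range (g β).1.base ⊆ Set.range (p₂.1 ≫ (g β).1).base ∧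
      Nonempty (((M α).pullbackAlong p₁).L ≅ ((M β).pullbackAlong p₂).L)) :
    ∃ M₀ : RigidifiedLineBundle c ε t,
      ∀ α, Nonempty ((M₀.pullbackAlong (g α)).L ≅ (M α).L) := by
  classical
  have hσq := rigSection_snd c ε t
  let N : A → (pullback c t).Modules := fun α =>
    (Scheme.Modules.pushforward (baseChangeSnd c (g α))).obj (M α).L
  let Vα : A → T.Opens := fun α => (g α).1.opensRange
  have hR : ∀ α, (baseChangeSnd c (g α)).opensRange = (pullback.snd c t) ⁻¹ᵁ Vα α := fun α =>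
    opensRange_baseChangeSnd (g α)
  have hN : ∀ α, LocGen (N α) ((pullback.snd c t) ⁻¹ᵁ Vα α) := fun α =>
    ((ResIso.push (baseChangeSnd c (g α)) (M α).L).locGen
      (locGen_of_isInvertible (M α).isInvertible ⊤)).mono (le_of_eq (hR α).symm)
  have Rg : ∀ α, Rig (rigSection c t ε) (N α) ((pullback.snd c t) ⁻¹ᵁ Vα α) := fun α =>
    Rig.push (rigSection_baseChangeSnd c ε (g α)) (ResIso.push (baseChangeSnd c (g α)) (M α).L)
      (Rig.ofIso (rigSection c (tα α) ε) (M α).L (M α).rigidified.some)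
      (le_of_eq (hR α).symm) (preimage_sigma_le hσq le_rfl)
  have hψ : ∀ α β, Nonempty (LocIso (N α) (N β) ((pullback.snd c t) ⁻¹ᵁ (Vα α ⊓ Vα β))) := by
    intro α β
    obtain ⟨Y, y, p₁, p₂, h1, h2, hp, hrange, ⟨χ⟩⟩ := compat α β
    have hb : baseChangeSnd c p₁ ≫ baseChangeSnd c (g α) =
        baseChangeSnd c p₂ ≫ baseChangeSnd c (g β) := by
      rw [baseChangeSnd_comp, baseChangeSnd_comp]
      congr 1
      exact schemeHomOver_ext hp
    have ρ₁ : ResIso (baseChangeSnd c p₁ ≫ baseChangeSnd c (g α)) (N α)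
        ((Scheme.Modules.pullback (baseChangeSnd c p₁)).obj (M α).L) :=
      (ResIso.push (baseChangeSnd c (g α)) (M α).L).comp (ResIso.pull (baseChangeSnd c p₁) (M α).L)
    have ρ₂ : ResIso (baseChangeSnd c p₂ ≫ baseChangeSnd c (g β)) (N β)
        ((Scheme.Modules.pullback (baseChangeSnd c p₂)).obj (M β).L) :=
      (ResIso.push (baseChangeSnd c (g β)) (M β).L).comp (ResIso.pull (baseChangeSnd c p₂) (M β).L)
    have φ : LocIso (N α) (N β) (baseChangeSnd c p₂ ≫ baseChangeSnd c (g β)).opensRange :=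
      ((ρ₁.postcomp χ).congr hb).locIso ρ₂
    have hle : (pullback.snd c t) ⁻¹ᵁ (Vα α ⊓ Vα β) ≤
        (baseChangeSnd c p₂ ≫ baseChangeSnd c (g β)).opensRange := by
      intro x hx
      have hx' : (pullback.snd c t).base x ∈ Set.range (p₂.1 ≫ (g β).1).base := hrange hx
      have h3 : x ∈ Set.range (baseChangeSnd c (postComp (g β) p₂)).base :=
        (mem_range_baseChangeSnd_iff (postComp (g β) p₂) x).mpr hx'
      have h4 : baseChangeSnd c p₂ ≫ baseChangeSnd c (g β) = baseChangeSnd c (postComp (g β) p₂) :=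
        baseChangeSnd_comp c (g β) p₂
      change x ∈ Set.range (baseChangeSnd c p₂ ≫ baseChangeSnd c (g β)).base
      rw [h4]
      exact h3
    exact ⟨φ.restrict hle⟩
  obtain ⟨M₀', hLG, hrig, hloc⟩ := glue_intrinsic hσq (hq t) Vα
    (iSup_opensRange_eq_top (fun α => (g α).1) hcov) N hN Rg hψ
  refine ⟨⟨M₀', isInvertible_of_locGen hLG, hrig⟩, fun α => ?_⟩
  obtain ⟨φ⟩ := hloc α
  have ρ : ResIso (baseChangeSnd c (g α)) M₀' (M α).L :=
    ResIso.precomp (φ.restrict (le_of_eq (hR α))) (ResIso.push (baseChangeSnd c (g α)) (M α).L)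
  exact ⟨(ResIso.pull (baseChangeSnd c (g α)) M₀').iso ρ⟩

end Fermat.Agent.S25lib.Glue
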