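/-
S25lib / Glue / PowGI  (helper2)  --  Project L (S25), (P-Proper/Conn): the fibre powers of a geometrically integral,
flat, universally open morphism locally of finite type are geometrically integral (`pow_geometricallyIntegral`),
from the composition lemma `geometricallyIntegral_comp`.
-/
import Fermat.Agent.S25lib.Abel.Pow

set_option autoImplicit false

noncomputable section

universe u

open AlgebraicGeometry CategoryTheory CategoryTheory.Limits

namespace Fermat.Agent.S25lib.Glue

theorem geometricallyIntegral_id (S : Scheme.{u}) : GeometricallyIntegral (𝟙 S) := by
  refine ⟨?_⟩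
  intro K _ y Z fst snd hP
  have : IsIso snd := hP.isIso_snd_of_isIso
  exact IsIntegral.of_isIso (inv snd)

/-- **geometrically integral morphisms compose** (the first one flat and universally open, the second one locally of
finite type) -/
theorem geometricallyIntegral_comp {X Y S : Scheme.{u}} (f : X ⟶ Y) (g : Y ⟶ S)
    [GeometricallyIntegral f] [Flat f] [UniversallyOpen f] [GeometricallyIntegral g]
    [LocallyOfFiniteType g] : GeometricallyIntegral (f ≫ g) := by
  refine ⟨?_⟩
  intro K _ y Z fst snd hP
  -- the fibre of `g` is integral and locally noetherian
  have h1 : IsIntegral (pullback g y) :=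
    pullback_of_geometrically (GeometricallyIntegral.geometrically_isIntegral (f := g)) K y
  have h2 : IsLocallyNoetherian (pullback g y) :=
    LocallyOfFiniteType.isLocallyNoetherian (pullback.snd g y)
  -- hence so is the fibre of `f ≫ g`
  have h3 : IsIntegral (pullback f (pullback.fst g y)) := inferInstance
  have h4 : IsIntegral (pullback (f ≫ g) y) :=
    IsIntegral.of_isIso (pullbackRightPullbackFstIso g y f).hom
  exact IsIntegral.of_isIso hP.isoPullback.inv

/-- **the fibre powers of a geometrically integral morphism are geometrically integral** -/
theorem pow_geometricallyIntegral {S C : Scheme.{u}} (c : C ⟶ S) [GeometricallyIntegral c] [Flat c]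
    [UniversallyOpen c] [LocallyOfFiniteType c] (n : ℕ) :
    GeometricallyIntegral (Abel.powHom c n) := by
  induction n with
  | zero => exact geometricallyIntegral_id S
  | succ n ih =>
    rw [Abel.powHom_succ]
    have := ih
    have : GeometricallyIntegral (Abel.powSnd c n) :=
      inferInstanceAs (GeometricallyIntegral (pullback.snd c (Abel.powHom c n)))
    have : Flat (Abel.powSnd c n) := inferInstanceAs (Flat (pullback.snd c (Abel.powHom c n)))
    have : UniversallyOpen (Abel.powSnd c n) :=
      inferInstanceAs (UniversallyOpen (pullback.snd c (Abel.powHom c n)))
    exact geometricallyIntegral_comp _ _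

end Fermat.Agent.S25lib.Glue
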