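/-
S25lib / Glue / PDeg  (helper2)  --  Project L (S25), (P-Deg), the formal scheme-level part:
an invariant `D` of the invertible modules on the curve `C_K = pullback c t₀` (`K` algebraically closed), which is
locally constant on the `K`-points in families over integral affine `K`-schemes of finite type, takes the same value
on every bundle algebraically equivalent to zero as on the structure sheaf (`pdeg_formal`).

The family `𝓜` on `C_K ×_K T'` given by `IsAlgEquivZero` is transported to `C ×_k T'` (`paste`), so that all its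
fibres at the `K`-points of `T'` live on the ONE curve `pullback c t₀`.
-/
import Fermat.Agent.S25lib.Glue.RLB
import Fermat.Agent.S26lib.VarSch.Points

set_option autoImplicit false

noncomputable section

universe u

open AlgebraicGeometry CategoryTheory CategoryTheory.Limits AlgebraicGeometry.RelPicard
  NeronModelInfra GoodReductionJacobian TopologicalSpace

namespace Fermat.Agent.S25lib.Glue

section Mod

variable {R : Type u} [CommRing R] {C : Scheme.{u}} {c : C ⟶ Spec (CommRingCat.of R)}

/-- pullback of modules along a composite of base changes -/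
def modPullbackCompIso {T T' T'' : Scheme.{u}} {t : T ⟶ Spec (CommRingCat.of R)}
    {t' : T' ⟶ Spec (CommRingCat.of R)} {t'' : T'' ⟶ Spec (CommRingCat.of R)}
    (N : (pullback c t).Modules) (φ : SchemeHomOver t' t) (χ : SchemeHomOver t'' t')
    (ψ : SchemeHomOver t'' t) (hψ : ψ.1 = χ.1 ≫ φ.1) :
    (Scheme.Modules.pullback (baseChangeSnd c ψ)).obj N ≅
      (Scheme.Modules.pullback (baseChangeSnd c χ)).obj
        ((Scheme.Modules.pullback (baseChangeSnd c φ)).obj N) :=
  (Scheme.Modules.pullbackCongr (show baseChangeSnd c ψ = baseChangeSnd c χ ≫ baseChangeSnd c φ by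
    have : ψ = postComp φ χ := schemeHomOver_ext hψ
    rw [this]
    exact (baseChangeSnd_comp c φ χ).symm)).app N ≪≫
    ((Scheme.Modules.pullbackComp _ _).app N).symm

/-- pullback of modules along two morphisms which are equal -/
def modPullbackCongrIso {X Y : Scheme.{u}} {f g : X ⟶ Y} (h : f = g) (N : Y.Modules) :
    (Scheme.Modules.pullback f).obj N ≅ (Scheme.Modules.pullback g).obj N :=
  (Scheme.Modules.pullbackCongr h).app N

/-- pullback of modules along a composite, in the form of a commutative square -/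
def modPullbackSquareIso {X Y Y' Z : Scheme.{u}} {f : X ⟶ Y} {g : Y ⟶ Z} {f' : X ⟶ Y'} {g' : Y' ⟶ Z}
    (h : f ≫ g = f' ≫ g') (N : Z.Modules) :
    (Scheme.Modules.pullback f).obj ((Scheme.Modules.pullback g).obj N) ≅
      (Scheme.Modules.pullback f').obj ((Scheme.Modules.pullback g').obj N) :=
  (Scheme.Modules.pullbackComp _ _).app N ≪≫ (Scheme.Modules.pullbackCongr h).app N ≪≫
    ((Scheme.Modules.pullbackComp _ _).app N).symm

end Mod

section KPoints

variable {K : Type u} [Field K]

theorem range_base_subset_iff {T : Scheme.{u}} (q : Spec (CommRingCat.of K) ⟶ T) (W : Set T) :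
    Set.range q.base ⊆ W ↔ q.base (IsLocalRing.closedPoint K) ∈ W := by
  constructor
  · intro h
    exact h ⟨_, rfl⟩
  · rintro h _ ⟨x, rfl⟩
    have : x = IsLocalRing.closedPoint K := Subsingleton.elim _ _
    rw [this]
    exact h

/-- **(PD-a)**: a function on the `K`-points of an irreducible scheme locally of finite type over an algebraically
closed field `K`, which is constant on the `K`-points of a neighbourhood of every `K`-point, is constant -/
theorem const_of_locally_const_kpts [IsAlgClosed K] {T' : Scheme.{u}}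
    (h : T' ⟶ Spec (CommRingCat.of K)) [LocallyOfFiniteType h] [IrreducibleSpace T'] {α : Type*}
    (d : ∀ q : Spec (CommRingCat.of K) ⟶ T', q ≫ h = 𝟙 _ → α)
    (hd : ∀ p hp, ∃ W : T'.Opens, Set.range p.base ⊆ (W : Set T') ∧
      ∀ q hq, Set.range q.base ⊆ (W : Set T') → d q hq = d p hp)
    (p : Spec (CommRingCat.of K) ⟶ T') (hp : p ≫ h = 𝟙 _)
    (p' : Spec (CommRingCat.of K) ⟶ T') (hp' : p' ≫ h = 𝟙 _) : d p hp = d p' hp' := by
  obtain ⟨W, hpW, hW⟩ := hd p hp
  obtain ⟨W', hpW', hW'⟩ := hd p' hp'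
  have hne : ((W : Set T') ∩ (W' : Set T')).Nonempty :=
    nonempty_preirreducible_inter W.isOpen W'.isOpen
      ⟨_, (range_base_subset_iff p _).mp hpW⟩ ⟨_, (range_base_subset_iff p' _).mp hpW'⟩
  obtain ⟨a, ha⟩ := Fermat.Agent.S26lib.VarSch.exists_kpt_mem_of_isLocallyClosed (f := h)
    (W.isOpen.inter W'.isOpen).isLocallyClosed hne
  have h1 := hW a.1 a.2 ((range_base_subset_iff a.1 _).mpr ha.1)
  have h2 := hW' a.1 a.2 ((range_base_subset_iff a.1 _).mpr ha.2)
  rw [← h1, h2]

end KPoints

section Paste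

variable {R : Type u} [CommRing R] {C : Scheme.{u}} (c : C ⟶ Spec (CommRingCat.of R))
  {K : Type u} [Field K] (t₀ : Spec (CommRingCat.of K) ⟶ Spec (CommRingCat.of R))

/-- `C ×_k S ⟶ C_K ×_K S` for a `K`-scheme `S` (an isomorphism, by pasting of pullback squares) -/
def paste {S : Scheme.{u}} (s : S ⟶ Spec (CommRingCat.of K)) :
    pullback c (s ≫ t₀) ⟶ pullback (pullback.snd c t₀) s :=
  pullback.lift
    (pullback.lift (pullback.fst c (s ≫ t₀)) (pullback.snd c (s ≫ t₀) ≫ s)
      (by rw [Category.assoc, pullback.condition]))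
    (pullback.snd c (s ≫ t₀)) (by rw [pullback.lift_snd])

/-- a `K`-point of a `K`-scheme `S`, as a morphism over `k` -/
def kptOver {S : Scheme.{u}} (s : S ⟶ Spec (CommRingCat.of K)) (q : Spec (CommRingCat.of K) ⟶ S)
    (hq : q ≫ s = 𝟙 _) : SchemeHomOver t₀ (s ≫ t₀) :=
  ⟨q, by rw [← Category.assoc, hq, Category.id_comp]⟩

/-- the section of `C_K ×_K Spec K ⟶ C_K` -/
def diagK : pullback c t₀ ⟶ pullback (pullback.snd c t₀) (𝟙 (Spec (CommRingCat.of K))) :=
  pullback.lift (𝟙 _) (pullback.snd c t₀) (by rw [Category.id_comp, Category.comp_id])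

theorem diagK_fst : diagK c t₀ ≫ pullback.fst (pullback.snd c t₀) (𝟙 _) = 𝟙 _ :=
  pullback.lift_fst _ _ _

/-- the fibre of the transported family at a `K`-point -/
theorem baseChangeSnd_kptOver_paste {S : Scheme.{u}} (s : S ⟶ Spec (CommRingCat.of K))
    (q : Spec (CommRingCat.of K) ⟶ S) (hq : q ≫ s = 𝟙 _) :
    baseChangeSnd c (kptOver t₀ s q hq) ≫ paste c t₀ s =
      diagK c t₀ ≫ baseChangeSnd (pullback.snd c t₀) (⟨q, hq⟩ : SchemeHomOver (𝟙 _) s) := by
  apply pullback.hom_ext
  · apply pullback.hom_ext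
    · simp only [paste, diagK, baseChangeSnd, kptOver, pullback.map, Category.assoc,
        pullback.lift_fst, Category.comp_id, Category.id_comp]
    · simp only [paste, diagK, baseChangeSnd, kptOver, pullback.map, Category.assoc,
        pullback.lift_fst, pullback.lift_snd, pullback.lift_snd_assoc,
        Category.comp_id, Category.id_comp]
      rw [hq, Category.comp_id]
  · simp only [paste, diagK, baseChangeSnd, kptOver, pullback.map, Category.assoc,
      pullback.lift_snd, pullback.lift_snd_assoc]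

/-- the restriction of a `K`-point to an open subscheme containing it -/
theorem exists_lift_kpt {T' : Scheme.{u}} (U : T'.Opens) (q : Spec (CommRingCat.of K) ⟶ T')
    (hqU : Set.range q.base ⊆ (U : Set T')) :
    ∃ qU : Spec (CommRingCat.of K) ⟶ U.toScheme, qU ≫ U.ι = q := by
  have hrange : Set.range q.base ⊆ Set.range U.ι.base := by
    rw [Scheme.Opens.range_ι]
    exact hqU
  exact ⟨IsOpenImmersion.lift U.ι q hrange, IsOpenImmersion.lift_fac _ _ _⟩

variable [IsAlgClosed K]

/-- **(P-Deg), formal part**: an invariant of the invertible modules on `C_K` which is locally constant on the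
`K`-points in families takes the same value on the bundles algebraically equivalent to zero and on the structure
sheaf -/
theorem pdeg_formal {α : Type*} (D : (pullback c t₀).Modules → α)
    (hiso : ∀ N N' : (pullback c t₀).Modules, N.IsInvertible → Nonempty (N ≅ N') → D N = D N')
    (hLC : ∀ (S : Scheme.{u}) [IsAffine S] [IsIntegral S] (s : S ⟶ Spec (CommRingCat.of K))
      [LocallyOfFiniteType s] (N : (pullback c (s ≫ t₀)).Modules), N.IsInvertible →
      ∀ (p : Spec (CommRingCat.of K) ⟶ S) (hp : p ≫ s = 𝟙 _),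
      ∃ W : S.Opens, Set.range p.base ⊆ (W : Set S) ∧
        ∀ (q : Spec (CommRingCat.of K) ⟶ S) (hq : q ≫ s = 𝟙 _), Set.range q.base ⊆ (W : Set S) →
          D ((Scheme.Modules.pullback (baseChangeSnd c (kptOver t₀ s q hq))).obj N) =
            D ((Scheme.Modules.pullback (baseChangeSnd c (kptOver t₀ s p hp))).obj N))
    (L : (pullback c t₀).Modules) (hL : IsAlgEquivZero (pullback.snd c t₀) L) :
    D L = D (SheafOfModules.unit (pullback c t₀).ringCatSheaf) := by
  obtain ⟨T', h, hft, hgi, 𝓜, h𝓜, t₀', t₁', ⟨e₀⟩, ⟨e₁⟩⟩ := hL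
  have : IsIntegral T' := GeometricallyIntegral.isIntegral_of_subsingleton h
  -- the family over `C ×_k T'`
  obtain ⟨𝓜₀, h𝓜₀def⟩ : ∃ 𝓜₀, 𝓜₀ = (Scheme.Modules.pullback (paste c t₀ h)).obj 𝓜 := ⟨_, rfl⟩
  have h𝓜₀ : 𝓜₀.IsInvertible := h𝓜₀def ▸ h𝓜.pullback _
  -- the invariant of the fibres
  let d : ∀ q : Spec (CommRingCat.of K) ⟶ T', q ≫ h = 𝟙 _ → α := fun q hq =>
    D ((Scheme.Modules.pullback (baseChangeSnd c (kptOver t₀ h q hq))).obj 𝓜₀)
  -- it is locally constant
  have hd : ∀ p hp, ∃ W : T'.Opens, Set.range p.base ⊆ (W : Set T') ∧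
      ∀ q hq, Set.range q.base ⊆ (W : Set T') → d q hq = d p hp := by
    intro p hp
    have htop : p.base (IsLocalRing.closedPoint K) ∈ (⊤ : T'.Opens) := trivial
    obtain ⟨(U : T'.Opens), hUaff, hpU, -⟩ :=
      Opens.isBasis_iff_nbhd.mp T'.isBasis_affineOpens htop
    have : IsAffine U.toScheme := hUaff
    have : Nonempty U := ⟨⟨_, hpU⟩⟩
    obtain ⟨pU, hpU'⟩ := exists_lift_kpt U p ((range_base_subset_iff p _).mpr hpU)
    have hpUs : pU ≫ (U.ι ≫ h) = 𝟙 _ := by rw [← Category.assoc, hpU', hp]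
    let uOver : SchemeHomOver ((U.ι ≫ h) ≫ t₀) (h ≫ t₀) := ⟨U.ι, (Category.assoc _ _ _).symm⟩
    obtain ⟨W, hpW, hW⟩ := hLC U.toScheme (U.ι ≫ h)
      ((Scheme.Modules.pullback (baseChangeSnd c uOver)).obj 𝓜₀) (h𝓜₀.pullback _) pU hpUs
    -- the fibres of the restricted family
    have hfib : ∀ (q : Spec (CommRingCat.of K) ⟶ T') (hq : q ≫ h = 𝟙 _)
        (qU : Spec (CommRingCat.of K) ⟶ U.toScheme) (hqU : qU ≫ U.ι = q)
        (hqUs : qU ≫ (U.ι ≫ h) = 𝟙 _),
        d q hq = D ((Scheme.Modules.pullback (baseChangeSnd c (kptOver t₀ (U.ι ≫ h) qU hqUs))).obj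
          ((Scheme.Modules.pullback (baseChangeSnd c uOver)).obj 𝓜₀)) := by
      intro q hq qU hqU hqUs
      exact hiso _ _ (h𝓜₀.pullback _)
        ⟨modPullbackCompIso 𝓜₀ uOver (kptOver t₀ (U.ι ≫ h) qU hqUs) (kptOver t₀ h q hq) hqU.symm⟩
    refine ⟨U.ι ''ᵁ W, ?_, ?_⟩
    · rw [range_base_subset_iff]
      have h1 : pU.base (IsLocalRing.closedPoint K) ∈ W := (range_base_subset_iff pU _).mp hpW
      have h2 : U.ι.base (pU.base (IsLocalRing.closedPoint K)) =
          p.base (IsLocalRing.closedPoint K) :=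
        congrArg (fun f : Spec (CommRingCat.of K) ⟶ T' => f.base (IsLocalRing.closedPoint K)) hpU'
      rw [← h2]
      exact (Scheme.Hom.apply_mem_image_iff U.ι).mpr h1
    · intro q hq hqW
      have hqU : Set.range q.base ⊆ (U : Set T') := by
        refine hqW.trans ?_
        have : U.ι ''ᵁ W ≤ U := (U.ι.image_le_opensRange _).trans (le_of_eq U.opensRange_ι)
        exact this
      obtain ⟨qU, hqU'⟩ := exists_lift_kpt U q hqU
      have hqUs : qU ≫ (U.ι ≫ h) = 𝟙 _ := by rw [← Category.assoc, hqU', hq]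
      rw [hfib q hq qU hqU' hqUs, hfib p hp pU hpU' hpUs]
      apply hW qU hqUs
      rw [range_base_subset_iff]
      have h2 : U.ι.base (qU.base (IsLocalRing.closedPoint K)) =
          q.base (IsLocalRing.closedPoint K) :=
        congrArg (fun f : Spec (CommRingCat.of K) ⟶ T' => f.base (IsLocalRing.closedPoint K)) hqU'
      have h3 : q.base (IsLocalRing.closedPoint K) ∈ U.ι ''ᵁ W :=
        (range_base_subset_iff q _).mp hqW
      rw [← h2] at h3
      exact (Scheme.Hom.apply_mem_image_iff U.ι).mp h3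
  -- hence constant
  have hconst := const_of_locally_const_kpts h d hd t₁'.1 t₁'.2 t₀'.1 t₀'.2
  -- the two end points
  have hend : ∀ (q : SchemeHomOver (𝟙 (Spec (CommRingCat.of K))) h) (N : (pullback c t₀).Modules),
      ((Scheme.Modules.pullback (diagK c t₀)).obj
        ((Scheme.Modules.pullback (baseChangeSnd (pullback.snd c t₀) q)).obj 𝓜) ≅ N) →
      d q.1 q.2 = D N := by
    intro q N e
    refine hiso _ _ (h𝓜₀.pullback _) ⟨?_ ≪≫ e⟩
    rw [h𝓜₀def]
    exact modPullbackSquareIso (baseChangeSnd_kptOver_paste c t₀ h q.1 q.2) 𝓜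
  have h0 : d t₀'.1 t₀'.2 = D (SheafOfModules.unit (pullback c t₀).ringCatSheaf) :=
    hend t₀' _ ((Scheme.Modules.pullback (diagK c t₀)).mapIso e₀ ≪≫
      Scheme.Modules.pullbackUnitIso _)
  have h1 : d t₁'.1 t₁'.2 = D L :=
    hend t₁' _ ((Scheme.Modules.pullback (diagK c t₀)).mapIso e₁ ≪≫
      (Scheme.Modules.pullbackComp _ _).app L ≪≫
      (Scheme.Modules.pullbackCongr (diagK_fst c t₀)).app L ≪≫
      (Scheme.Modules.pullbackId _).app L)
  rw [← h1, hconst, h0]

end Paste

end Fermat.Agent.S25lib.Glue
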