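/-
S25lib / Glue / HilbClassify  (helper2)  --  Project L (S25): the framed charts of the Hilbert functor classify the
framed points over affine bases (`classify`, `classify_inj`), in the concrete form of `Hub/HilbPt`:
a `β`-framed point `I` over an affine `t : T ⟶ Spec k` is the pullback of the universal point `univPt β` along a
unique morphism `g : T ⟶ Spec (H k β)` over `k`.
-/
import Fermat.Agent.S25lib.Hub.HilbPt

set_option autoImplicit false

noncomputable section

universe u

open AlgebraicGeometry CategoryTheory CategoryTheory.Limits TensorProduct AlgebraicGeometry.RelPicard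
  NeronModelInfra GoodReductionJacobian

namespace Fermat.Agent.S25lib.Glue

open Fermat.Agent.S25lib.Hub Fermat.Agent.S26lib

variable {k : Type u} [Field k] {C : Scheme.{u}} {c : C ⟶ Spec (CommRingCat.of k)}

/-- the morphism to `Spec H` of a `k`-algebra homomorphism `H → Γ(T, ⊤)`, over `k` -/
theorem toSpec_comp_structure {T : Scheme.{u}} (t : T ⟶ Spec (CommRingCat.of k)) (H : Type u) [CommRing H]
    [Algebra k H] (φ : letI := algTop t; H →ₐ[k] Γ(T, ⊤)) :
    (T.toSpecΓ ≫ Spec.map (CommRingCat.ofHom (φ : H →+* Γ(T, ⊤)))) ≫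
      Spec.map (CommRingCat.ofHom (algebraMap k H)) = t := by
  let _ := algTop t
  rw [Category.assoc, ← Spec.map_comp]
  have h1 : CommRingCat.ofHom (algebraMap k H) ≫ CommRingCat.ofHom (φ : H →+* Γ(T, ⊤)) =
      (Scheme.ΓSpecIso (CommRingCat.of k)).inv ≫ t.appTop := by
    ext r
    show φ (algebraMap k H r) = t.appTop ((Scheme.ΓSpecIso (CommRingCat.of k)).inv r)
    rw [φ.commutes, algebraMap_algTop]
  rw [h1, Spec.map_comp, ← Scheme.toSpecΓ_naturality_assoc, toSpecΓ_SpecMap_ΓSpecIso_inv,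
    Category.comp_id]

/-- the morphism over `k` to `Spec H` of a `k`-algebra homomorphism `H → Γ(T, ⊤)` -/
def toSpecOver {T : Scheme.{u}} (t : T ⟶ Spec (CommRingCat.of k)) (H : Type u) [CommRing H]
    [Algebra k H] (φ : letI := algTop t; H →ₐ[k] Γ(T, ⊤)) :
    SchemeHomOver t (Spec.map (CommRingCat.ofHom (algebraMap k H))) :=
  ⟨T.toSpecΓ ≫ Spec.map (CommRingCat.ofHom (φ : H →+* Γ(T, ⊤))), toSpec_comp_structure t H φ⟩

theorem appTop_toSpecOver {T : Scheme.{u}} (t : T ⟶ Spec (CommRingCat.of k)) (H : Type u)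
    [CommRing H] [Algebra k H] (φ : letI := algTop t; H →ₐ[k] Γ(T, ⊤)) :
    (Scheme.ΓSpecIso (CommRingCat.of H)).inv ≫ (toSpecOver t H φ).1.appTop =
      CommRingCat.ofHom (φ : H →+* Γ(T, ⊤)) := by
  show _ ≫ (T.toSpecΓ ≫ Spec.map (CommRingCat.ofHom (φ : H →+* Γ(T, ⊤)))).appTop = _
  rw [Scheme.Hom.comp_appTop, Scheme.toSpecΓ_appTop, ← Category.assoc,
    ← Scheme.ΓSpecIso_inv_naturality, Category.assoc, Iso.inv_hom_id, Category.comp_id]

/-- the classifying homomorphism is recovered from the morphism -/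
theorem appTopAlg_toSpecOver {T : Scheme.{u}} (t : T ⟶ Spec (CommRingCat.of k)) (H : Type u)
    [CommRing H] [Algebra k H] (φ : letI := algTop t; H →ₐ[k] Γ(T, ⊤)) :
    letI := algTop t
    letI := algTop (Spec.map (CommRingCat.ofHom (algebraMap k H)))
    (appTopAlg (toSpecOver t H φ)).comp (gammaSpecAlgEquiv (k := k) H).toAlgHom = φ := by
  let _ := algTop t
  let _ := algTop (Spec.map (CommRingCat.ofHom (algebraMap k H)))
  apply AlgHom.ext
  intro x
  have h := congrArg (fun f => f.hom x) (appTop_toSpecOver t H φ)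
  exact h

/-- a morphism over `k` to `Spec H` is determined by its homomorphism `H → Γ(T, ⊤)` -/
theorem toSpecOver_inj {T : Scheme.{u}} (t : T ⟶ Spec (CommRingCat.of k)) (H : Type u) [CommRing H]
    [Algebra k H] (g g' : SchemeHomOver t (Spec.map (CommRingCat.ofHom (algebraMap k H))))
    (h : letI := algTop t
      letI := algTop (Spec.map (CommRingCat.ofHom (algebraMap k H)))
      (appTopAlg g).comp (gammaSpecAlgEquiv (k := k) H).toAlgHom =
        (appTopAlg g').comp (gammaSpecAlgEquiv (k := k) H).toAlgHom) : g = g' := by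
  let _ := algTop t
  let _ := algTop (Spec.map (CommRingCat.ofHom (algebraMap k H)))
  have h3 : ∀ y : Γ(Spec (CommRingCat.of H), ⊤), g.1.appTop.hom y = g'.1.appTop.hom y := by
    intro y
    obtain ⟨x, rfl⟩ := (gammaSpecAlgEquiv (k := k) H).surjective y
    exact congrArg (fun f : H →ₐ[k] Γ(T, ⊤) => f x) h
  apply Subtype.ext
  apply ext_of_isAffine
  ext y
  exact h3 y

section Classify

variable {e : C} {T₀ : Curve.PointChart c e} {γ : ℕ}

/-- **a framed point is a pullback of the universal framed point** -/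
theorem classify (β : Fin γ → Γ(C, T₀.U₁)) {T : Scheme.{u}} (_ : IsAffine T)
    (t : T ⟶ Spec (CommRingCat.of k)) (I : HPt c T₀ γ t) (h : I.Framed β) :
    ∃ g : SchemeHomOver t (hilby c T₀ β), (univPt c T₀ β).push g = I := by
  let _ := algOpen c T₀.U₁
  let _ := algTop t
  let _ := algTop (Spec.map (CommRingCat.ofHom (algebraMap k (Hilb.H k β))))
  let φ : Hilb.H k β →ₐ[k] Γ(T, ⊤) := Hilb.framedEquivHom k β ⟨I.1, h⟩
  refine ⟨toSpecOver t (Hilb.H k β) φ, ?_⟩
  apply Subtype.ext
  show Hilb.push k Γ(C, T₀.U₁) (appTopAlg (toSpecOver t (Hilb.H k β) φ))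
    (Hilb.push k Γ(C, T₀.U₁) (gammaSpecAlgEquiv (k := k) (Hilb.H k β)).toAlgHom
      (Hilb.univIdeal k β)) = I.1
  rw [← Hilb.push_comp, appTopAlg_toSpecOver, ← Hilb.framedEquivHom_symm_val]
  show ((Hilb.framedEquivHom k β).symm (Hilb.framedEquivHom k β ⟨I.1, h⟩)).1 = I.1
  rw [Equiv.symm_apply_apply]

/-- **the classifying morphism of a framed point is unique** -/
theorem classify_inj (β : Fin γ → Γ(C, T₀.U₁)) {T : Scheme.{u}} (_ : IsAffine T)
    (t : T ⟶ Spec (CommRingCat.of k)) (g g' : SchemeHomOver t (hilby c T₀ β))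
    (h : (univPt c T₀ β).push g = (univPt c T₀ β).push g') : g = g' := by
  let _ := algOpen c T₀.U₁
  let _ := algTop t
  let _ := algTop (Spec.map (CommRingCat.ofHom (algebraMap k (Hilb.H k β))))
  let g₀ : SchemeHomOver t (Spec.map (CommRingCat.ofHom (algebraMap k (Hilb.H k β)))) := g
  let g₀' : SchemeHomOver t (Spec.map (CommRingCat.ofHom (algebraMap k (Hilb.H k β)))) := g'
  have h1 : Hilb.push k Γ(C, T₀.U₁)
      ((appTopAlg g₀).comp (gammaSpecAlgEquiv (k := k) (Hilb.H k β)).toAlgHom) (Hilb.univIdeal k β) =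
      Hilb.push k Γ(C, T₀.U₁)
        ((appTopAlg g₀').comp (gammaSpecAlgEquiv (k := k) (Hilb.H k β)).toAlgHom)
        (Hilb.univIdeal k β) := by
    rw [Hilb.push_comp, Hilb.push_comp]
    exact congrArg Subtype.val h
  rw [← Hilb.framedEquivHom_symm_val, ← Hilb.framedEquivHom_symm_val] at h1
  have h2 := (Hilb.framedEquivHom k β).symm.injective (Subtype.ext h1)
  exact toSpecOver_inj t (Hilb.H k β) g₀ g₀' h2

end Classify

end Fermat.Agent.S25lib.Glue
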