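/-
S25lib / Glue / InPLocal  (helper2)  --  Project L (S25), block GLUE: the cut `FibrewiseAlgEquivZero` is local on
the base.
* `isPullback_baseChangeSnd`: `C ×_k T' = (C ×_k T) ×_T T'`.
* `isAlgEquivZero_of_pullbackAlong`: the fibre of `ψ^*M` at `s'` is the fibre of `M` at `s' ≫ ψ`.
* `inP_of_cover`: a bundle whose restrictions to an open cover of `T` belong to the cut belongs to the cut.
-/
import Fermat.Agent.S25lib.Glue.Ext

set_option autoImplicit false

noncomputable section

universe u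

open AlgebraicGeometry CategoryTheory CategoryTheory.Limits AlgebraicGeometry.RelPicard
  NeronModelInfra GoodReductionJacobian TopologicalSpace

namespace Fermat.Agent.S25lib.Glue

variable {R : Type u} [CommRing R] {C : Scheme.{u}} {c : C ⟶ Spec (CommRingCat.of R)}
  {ε : SchemeHomOver (𝟙 (Spec (CommRingCat.of R))) c}

theorem baseChangeSnd_fst {T T' : Scheme.{u}} {t : T ⟶ Spec (CommRingCat.of R)}
    {t' : T' ⟶ Spec (CommRingCat.of R)} (ψ : SchemeHomOver t' t) :
    baseChangeSnd c ψ ≫ pullback.fst c t = pullback.fst c t' := by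
  unfold baseChangeSnd
  rw [pullback.lift_fst, Category.comp_id]

theorem baseChangeSnd_snd {T T' : Scheme.{u}} {t : T ⟶ Spec (CommRingCat.of R)}
    {t' : T' ⟶ Spec (CommRingCat.of R)} (ψ : SchemeHomOver t' t) :
    baseChangeSnd c ψ ≫ pullback.snd c t = pullback.snd c t' ≫ ψ.1 := by
  unfold baseChangeSnd
  rw [pullback.lift_snd]

/-- `C ×_k T' = (C ×_k T) ×_T T'` -/
theorem isPullback_baseChangeSnd {T T' : Scheme.{u}} {t : T ⟶ Spec (CommRingCat.of R)}
    {t' : T' ⟶ Spec (CommRingCat.of R)} (ψ : SchemeHomOver t' t) :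
    IsPullback (baseChangeSnd c ψ) (pullback.snd c t') (pullback.snd c t) ψ.1 := by
  have hbig : IsPullback (baseChangeSnd c ψ ≫ pullback.fst c t) (pullback.snd c t') c
      (ψ.1 ≫ t) := by
    rw [baseChangeSnd_fst, ψ.2]
    exact IsPullback.of_hasPullback c t'
  exact IsPullback.of_right hbig (baseChangeSnd_snd ψ) (IsPullback.of_hasPullback c t)

/-- the fibre of `ψ^*M` at `s'` is the fibre of `M` at `s' ≫ ψ` -/
theorem isAlgEquivZero_of_pullbackAlong {T T' : Scheme.{u}} {t : T ⟶ Spec (CommRingCat.of R)}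
    {t' : T' ⟶ Spec (CommRingCat.of R)} (ψ : SchemeHomOver t' t)
    (M : RigidifiedLineBundle c ε t) {K : Type u} [Field K] (s' : Spec (CommRingCat.of K) ⟶ T')
    (h : IsAlgEquivZero (fibreAt c t' s')
      ((Scheme.Modules.pullback (pullback.fst (pullback.snd c t') s')).obj
        (M.pullbackAlong ψ).L)) :
    IsAlgEquivZero (fibreAt c t (s' ≫ ψ.1))
      ((Scheme.Modules.pullback (pullback.fst (pullback.snd c t) (s' ≫ ψ.1))).obj M.L) := by
  have H3 : IsPullback (pullback.fst (pullback.snd c t') s' ≫ baseChangeSnd c ψ)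
      (pullback.snd (pullback.snd c t') s') (pullback.snd c t) (s' ≫ ψ.1) :=
    (IsPullback.of_hasPullback (pullback.snd c t') s').paste_horiz (isPullback_baseChangeSnd ψ)
  let e := H3.isoPullback
  have he1 : e.hom ≫ pullback.fst (pullback.snd c t) (s' ≫ ψ.1) =
      pullback.fst (pullback.snd c t') s' ≫ baseChangeSnd c ψ := H3.isoPullback_hom_fst
  have he2 : e.hom ≫ pullback.snd (pullback.snd c t) (s' ≫ ψ.1) =
      pullback.snd (pullback.snd c t') s' := H3.isoPullback_hom_snd
  have he : e.inv ≫ fibreAt c t' s' = fibreAt c t (s' ≫ ψ.1) := by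
    unfold fibreAt
    rw [Iso.inv_comp_eq, he2]
  have hfst : e.inv ≫ pullback.fst (pullback.snd c t') s' ≫ baseChangeSnd c ψ =
      pullback.fst (pullback.snd c t) (s' ≫ ψ.1) := by
    rw [Iso.inv_comp_eq, he1]
  refine IsAlgEquivZero.of_iso ?_ (h.pullback e.inv he)
  exact (Scheme.Modules.pullback e.inv).mapIso ((Scheme.Modules.pullbackComp _ _).app M.L) ≪≫
    (Scheme.Modules.pullbackComp _ _).app M.L ≪≫
    (Scheme.Modules.pullbackCongr hfst).app M.L

/-- **the cut is local on the base** -/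
theorem inP_of_cover {T : Scheme.{u}} (t : T ⟶ Spec (CommRingCat.of R)) {A : Type*}
    {Tα : A → Scheme.{u}} {tα : ∀ α, Tα α ⟶ Spec (CommRingCat.of R)}
    (g : ∀ α, SchemeHomOver (tα α) t) [∀ α, IsOpenImmersion (g α).1]
    (hcov : ∀ x : T, ∃ α, x ∈ Set.range (g α).1.base) (M : RigidifiedLineBundle c ε t)
    (h : ∀ α, FibrewiseAlgEquivZero (M.pullbackAlong (g α))) : FibrewiseAlgEquivZero M := by
  intro K _ _ s
  have : Subsingleton ↥(Spec (CommRingCat.of K)) :=
    inferInstanceAs (Subsingleton (PrimeSpectrum K))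
  let pt : ↥(Spec (CommRingCat.of K)) := (⊥ : PrimeSpectrum K)
  obtain ⟨α, hα⟩ := hcov (s.base pt)
  have hrange : Set.range s.base ⊆ Set.range (g α).1.base := by
    rintro _ ⟨y, rfl⟩
    rw [Subsingleton.elim y pt]
    exact hα
  let s' : Spec (CommRingCat.of K) ⟶ Tα α := IsOpenImmersion.lift (g α).1 s hrange
  have hs' : s' ≫ (g α).1 = s := IsOpenImmersion.lift_fac (g α).1 s hrange
  have := isAlgEquivZero_of_pullbackAlong (g α) M s' (h α K s')
  rw [hs'] at this
  exact this

end Fermat.Agent.S25lib.Glue
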