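/-
S25lib / Glue / Functor  (helper2)  --  Project L (S25), block GLUE: **the Picard functor of the cut, as a
`Type u`-valued presheaf on `Scheme.{u}`**.
`picFunctor c ε : Scheme.{u}ᵒᵖ ⥤ Type u`, `T ↦ {(t : T ⟶ Spec R, M rigidified bundle of the cut over t)} / ≅`.
The classes form a `u`-small type because every invertible module is the module of a cocycle indexed by the
points (`Mod.exists_cocycle_iso_of_isInvertible`).
* `mkF t M hM : (picFunctor c ε).obj (op T)`, `mkF_eq_mkF_iff`, `exists_eq_mkF`, `map_mkF`.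
-/
import Fermat.Agent.S25lib.Glue.InPLocal
import Fermat.Agent.S25lib.Mod.Classify

set_option autoImplicit false

noncomputable section

universe u

open AlgebraicGeometry CategoryTheory CategoryTheory.Limits AlgebraicGeometry.RelPicard
  NeronModelInfra GoodReductionJacobian TopologicalSpace Opposite

namespace Fermat.Agent.S25lib.Glue

variable {R : Type u} [CommRing R] {C : Scheme.{u}} (c : C ⟶ Spec (CommRingCat.of R))
  (ε : SchemeHomOver (𝟙 (Spec (CommRingCat.of R))) c)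

/-- the rigidified bundles of the cut -/
abbrev CutB {T : Scheme.{u}} (t : T ⟶ Spec (CommRingCat.of R)) : Type (u + 1) :=
  {M : RigidifiedLineBundle c ε t // FibrewiseAlgEquivZero M}

/-- pairs (structure map, bundle of the cut) -/
def PreF (T : Scheme.{u}) : Type (u + 1) := Σ t : T ⟶ Spec (CommRingCat.of R), CutB c ε t

/-- same structure map and isomorphic bundles -/
def PreRel (T : Scheme.{u}) (a b : PreF c ε T) : Prop :=
  ∃ h : a.1 = b.1, Nonempty (a.2.1.L ≅ (h ▸ b.2).1.L)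

theorem preRel_mk {T : Scheme.{u}} (t : T ⟶ Spec (CommRingCat.of R)) (M M' : CutB c ε t)
    (h : Nonempty (M.1.L ≅ M'.1.L)) : PreRel c ε T ⟨t, M⟩ ⟨t, M'⟩ :=
  ⟨rfl, h⟩

theorem preRel_iff {T : Scheme.{u}} (t : T ⟶ Spec (CommRingCat.of R)) (M M' : CutB c ε t) :
    PreRel c ε T ⟨t, M⟩ ⟨t, M'⟩ ↔ Nonempty (M.1.L ≅ M'.1.L) :=
  ⟨fun ⟨_, h⟩ => h, fun h => ⟨rfl, h⟩⟩

theorem preRel_equivalence (T : Scheme.{u}) : Equivalence (PreRel c ε T) where
  refl a := ⟨rfl, ⟨Iso.refl _⟩⟩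
  symm {a b} h := by
    obtain ⟨t, M⟩ := a
    obtain ⟨t', M'⟩ := b
    obtain ⟨h, ⟨i⟩⟩ := h
    dsimp only at h
    subst h
    exact ⟨rfl, ⟨i.symm⟩⟩
  trans {a b d} h h' := by
    obtain ⟨t, M⟩ := a
    obtain ⟨t', M'⟩ := b
    obtain ⟨t'', M''⟩ := d
    obtain ⟨h, ⟨i⟩⟩ := h
    obtain ⟨h', ⟨i'⟩⟩ := h'
    dsimp only at h h'
    subst h
    subst h'
    exact ⟨rfl, ⟨i ≪≫ i'⟩⟩

instance preSetoid (T : Scheme.{u}) : Setoid (PreF c ε T) := ⟨PreRel c ε T, preRel_equivalence c ε T⟩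

/-- the classes (a large type) -/
def PicQ (T : Scheme.{u}) : Type (u + 1) := Quotient (preSetoid c ε T)

/-- the small parameter type: a structure map and a cocycle indexed by the points -/
def PicParam (T : Scheme.{u}) : Type u :=
  Σ t : T ⟶ Spec (CommRingCat.of R),
    Mod.Cocycle (pullback c t : Scheme.{u}) ↥(pullback c t : Scheme.{u})

open Classical in
/-- the class of a parameter -/
def paramClass (T : Scheme.{u}) (p : PicParam c T) : PicQ c ε T :=
  if h : Nonempty ((Scheme.Modules.pullback (rigSection c p.1 ε)).obj p.2.toModule ≅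
      SheafOfModules.unit T.ringCatSheaf) then
    (if h' : FibrewiseAlgEquivZero
        (⟨p.2.toModule, p.2.isInvertible_toModule, h⟩ : RigidifiedLineBundle c ε p.1) then
      Quotient.mk _ ⟨p.1, ⟨⟨p.2.toModule, p.2.isInvertible_toModule, h⟩, h'⟩⟩
    else Quotient.mk _ ⟨p.1, ⟨RigidifiedLineBundle.unit p.1, fibrewiseAlgEquivZero_unit p.1⟩⟩)
  else Quotient.mk _ ⟨p.1, ⟨RigidifiedLineBundle.unit p.1, fibrewiseAlgEquivZero_unit p.1⟩⟩

theorem paramClass_surjective (T : Scheme.{u}) : Function.Surjective (paramClass c ε T) := by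
  intro x
  induction x using Quotient.ind with
  | _ a =>
    obtain ⟨t, ⟨M, hM⟩⟩ := a
    obtain ⟨Z, ⟨e⟩⟩ := Mod.exists_cocycle_iso_of_isInvertible M.isInvertible
    have h : Nonempty ((Scheme.Modules.pullback (rigSection c t ε)).obj Z.toModule ≅
        SheafOfModules.unit T.ringCatSheaf) :=
      ⟨(Scheme.Modules.pullback (rigSection c t ε)).mapIso e.symm ≪≫ M.rigidified.some⟩
    have h' : FibrewiseAlgEquivZero
        (⟨Z.toModule, Z.isInvertible_toModule, h⟩ : RigidifiedLineBundle c ε t) :=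
      hM.congr ⟨e⟩
    refine ⟨⟨t, Z⟩, ?_⟩
    unfold paramClass
    rw [dif_pos h, dif_pos h']
    exact Quotient.sound (preRel_mk c ε t _ _ ⟨e.symm⟩)

instance small_picQ (T : Scheme.{u}) : Small.{u} (PicQ c ε T) :=
  small_of_surjective (paramClass_surjective c ε T)

/-- the pullback of pairs -/
def preMap {T T' : Scheme.{u}} (ψ : T' ⟶ T) (a : PreF c ε T) : PreF c ε T' :=
  ⟨ψ ≫ a.1, ⟨a.2.1.pullbackAlong (homOver ψ a.1), a.2.2.pullback _⟩⟩

theorem preMap_rel {T T' : Scheme.{u}} (ψ : T' ⟶ T) (a b : PreF c ε T) (h : PreRel c ε T a b) :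
    PreRel c ε T' (preMap c ε ψ a) (preMap c ε ψ b) := by
  obtain ⟨t, M⟩ := a
  obtain ⟨t', M'⟩ := b
  obtain ⟨h, i⟩ := h
  dsimp only at h
  subst h
  exact ⟨rfl, pullbackAlong_iso _ i⟩

/-- the pullback of classes -/
def qMap {T T' : Scheme.{u}} (ψ : T' ⟶ T) : PicQ c ε T → PicQ c ε T' :=
  Quotient.map (preMap c ε ψ) (preMap_rel c ε ψ)

/-- two pairs with equal structure maps whose bundles are pullbacks of one bundle along the same
morphism are related -/
theorem preRel_of_pullbacks {T S : Scheme.{u}} {s : S ⟶ Spec (CommRingCat.of R)}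
    (N : RigidifiedLineBundle c ε s) {t₁ t₂ : T ⟶ Spec (CommRingCat.of R)} (h : t₁ = t₂)
    (M₁ : CutB c ε t₁) (M₂ : CutB c ε t₂) (φ₁ : SchemeHomOver t₁ s) (φ₂ : SchemeHomOver t₂ s)
    (hφ : φ₁.1 = φ₂.1) (i₁ : Nonempty (M₁.1.L ≅ (N.pullbackAlong φ₁).L))
    (i₂ : Nonempty (M₂.1.L ≅ (N.pullbackAlong φ₂).L)) :
    PreRel c ε T ⟨t₁, M₁⟩ ⟨t₂, M₂⟩ := by
  subst h
  have : φ₁ = φ₂ := schemeHomOver_ext hφ
  subst this
  exact ⟨rfl, ⟨i₁.some ≪≫ i₂.some.symm⟩⟩

theorem qMap_id {T : Scheme.{u}} (x : PicQ c ε T) : qMap c ε (𝟙 T) x = x := by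
  induction x using Quotient.ind with
  | _ a =>
    obtain ⟨t, M⟩ := a
    refine Quotient.sound (preRel_of_pullbacks c ε M.1 (Category.id_comp t) _ _
      (homOver (𝟙 T) t) (idOver t) rfl ⟨Iso.refl _⟩ ⟨(pullbackAlongIdIso M.1 (idOver t) rfl).symm⟩)

theorem qMap_comp {T T' T'' : Scheme.{u}} (ψ : T' ⟶ T) (χ : T'' ⟶ T') (x : PicQ c ε T) :
    qMap c ε (χ ≫ ψ) x = qMap c ε χ (qMap c ε ψ x) := by
  induction x using Quotient.ind with
  | _ a =>
    obtain ⟨t, M⟩ := a
    refine Quotient.sound (preRel_of_pullbacks c ε M.1 (Category.assoc χ ψ t) _ _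
      (homOver (χ ≫ ψ) t) (postComp (homOver ψ t) (homOver χ (ψ ≫ t))) rfl ⟨Iso.refl _⟩
      ⟨(pullbackAlongCompIso M.1 (homOver ψ t) (homOver χ (ψ ≫ t)) _ rfl).symm⟩)

/-- **the Picard functor of the cut** -/
def picFunctor : Scheme.{u}ᵒᵖ ⥤ Type u where
  obj T := Shrink.{u} (PicQ c ε T.unop)
  map {T T'} ψ := TypeCat.ofHom (fun x =>
    equivShrink _ (qMap c ε ψ.unop ((equivShrink _).symm x)))
  map_id T := TypeCat.homEquiv.injective (funext fun x => by
    change equivShrink _ (qMap c ε (𝟙 T.unop) ((equivShrink _).symm x)) = x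
    rw [qMap_id, Equiv.apply_symm_apply])
  map_comp {T T' T''} ψ χ := TypeCat.homEquiv.injective (funext fun x => by
    change equivShrink _ (qMap c ε (χ.unop ≫ ψ.unop) ((equivShrink _).symm x)) =
      equivShrink _ (qMap c ε χ.unop ((equivShrink _).symm
        (equivShrink _ (qMap c ε ψ.unop ((equivShrink _).symm x)))))
    rw [Equiv.symm_apply_apply, qMap_comp])

variable {c ε}

/-- the class of a bundle of the cut -/
def mkF {T : Scheme.{u}} (t : T ⟶ Spec (CommRingCat.of R)) (M : RigidifiedLineBundle c ε t)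
    (hM : FibrewiseAlgEquivZero M) : (picFunctor c ε).obj (op T) :=
  equivShrink _ (Quotient.mk _ ⟨t, ⟨M, hM⟩⟩)

theorem exists_eq_mkF {T : Scheme.{u}} (x : (picFunctor c ε).obj (op T)) :
    ∃ (t : T ⟶ Spec (CommRingCat.of R)) (M : RigidifiedLineBundle c ε t)
      (hM : FibrewiseAlgEquivZero M), x = mkF t M hM := by
  obtain ⟨y, rfl⟩ := (equivShrink (PicQ c ε T)).surjective x
  induction y using Quotient.ind with
  | _ a =>
    obtain ⟨t, ⟨M, hM⟩⟩ := a
    exact ⟨t, M, hM, rfl⟩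

theorem mkF_eq_mkF_iff {T : Scheme.{u}} (t : T ⟶ Spec (CommRingCat.of R))
    (M M' : RigidifiedLineBundle c ε t) (hM : FibrewiseAlgEquivZero M)
    (hM' : FibrewiseAlgEquivZero M') :
    mkF t M hM = mkF t M' hM' ↔ Nonempty (M.L ≅ M'.L) := by
  unfold mkF
  constructor
  · intro h
    exact (preRel_iff c ε t ⟨M, hM⟩ ⟨M', hM'⟩).mp (Quotient.exact ((equivShrink (PicQ c ε T)).injective h))
  · intro h
    exact congrArg _ (Quotient.sound (preRel_mk c ε t ⟨M, hM⟩ ⟨M', hM'⟩ h))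

theorem eq_of_mkF_eq_mkF {T : Scheme.{u}} {t t' : T ⟶ Spec (CommRingCat.of R)}
    {M : RigidifiedLineBundle c ε t} {M' : RigidifiedLineBundle c ε t'}
    {hM : FibrewiseAlgEquivZero M} {hM' : FibrewiseAlgEquivZero M'}
    (h : mkF t M hM = mkF t' M' hM') : t = t' := by
  unfold mkF at h
  obtain ⟨h1, -⟩ := Quotient.exact ((equivShrink (PicQ c ε T)).injective h)
  exact h1

theorem map_mkF {T T' : Scheme.{u}} (ψ : T' ⟶ T) (t : T ⟶ Spec (CommRingCat.of R))
    (M : RigidifiedLineBundle c ε t) (hM : FibrewiseAlgEquivZero M) :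
    (picFunctor c ε).map ψ.op (mkF t M hM) =
      mkF (ψ ≫ t) (M.pullbackAlong (homOver ψ t)) (hM.pullback _) := by
  change equivShrink _ (qMap c ε ψ ((equivShrink _).symm (equivShrink _ _))) = _
  rw [Equiv.symm_apply_apply]
  rfl

/-- from an equality of classes to an isomorphism, for a pullback on the right -/
theorem iso_of_mkF_eq_pullback {T S : Scheme.{u}} {s : S ⟶ Spec (CommRingCat.of R)}
    (N : RigidifiedLineBundle c ε s) {t t' : T ⟶ Spec (CommRingCat.of R)}
    (M : RigidifiedLineBundle c ε t) (hM : FibrewiseAlgEquivZero M) (φ' : SchemeHomOver t' s)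
    (hN' : FibrewiseAlgEquivZero (N.pullbackAlong φ'))
    (h : mkF t M hM = mkF t' (N.pullbackAlong φ') hN') (φ : SchemeHomOver t s)
    (hφ : φ.1 = φ'.1) : Nonempty (M.L ≅ (N.pullbackAlong φ).L) := by
  have ht := eq_of_mkF_eq_mkF h
  subst ht
  have : φ = φ' := schemeHomOver_ext hφ
  subst this
  exact (mkF_eq_mkF_iff t M _ hM hN').mp h

/-- from an isomorphism to an equality of classes, for a pullback on the left -/
theorem mkF_pullback_eq {T S : Scheme.{u}} {s : S ⟶ Spec (CommRingCat.of R)}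
    (N : RigidifiedLineBundle c ε s) {t t' : T ⟶ Spec (CommRingCat.of R)}
    (φ : SchemeHomOver t s) (φ' : SchemeHomOver t' s) (hφ : φ.1 = φ'.1) (ht : t = t')
    (hN : FibrewiseAlgEquivZero (N.pullbackAlong φ))
    (M' : RigidifiedLineBundle c ε t') (hM' : FibrewiseAlgEquivZero M')
    (i : Nonempty ((N.pullbackAlong φ').L ≅ M'.L)) :
    mkF t (N.pullbackAlong φ) hN = mkF t' M' hM' := by
  subst ht
  have : φ = φ' := schemeHomOver_ext hφ
  subst this
  exact (mkF_eq_mkF_iff t _ M' hN hM').mpr i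

end Fermat.Agent.S25lib.Glue
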