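/-
S25lib / Glue / Sheaf  (helper2)  --  Project L (S25), block GLUE: **the Picard functor of the cut is a Zariski
sheaf** (`isSheaf_picFunctor`, from `sep_ext`, `glue_ext`, `inP_of_cover`), `picSheaf`.
-/
import Fermat.Agent.S25lib.Glue.Functor

set_option autoImplicit false

noncomputable section

universe u

open AlgebraicGeometry CategoryTheory CategoryTheory.Limits AlgebraicGeometry.RelPicard
  NeronModelInfra GoodReductionJacobian TopologicalSpace Opposite

namespace Fermat.Agent.S25lib.Glue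

variable {R : Type u} [CommRing R] {C : Scheme.{u}} {c : C ⟶ Spec (CommRingCat.of R)}
  {ε : SchemeHomOver (𝟙 (Spec (CommRingCat.of R))) c}

/-- **the Picard functor of the cut is a Zariski sheaf** -/
theorem isSheaf_picFunctor (hq : RigApp c) :
    Presieve.IsSheaf Scheme.zariskiTopology (picFunctor c ε) := by
  classical
  rw [Precoverage.isSheaf_toGrothendieck_iff_of_isStableUnderBaseChange]
  rintro Y S hS x hx
  obtain ⟨(𝓤 : Scheme.OpenCover Y), rfl⟩ := Scheme.exists_cover_of_mem_pretopology hS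
  -- representatives of the local classes
  have hrep : ∀ j, ∃ (t : 𝓤.X j ⟶ Spec (CommRingCat.of R)) (M : RigidifiedLineBundle c ε t)
      (hM : FibrewiseAlgEquivZero M), x (𝓤.f j) (.mk j) = mkF t M hM := fun j => exists_eq_mkF _
  choose tj Mj hMj hxj using hrep
  -- compatibility on the overlaps
  have hcompat : ∀ i j,
      mkF (pullback.fst (𝓤.f i) (𝓤.f j) ≫ tj i)
          ((Mj i).pullbackAlong (homOver (pullback.fst (𝓤.f i) (𝓤.f j)) (tj i)))
          ((hMj i).pullback _) =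
        mkF (pullback.snd (𝓤.f i) (𝓤.f j) ≫ tj j)
          ((Mj j).pullbackAlong (homOver (pullback.snd (𝓤.f i) (𝓤.f j)) (tj j)))
          ((hMj j).pullback _) := by
    intro i j
    have := hx (pullback.fst (𝓤.f i) (𝓤.f j)) (pullback.snd (𝓤.f i) (𝓤.f j))
      (Presieve.ofArrows.mk i) (Presieve.ofArrows.mk j) pullback.condition
    rw [hxj i, hxj j, map_mkF, map_mkF] at this
    exact this
  -- the structure map
  have htcompat : ∀ i j, pullback.fst (𝓤.f i) (𝓤.f j) ≫ tj i =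
      pullback.snd (𝓤.f i) (𝓤.f j) ≫ tj j := fun i j => eq_of_mkF_eq_mkF (hcompat i j)
  let t : Y ⟶ Spec (CommRingCat.of R) := 𝓤.glueMorphisms tj htcompat
  have ht : ∀ j, 𝓤.f j ≫ t = tj j := fun j => 𝓤.ι_glueMorphisms tj htcompat j
  let g : ∀ j, SchemeHomOver (tj j) t := fun j => ⟨𝓤.f j, ht j⟩
  have hg : ∀ j, IsOpenImmersion (g j).1 := fun j => inferInstanceAs (IsOpenImmersion (𝓤.f j))
  have hcov : ∀ y : Y, ∃ j, y ∈ Set.range (g j).1.base := by
    intro y
    obtain ⟨j, z, hz⟩ := 𝓤.exists_eq y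
    exact ⟨j, z, hz⟩
  -- the glued bundle
  obtain ⟨M₀, hM₀⟩ := glue_ext hq t g hcov Mj (by
    intro i j
    refine ⟨pullback (𝓤.f i) (𝓤.f j), pullback.fst (𝓤.f i) (𝓤.f j) ≫ tj i,
      homOver (pullback.fst (𝓤.f i) (𝓤.f j)) (tj i),
      ⟨pullback.snd (𝓤.f i) (𝓤.f j), (htcompat i j).symm⟩,
      inferInstanceAs (IsOpenImmersion (pullback.fst (𝓤.f i) (𝓤.f j))),
      inferInstanceAs (IsOpenImmersion (pullback.snd (𝓤.f i) (𝓤.f j))),
      pullback.condition, ?_, ?_⟩
    · intro y hy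
      have := Scheme.Pullback.range_snd_comp (𝓤.f i) (𝓤.f j)
      have h2 : y ∈ Set.range ⇑(pullback.snd (𝓤.f i) (𝓤.f j) ≫ 𝓤.f j) := by
        rw [this]
        exact hy
      exact h2
    · exact iso_of_mkF_eq_pullback (Mj j) _ _ (homOver (pullback.snd (𝓤.f i) (𝓤.f j)) (tj j)) _
        (hcompat i j) ⟨pullback.snd (𝓤.f i) (𝓤.f j), (htcompat i j).symm⟩ rfl)
  have hM₀P : FibrewiseAlgEquivZero M₀ :=
    inP_of_cover t g hcov M₀ (fun j => (hMj j).congr ⟨(hM₀ j).some.symm⟩)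
  have hres : ∀ j, (picFunctor c ε).map (𝓤.f j).op (mkF t M₀ hM₀P) = mkF (tj j) (Mj j) (hMj j) := by
    intro j
    rw [map_mkF]
    exact mkF_pullback_eq M₀ (homOver (𝓤.f j) t) (g j) rfl (ht j) _ (Mj j) (hMj j) (hM₀ j)
  refine ⟨mkF t M₀ hM₀P, ?_, ?_⟩
  · rintro Z f ⟨j⟩
    rw [hxj j]
    exact hres j
  · intro y hy
    obtain ⟨t', M', hM', rfl⟩ := exists_eq_mkF y
    have hy' : ∀ j, mkF (𝓤.f j ≫ t') (M'.pullbackAlong (homOver (𝓤.f j) t')) (hM'.pullback _) =
        mkF (tj j) (Mj j) (hMj j) := by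
      intro j
      have := hy (𝓤.f j) (.mk j)
      rw [hxj j, map_mkF] at this
      exact this
    have htt' : t' = t := by
      apply 𝓤.hom_ext
      intro j
      rw [ht j]
      exact eq_of_mkF_eq_mkF (hy' j)
    subst htt'
    rw [mkF_eq_mkF_iff]
    apply sep_ext hq t g hcov M' M₀
    intro j
    obtain ⟨i1⟩ := iso_of_mkF_eq_pullback M' (Mj j) (hMj j) (homOver (𝓤.f j) t) _ (hy' j).symm
      (g j) rfl
    obtain ⟨i2⟩ := hM₀ j
    exact ⟨i1.symm ≪≫ i2.symm⟩

/-- the Picard sheaf of the cut -/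
def picSheaf (hq : RigApp c) : Sheaf Scheme.zariskiTopology.{u} (Type u) :=
  ⟨picFunctor c ε, (isSheaf_iff_isSheaf_of_type _ _).2 (isSheaf_picFunctor hq)⟩

end Fermat.Agent.S25lib.Glue
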