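/-
S25lib / Glue / Chart  (helper2)  --  Project L (S25), block GLUE: a chart of the Picard functor is a relatively
representable open immersion `yoneda V ⟶ picFunctor` (`chartHom`, `chartHom_relative`).
-/
import Fermat.Agent.S25lib.Glue.Sheaf

set_option autoImplicit false

noncomputable section

universe u

open AlgebraicGeometry CategoryTheory CategoryTheory.Limits AlgebraicGeometry.RelPicard
  NeronModelInfra GoodReductionJacobian TopologicalSpace Opposite

namespace Fermat.Agent.S25lib.Glue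

variable {k : Type u} [Field k] {C : Scheme.{u}} {c : C ⟶ Spec (CommRingCat.of k)}
  {ε : SchemeHomOver (𝟙 (Spec (CommRingCat.of k))) c}

/-- the class of a pullback, independently of the presentation of the morphism -/
theorem mkF_eq_of_pullbacks {S₁ S₂ T' T'' : Scheme.{u}} {s₁ : S₁ ⟶ Spec (CommRingCat.of k)}
    {s₂ : S₂ ⟶ Spec (CommRingCat.of k)} {t' : T' ⟶ Spec (CommRingCat.of k)}
    (N₁ : RigidifiedLineBundle c ε s₁) (N₂ : RigidifiedLineBundle c ε s₂)
    (χ₁ : SchemeHomOver t' s₁) (χ₂ : SchemeHomOver t' s₂)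
    (i : Nonempty ((N₁.pullbackAlong χ₁).L ≅ (N₂.pullbackAlong χ₂).L)) (h : T'' ⟶ T')
    {t₁ t₂ : T'' ⟶ Spec (CommRingCat.of k)} (φ₁ : SchemeHomOver t₁ s₁) (φ₂ : SchemeHomOver t₂ s₂)
    (hφ₁ : φ₁.1 = h ≫ χ₁.1) (hφ₂ : φ₂.1 = h ≫ χ₂.1)
    (hP₁ : FibrewiseAlgEquivZero (N₁.pullbackAlong φ₁))
    (hP₂ : FibrewiseAlgEquivZero (N₂.pullbackAlong φ₂)) :
    mkF t₁ (N₁.pullbackAlong φ₁) hP₁ = mkF t₂ (N₂.pullbackAlong φ₂) hP₂ := by
  have ht₁ : t₁ = h ≫ t' := by rw [← φ₁.2, hφ₁, Category.assoc, χ₁.2]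
  have ht₂ : t₂ = h ≫ t' := by rw [← φ₂.2, hφ₂, Category.assoc, χ₂.2]
  have hP : FibrewiseAlgEquivZero ((N₂.pullbackAlong χ₂).pullbackAlong (homOver h t')) :=
    FibrewiseAlgEquivZero.congr
      ⟨pullbackAlongCompIso N₂ χ₂ (homOver h t') (postComp χ₂ (homOver h t')) rfl⟩
      (by
        subst ht₂
        have e : φ₂ = postComp χ₂ (homOver h t') := schemeHomOver_ext hφ₂
        subst e
        exact hP₂)
  have e1 : mkF t₁ (N₁.pullbackAlong φ₁) hP₁ =
      mkF (h ≫ t') ((N₂.pullbackAlong χ₂).pullbackAlong (homOver h t')) hP :=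
    mkF_pullback_eq N₁ φ₁ (postComp χ₁ (homOver h t')) hφ₁ ht₁ hP₁ _ hP
      ⟨pullbackAlongCompIso N₁ χ₁ (homOver h t') _ rfl ≪≫ (pullbackAlong_iso _ i).some⟩
  have e2 : mkF t₂ (N₂.pullbackAlong φ₂) hP₂ =
      mkF (h ≫ t') ((N₂.pullbackAlong χ₂).pullbackAlong (homOver h t')) hP :=
    mkF_pullback_eq N₂ φ₂ (postComp χ₂ (homOver h t')) hφ₂ ht₂ hP₂ _ hP
      ⟨pullbackAlongCompIso N₂ χ₂ (homOver h t') _ rfl⟩
  rw [e1, e2]

/-- the classifying morphism of a chart -/
def chartHom (X : Chart c ε) : yoneda.obj X.V ⟶ picFunctor c ε :=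
  yonedaEquiv.symm (mkF X.v X.univ X.univ_mem)

theorem chartHom_app (X : Chart c ε) {T : Scheme.{u}} (a : T ⟶ X.V) :
    (chartHom X).app (op T) a =
      mkF (a ≫ X.v) (X.univ.pullbackAlong (homOver a X.v)) (X.univ_mem.pullback _) := by
  change (picFunctor c ε).map a.op (mkF X.v X.univ X.univ_mem) = _
  rw [map_mkF]

/-- the classes of the pullbacks of the universal bundle -/
theorem chartHom_app_eq_iff (X : Chart c ε) {T : Scheme.{u}} (a : T ⟶ X.V)
    (t : T ⟶ Spec (CommRingCat.of k)) (M : RigidifiedLineBundle c ε t)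
    (hM : FibrewiseAlgEquivZero M) :
    (chartHom X).app (op T) a = mkF t M hM ↔
      ∃ h : a ≫ X.v = t, Nonempty ((X.univ.pullbackAlong ⟨a, h⟩).L ≅ M.L) := by
  rw [chartHom_app]
  constructor
  · intro h
    have ht := eq_of_mkF_eq_mkF h
    subst ht
    exact ⟨rfl, (mkF_eq_mkF_iff _ _ _ _ _).mp h⟩
  · rintro ⟨h, i⟩
    subst h
    exact (mkF_eq_mkF_iff _ _ _ _ _).mpr i

theorem app_yonedaEquiv_symm {T S : Scheme.{u}} (x : (picFunctor c ε).obj (op T)) (s : S ⟶ T) :
    (yonedaEquiv.symm x).app (op S) s = (picFunctor c ε).map s.op x := rfl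

/-- **a chart is a relatively representable open immersion** -/
theorem chartHom_relative (X : Chart c ε) : IsOpenImmersion.presheaf (chartHom X) := by
  apply MorphismProperty.relative.of_exists
  intro T g
  obtain ⟨t, M, hM, hx⟩ := exists_eq_mkF (yonedaEquiv g)
  have hg : g = yonedaEquiv.symm (mkF t M hM) := by
    rw [← hx, Equiv.symm_apply_apply]
  subst hg
  let L : T.Opens := X.locus t M
  obtain ⟨gl, hgl⟩ := (X.locus_iff t (L.ι ≫ t) (homOver L.ι t) M hM).mpr (by
    change Set.range L.ι.base ⊆ (L : Set T)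
    rw [Scheme.Opens.range_ι])
  refine ⟨L.toScheme, yoneda.map gl.1, L.ι, ?_, inferInstanceAs (IsOpenImmersion L.ι)⟩
  apply IsPullback.of_forall_isPullback_app
  intro S
  rw [Types.isPullback_iff]
  refine ⟨?_, ?_, ?_⟩
  · -- the square commutes
    apply TypeCat.homEquiv.injective
    funext h
    change (chartHom X).app S (h ≫ gl.1) = (picFunctor c ε).map (h ≫ L.ι).op (mkF t M hM)
    rw [map_mkF]
    have h1 := chartHom_app X (h ≫ gl.1)
    rw [h1]
    exact mkF_eq_of_pullbacks X.univ M gl (homOver L.ι t) hgl h _ _ rfl rfl _ _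
  · -- injectivity
    rintro h₁ h₂ ⟨-, h⟩
    have h' : h₁ ≫ L.ι = h₂ ≫ L.ι := h
    exact (cancel_mono L.ι).mp h'
  · -- surjectivity
    intro a s has
    have has' : (chartHom X).app S a = (picFunctor c ε).map s.op (mkF t M hM) := has
    rw [map_mkF] at has'
    obtain ⟨hst, i⟩ := (chartHom_app_eq_iff X a _ _ _).mp has'
    -- `s` factors through the locus
    have hrange : Set.range s.base ⊆ (L : Set T) :=
      (X.locus_iff t (s ≫ t) (homOver s t) M hM).mp ⟨⟨a, hst⟩, i⟩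
    have hrange' : Set.range s.base ⊆ Set.range L.ι.base := by
      rw [Scheme.Opens.range_ι]
      exact hrange
    let h : S.unop ⟶ L.toScheme := IsOpenImmersion.lift L.ι s hrange'
    have hh : h ≫ L.ι = s := IsOpenImmersion.lift_fac L.ι s hrange'
    refine ⟨h, ?_, hh⟩
    -- `a = h ≫ gl` by the uniqueness of the classifying map
    have hmono := X.mono (s ≫ t) ⟨h ≫ gl.1, by rw [Category.assoc, gl.2, ← Category.assoc, hh]⟩
      ⟨a, hst⟩ (by
        have e1 := mkF_eq_of_pullbacks X.univ M gl (homOver L.ι t) hgl h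
          (⟨h ≫ gl.1, by rw [Category.assoc, gl.2, ← Category.assoc, hh]⟩ :
            SchemeHomOver (s ≫ t) X.v)
          (homOver s t) rfl hh.symm (X.univ_mem.pullback _) (hM.pullback _)
        have e2 := (mkF_eq_mkF_iff _ _ _ (X.univ_mem.pullback _) (hM.pullback _)).mpr i
        exact (mkF_eq_mkF_iff _ _ _ _ _).mp (e1.trans e2.symm))
    exact congrArg Subtype.val hmono

end Fermat.Agent.S25lib.Glue
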