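/-
S25lib / Glue / ExtChart  (helper2)  --  Project L (S25), block GLUE: **(Ext)**: an affine-local chart of the Picard
functor extends to all test schemes (`ext_of_rigApp`): the classifying maps over an affine cover are glued
(`Scheme.Cover.glueMorphisms`), their compatibility is the uniqueness of the classifying map, and the
classes are compared by the separatedness of the Picard functor (`sep_ext`).
-/
import Fermat.Agent.S25lib.Glue.Chart

set_option autoImplicit false

noncomputable section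

universe u

open AlgebraicGeometry CategoryTheory CategoryTheory.Limits AlgebraicGeometry.RelPicard
  NeronModelInfra GoodReductionJacobian TopologicalSpace Opposite

namespace Fermat.Agent.S25lib.Glue

variable {k : Type u} [Field k] {C : Scheme.{u}} {c : C ⟶ Spec (CommRingCat.of k)}
  {ε : SchemeHomOver (𝟙 (Spec (CommRingCat.of k))) c}

theorem picFunctor_map_comp {T T' T'' : Scheme.{u}} (f : T'' ⟶ T') (g : T' ⟶ T)
    (x : (picFunctor c ε).obj (op T)) :
    (picFunctor c ε).map (f ≫ g).op x =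
      (picFunctor c ε).map f.op ((picFunctor c ε).map g.op x) := by
  rw [op_comp, Functor.map_comp]
  rfl

/-- the class of a pullback along a morphism over the base -/
theorem map_mkF_over {S T' : Scheme.{u}} {s : S ⟶ Spec (CommRingCat.of k)}
    {t' : T' ⟶ Spec (CommRingCat.of k)} (φ : SchemeHomOver t' s)
    (N : RigidifiedLineBundle c ε s) (hN : FibrewiseAlgEquivZero N) :
    (picFunctor c ε).map φ.1.op (mkF s N hN) = mkF t' (N.pullbackAlong φ) (hN.pullback φ) := by
  rw [map_mkF]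
  exact mkF_pullback_eq N (homOver φ.1 s) φ rfl φ.2 _ _ _ ⟨Iso.refl _⟩

/-- the bundles which are pullbacks of `N`, in terms of classes -/
theorem exists_over_iff {S T' : Scheme.{u}} {s : S ⟶ Spec (CommRingCat.of k)}
    {t' : T' ⟶ Spec (CommRingCat.of k)} (N : RigidifiedLineBundle c ε s)
    (hN : FibrewiseAlgEquivZero N) (M' : RigidifiedLineBundle c ε t')
    (hM' : FibrewiseAlgEquivZero M') :
    (∃ g : SchemeHomOver t' s, Nonempty ((N.pullbackAlong g).L ≅ M'.L)) ↔
      ∃ a : T' ⟶ S, (picFunctor c ε).map a.op (mkF s N hN) = mkF t' M' hM' := by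
  constructor
  · rintro ⟨g, i⟩
    refine ⟨g.1, ?_⟩
    rw [map_mkF_over g N hN]
    exact (mkF_eq_mkF_iff _ _ _ _ _).mpr i
  · rintro ⟨a, h⟩
    rw [map_mkF] at h
    have ht := eq_of_mkF_eq_mkF h
    subst ht
    exact ⟨homOver a s, (mkF_eq_mkF_iff _ _ _ _ _).mp h⟩

/-- separatedness of the Picard functor -/
theorem picFunctor_ext_of_cover (hq : RigApp c) {T : Scheme.{u}} (𝓤 : T.OpenCover)
    (z₁ z₂ : (picFunctor c ε).obj (op T))
    (h : ∀ j, (picFunctor c ε).map (𝓤.f j).op z₁ = (picFunctor c ε).map (𝓤.f j).op z₂) :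
    z₁ = z₂ := by
  obtain ⟨t₁, M₁, hM₁, rfl⟩ := exists_eq_mkF z₁
  obtain ⟨t₂, M₂, hM₂, rfl⟩ := exists_eq_mkF z₂
  simp only [map_mkF] at h
  have ht : t₁ = t₂ := 𝓤.hom_ext _ _ fun j => eq_of_mkF_eq_mkF (h j)
  subst ht
  rw [mkF_eq_mkF_iff]
  have : ∀ j, IsOpenImmersion (homOver (𝓤.f j) t₁).1 :=
    fun j => inferInstanceAs (IsOpenImmersion (𝓤.f j))
  refine sep_ext hq t₁ (fun j => homOver (𝓤.f j) t₁) ?_ M₁ M₂
    fun j => (mkF_eq_mkF_iff _ _ _ _ _).mp (h j)
  intro y
  obtain ⟨j, z, hz⟩ := 𝓤.exists_eq y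
  exact ⟨j, z, hz⟩

/-- the universal class of an affine-local chart -/
def affCls (A : AffChart c ε) : (picFunctor c ε).obj (op A.V) := mkF A.v A.univ A.univ_mem

/-- uniqueness of the classifying map, affine test schemes -/
theorem affCls_mono_affine (A : AffChart c ε) {T : Scheme.{u}} (hT : IsAffine T) (a a' : T ⟶ A.V)
    (h : (picFunctor c ε).map a.op (affCls A) = (picFunctor c ε).map a'.op (affCls A)) :
    a = a' := by
  unfold affCls at h
  rw [map_mkF, map_mkF] at h
  have ht := eq_of_mkF_eq_mkF h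
  have := A.mono hT (a ≫ A.v) (homOver a A.v) ⟨a', ht.symm⟩
    (iso_of_mkF_eq_pullback A.univ _ _ (homOver a' A.v) _ h ⟨a', ht.symm⟩ rfl)
  exact congrArg Subtype.val this

/-- **uniqueness of the classifying map** -/
theorem affCls_mono (A : AffChart c ε) {T : Scheme.{u}} (a a' : T ⟶ A.V)
    (h : (picFunctor c ε).map a.op (affCls A) = (picFunctor c ε).map a'.op (affCls A)) :
    a = a' := by
  apply T.affineCover.hom_ext
  intro i
  apply affCls_mono_affine A (inferInstanceAs (IsAffine (T.affineCover.X i)))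
  rw [picFunctor_map_comp, picFunctor_map_comp, h]

/-- the affine locus, in terms of classes -/
theorem affLocus_iff (A : AffChart c ε) {T T' : Scheme.{u}} (hT : IsAffine T) (hT' : IsAffine T')
    (t : T ⟶ Spec (CommRingCat.of k)) (M : RigidifiedLineBundle c ε t)
    (hM : FibrewiseAlgEquivZero M) (ψ : T' ⟶ T) :
    (∃ a : T' ⟶ A.V, (picFunctor c ε).map a.op (affCls A) =
        (picFunctor c ε).map ψ.op (mkF t M hM)) ↔
      Set.range ψ.base ⊆ (A.locus hT t M : Set T) := by
  rw [map_mkF]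
  exact (exists_over_iff A.univ A.univ_mem _ _).symm.trans
    (A.locus_iff hT hT' t (ψ ≫ t) (homOver ψ t) M hM)

/-- the locus of the extended chart -/
def extLocus (A : AffChart c ε) {T : Scheme.{u}} (t : T ⟶ Spec (CommRingCat.of k))
    (M : RigidifiedLineBundle c ε t) : T.Opens :=
  ⨆ U : T.affineOpens,
    U.1.ι ''ᵁ A.locus U.2 (U.1.ι ≫ t) (M.pullbackAlong (homOver U.1.ι t))

/-- restriction of a morphism to affine opens -/
theorem exists_restrict {T T' : Scheme.{u}} (ψ : T' ⟶ T) (U : T.Opens) (U' : T'.Opens)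
    (h : U' ≤ ψ ⁻¹ᵁ U) : ∃ ψ' : U'.toScheme ⟶ U.toScheme, ψ' ≫ U.ι = U'.ι ≫ ψ := by
  have hrange : Set.range (U'.ι ≫ ψ).base ⊆ Set.range U.ι.base := by
    rw [Scheme.Opens.range_ι]
    rintro _ ⟨y, rfl⟩
    exact h y.2
  exact ⟨IsOpenImmersion.lift U.ι (U'.ι ≫ ψ) hrange, IsOpenImmersion.lift_fac _ _ _⟩

/-- **the extended chart is an open subfunctor**, in terms of classes -/
theorem extLocus_iff (hq : RigApp c) (A : AffChart c ε) {T T' : Scheme.{u}}
    (t : T ⟶ Spec (CommRingCat.of k)) (M : RigidifiedLineBundle c ε t)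
    (hM : FibrewiseAlgEquivZero M) (ψ : T' ⟶ T) :
    (∃ a : T' ⟶ A.V, (picFunctor c ε).map a.op (affCls A) =
        (picFunctor c ε).map ψ.op (mkF t M hM)) ↔
      Set.range ψ.base ⊆ (extLocus A t M : Set T) := by
  constructor
  · rintro ⟨a, ha⟩ _ ⟨y', rfl⟩
    have htop : ψ.base y' ∈ (⊤ : T.Opens) := trivial
    obtain ⟨(U : T.Opens), hUaff, hyU, -⟩ :=
      Opens.isBasis_iff_nbhd.mp T.isBasis_affineOpens htop
    have hpre : y' ∈ ψ ⁻¹ᵁ U := hyU
    obtain ⟨(U' : T'.Opens), hU'aff, hyU', hU'U⟩ :=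
      Opens.isBasis_iff_nbhd.mp T'.isBasis_affineOpens hpre
    obtain ⟨ψ', hψ'⟩ := exists_restrict ψ U U' hU'U
    have key := (affLocus_iff A hUaff hU'aff (U.ι ≫ t) (M.pullbackAlong (homOver U.ι t))
      (hM.pullback _) ψ').mp ⟨U'.ι ≫ a, by
        rw [picFunctor_map_comp, ha, ← map_mkF, ← picFunctor_map_comp, ← picFunctor_map_comp,
          hψ']⟩
    have h1 : ψ'.base ⟨y', hyU'⟩ ∈ A.locus hUaff (U.ι ≫ t) (M.pullbackAlong (homOver U.ι t)) :=
      key ⟨_, rfl⟩
    have h2 : U.ι.base (ψ'.base ⟨y', hyU'⟩) = ψ.base y' := by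
      have := congrArg (fun f : U'.toScheme ⟶ T => f.base ⟨y', hyU'⟩) hψ'
      exact this
    change ψ.base y' ∈ extLocus A t M
    rw [extLocus, Opens.mem_iSup]
    refine ⟨⟨U, hUaff⟩, ?_⟩
    rw [← h2]
    exact (Scheme.Hom.apply_mem_image_iff U.ι).mpr h1
  · intro hrange
    -- local classifying maps
    obtain ⟨z, hz⟩ : ∃ z, z = (picFunctor c ε).map ψ.op (mkF t M hM) := ⟨_, rfl⟩
    rw [← hz]
    have hloc : ∀ y' : T', ∃ (U' : T'.Opens) (_ : y' ∈ U') (a : U'.toScheme ⟶ A.V),
        (picFunctor c ε).map a.op (affCls A) = (picFunctor c ε).map U'.ι.op z := by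
      intro y'
      have hy : ψ.base y' ∈ extLocus A t M := hrange ⟨y', rfl⟩
      rw [extLocus, Opens.mem_iSup] at hy
      obtain ⟨⟨U, hUaff⟩, hyW⟩ := hy
      have hpre : y' ∈ ψ ⁻¹ᵁ (U.ι ''ᵁ A.locus hUaff (U.ι ≫ t)
          (M.pullbackAlong (homOver U.ι t))) := hyW
      obtain ⟨(U' : T'.Opens), hU'aff, hyU', hU'W⟩ :=
        Opens.isBasis_iff_nbhd.mp T'.isBasis_affineOpens hpre
      have hWU : U.ι ''ᵁ A.locus hUaff (U.ι ≫ t) (M.pullbackAlong (homOver U.ι t)) ≤ U := by
        refine (U.ι.image_le_opensRange _).trans (le_of_eq ?_)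
        exact U.opensRange_ι
      obtain ⟨ψ', hψ'⟩ := exists_restrict ψ U U' (hU'W.trans (ψ.preimage_mono hWU))
      have hr : Set.range ψ'.base ⊆
          (A.locus hUaff (U.ι ≫ t) (M.pullbackAlong (homOver U.ι t)) : Set U.toScheme) := by
        rintro _ ⟨x', rfl⟩
        have h2 : U.ι.base (ψ'.base x') = ψ.base (U'.ι.base x') :=
          congrArg (fun f : U'.toScheme ⟶ T => f.base x') hψ'
        have h3 : ψ.base (U'.ι.base x') ∈ U.ι ''ᵁ A.locus hUaff (U.ι ≫ t)
            (M.pullbackAlong (homOver U.ι t)) := hU'W x'.2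
        rw [← h2] at h3
        exact (Scheme.Hom.apply_mem_image_iff U.ι).mp h3
      obtain ⟨a, ha⟩ := (affLocus_iff A hUaff hU'aff (U.ι ≫ t) (M.pullbackAlong (homOver U.ι t))
        (hM.pullback _) ψ').mpr hr
      refine ⟨U', hyU', a, ?_⟩
      rw [ha, ← map_mkF, ← picFunctor_map_comp, hψ', picFunctor_map_comp, hz]
    choose U' hyU' a' ha' using hloc
    let 𝓤 : T'.OpenCover := T'.openCoverOfIsOpenCover U'
      (IsOpenCover.mk (eq_top_iff.mpr fun y _ => Opens.mem_iSup.mpr ⟨y, hyU' y⟩))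
    have compat : ∀ x y : T', pullback.fst (U' x).ι (U' y).ι ≫ a' x =
        pullback.snd (U' x).ι (U' y).ι ≫ a' y := by
      intro x y
      apply affCls_mono A
      rw [picFunctor_map_comp, picFunctor_map_comp, ha' x, ha' y, ← picFunctor_map_comp,
        ← picFunctor_map_comp, pullback.condition]
    have hglue : ∀ j : T', (U' j).ι ≫ 𝓤.glueMorphisms a' compat = a' j :=
      fun j => 𝓤.ι_glueMorphisms a' compat j
    refine ⟨𝓤.glueMorphisms a' compat, ?_⟩
    apply picFunctor_ext_of_cover hq 𝓤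
    intro j
    change (picFunctor c ε).map (U' j).ι.op _ = (picFunctor c ε).map (U' j).ι.op _
    rw [← picFunctor_map_comp, hglue j, ha' j]

/-- **(Ext)**: an affine-local chart extends to all test schemes -/
theorem ext_of_rigApp (hq : RigApp c) (A : AffChart c ε) : A.Extends := by
  refine ⟨?_, fun {T} t M => extLocus A t M, ?_⟩
  · intro T t g g' i
    have h : (picFunctor c ε).map g.1.op (affCls A) =
        (picFunctor c ε).map g'.1.op (affCls A) := by
      unfold affCls
      rw [map_mkF_over g, map_mkF_over g']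
      exact (mkF_eq_mkF_iff _ _ _ _ _).mpr i
    exact schemeHomOver_ext (affCls_mono A _ _ h)
  · intro T T' t t' ψ M hM
    rw [← extLocus_iff hq A t M hM ψ.1, map_mkF_over ψ M hM]
    exact exists_over_iff A.univ A.univ_mem _ _

end Fermat.Agent.S25lib.Glue
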