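/-
S25lib / Glue / Rep  (helper2)  --  Project L (S25), block GLUE: **(Rep)**: a chart cover of the Picard functor
gives a representing designation, glued from the charts (`Scheme.LocalRepresentability.representableBy`).
-/
import Fermat.Agent.S25lib.Glue.Chart

set_option autoImplicit false

noncomputable section

universe u

open AlgebraicGeometry CategoryTheory CategoryTheory.Limits AlgebraicGeometry.RelPicard
  NeronModelInfra GoodReductionJacobian TopologicalSpace Opposite

namespace Fermat.Agent.S25lib.Glue

variable {k : Type u} [Field k] {C : Scheme.{u}} {c : C ⟶ Spec (CommRingCat.of k)}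
  {ε : SchemeHomOver (𝟙 (Spec (CommRingCat.of k))) c}

/-- the loci of the charts cover every test scheme -/
theorem iSup_locus_eq_top (A : ChartCover c ε) {T : Scheme.{u}} (t : T ⟶ Spec (CommRingCat.of k))
    (M : RigidifiedLineBundle c ε t) (hM : FibrewiseAlgEquivZero M) :
    ⨆ i, (A.chart i).locus t M = ⊤ := by
  rw [eq_top_iff]
  intro x _
  -- the point `x`, as a morphism from the spectrum of its residue field
  let s : Spec (T.residueField x) ⟶ T := T.fromSpecResidueField x
  obtain ⟨i, g, hg⟩ := A.cover (T.residueField x) (s ≫ t) (M.pullbackAlong (homOver s t))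
    (hM.pullback _)
  have hrange := ((A.chart i).locus_iff t (s ≫ t) (homOver s t) M hM).mp ⟨g, hg⟩
  refine Opens.mem_iSup.mpr ⟨i, hrange ?_⟩
  have hx : x ∈ Set.range (T.fromSpecResidueField x).base := by
    rw [Scheme.range_fromSpecResidueField]
    rfl
  exact hx

/-- the charts are jointly locally surjective -/
theorem isLocallySurjective_chartHom (A : ChartCover c ε) :
    Presheaf.IsLocallySurjective Scheme.zariskiTopology
      (Limits.Sigma.desc (fun i => chartHom (A.chart i))) := by
  constructor
  intro T x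
  obtain ⟨t, M, hM, rfl⟩ := exists_eq_mkF x
  let 𝓥 : T.OpenCover := Scheme.openCoverOfIsOpenCover T (fun i => (A.chart i).locus t M)
    (iSup_locus_eq_top A t M hM)
  refine GrothendieckTopology.superset_covering _ ?_ 𝓥.mem_grothendieckTopology
  rw [Sieve.ofArrows, Sieve.generate_le_iff]
  rintro - - ⟨i⟩
  -- over the locus of the chart `i` the class comes from the chart
  let L : T.Opens := (A.chart i).locus t M
  obtain ⟨gl, hgl⟩ := ((A.chart i).locus_iff t (L.ι ≫ t) (homOver L.ι t) M hM).mpr (by
    change Set.range L.ι.base ⊆ (L : Set T)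
    rw [Scheme.Opens.range_ι])
  refine ⟨(Limits.Sigma.ι (fun i => yoneda.obj (A.chart i).V) i).app (op L.toScheme) gl.1, ?_⟩
  have h1 : (Limits.Sigma.desc (fun i => chartHom (A.chart i))).app (op L.toScheme)
      ((Limits.Sigma.ι (fun i => yoneda.obj (A.chart i).V) i).app (op L.toScheme) gl.1) =
      (chartHom (A.chart i)).app (op L.toScheme) gl.1 := by
    have := Limits.Sigma.ι_desc (fun i => chartHom (A.chart i)) i
    exact congrArg (fun φ : yoneda.obj (A.chart i).V ⟶ picFunctor c ε =>
      φ.app (op L.toScheme) gl.1) this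
  refine h1.trans ?_
  change _ = (picFunctor c ε).map L.ι.op (mkF t M hM)
  rw [map_mkF]
  exact (chartHom_app_eq_iff (A.chart i) gl.1 _ _ _).mpr ⟨gl.2, hgl⟩

/-- **(Rep)**: the functions on `C ×_k V` come from `V`, and a chart cover, give a representing designation,
covered by the charts -/
theorem rep_of_rigApp (hq : RigApp c) (A : ChartCover c ε) :
    ∃ (D : RelativePic0Designation k c)
      (h : RepresentsRelSubPic c ε (algEquivZeroCut c ε) D)
      (j : ∀ i, SchemeHomOver (A.chart i).v D.toBase),
      (∀ i, IsOpenImmersion (j i).1) ∧ (∀ x : D.P, ∃ i, x ∈ Set.range (j i).1.base) ∧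
        ∀ i, RLB.Iso (h.poincare.pullbackAlong (j i)) (A.chart i).univ := by
  classical
  let F : Sheaf Scheme.zariskiTopology.{u} (Type u) := picSheaf (ε := ε) hq
  let f : ∀ i : A.ι, yoneda.obj (A.chart i).V ⟶ F.obj := fun i => chartHom (A.chart i)
  have hf : ∀ i, IsOpenImmersion.presheaf (f i) := fun i => chartHom_relative (A.chart i)
  have : Presheaf.IsLocallySurjective Scheme.zariskiTopology (Limits.Sigma.desc f) :=
    isLocallySurjective_chartHom A
  let rep : (picFunctor c ε).RepresentableBy (Scheme.LocalRepresentability.glueData hf).glued :=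
    Scheme.LocalRepresentability.representableBy hf
  -- the universal element
  obtain ⟨tP, MP, hMP, hu⟩ := exists_eq_mkF (rep.homEquiv (𝟙 _))
  have key : ∀ {T : Scheme.{u}} (a : T ⟶ (Scheme.LocalRepresentability.glueData hf).glued),
      rep.homEquiv a = mkF (a ≫ tP) (MP.pullbackAlong (homOver a tP)) (hMP.pullback _) := by
    intro T a
    have := rep.homEquiv_comp a (𝟙 _)
    rw [Category.comp_id] at this
    rw [this, hu, map_mkF]
  -- the zero section
  let z : Spec (CommRingCat.of k) ⟶ (Scheme.LocalRepresentability.glueData hf).glued :=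
    rep.homEquiv.symm (mkF (𝟙 _) (RigidifiedLineBundle.unit (𝟙 _)) (fibrewiseAlgEquivZero_unit _))
  have hz : mkF (z ≫ tP) (MP.pullbackAlong (homOver z tP)) (hMP.pullback _) =
      mkF (𝟙 _) (RigidifiedLineBundle.unit (𝟙 _)) (fibrewiseAlgEquivZero_unit _) := by
    rw [← key z]
    exact rep.homEquiv.apply_symm_apply _
  have hz1 : z ≫ tP = 𝟙 _ := eq_of_mkF_eq_mkF hz
  -- the charts
  have hj : ∀ i, mkF (Scheme.LocalRepresentability.toGlued hf i ≫ tP)
      (MP.pullbackAlong (homOver (Scheme.LocalRepresentability.toGlued hf i) tP))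
      (hMP.pullback _) = mkF (A.chart i).v (A.chart i).univ (A.chart i).univ_mem := by
    intro i
    rw [← key (Scheme.LocalRepresentability.toGlued hf i)]
    have h1 : rep.homEquiv (Scheme.LocalRepresentability.toGlued hf i) = yonedaEquiv (f i) :=
      Scheme.LocalRepresentability.yonedaGluedToSheaf_app_toGlued hf
    rw [h1]
    exact yonedaEquiv.apply_symm_apply _
  have hj1 : ∀ i, Scheme.LocalRepresentability.toGlued hf i ≫ tP = (A.chart i).v :=
    fun i => eq_of_mkF_eq_mkF (hj i)
  refine ⟨⟨(Scheme.LocalRepresentability.glueData hf).glued, tP, z, hz1⟩,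
    { poincare := MP
      poincare_mem := hMP
      univ := ?_
      zero := ?_ },
    fun i => ⟨Scheme.LocalRepresentability.toGlued hf i, hj1 i⟩, ?_, ?_, ?_⟩
  · -- the universal property
    intro T t M hM
    let g : T ⟶ (Scheme.LocalRepresentability.glueData hf).glued :=
      rep.homEquiv.symm (mkF t M hM)
    have hg : mkF (g ≫ tP) (MP.pullbackAlong (homOver g tP)) (hMP.pullback _) = mkF t M hM := by
      rw [← key g]
      exact rep.homEquiv.apply_symm_apply _
    have hgt : g ≫ tP = t := eq_of_mkF_eq_mkF hg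
    refine ⟨⟨g, hgt⟩, ?_, ?_⟩
    · obtain ⟨i⟩ := iso_of_mkF_eq_pullback MP M hM (homOver g tP) _ hg.symm ⟨g, hgt⟩ rfl
      exact ⟨i.symm⟩
    · intro g' hg'
      apply schemeHomOver_ext
      apply rep.homEquiv.injective
      rw [key g'.1]
      change _ = rep.homEquiv (rep.homEquiv.symm (mkF t M hM))
      rw [Equiv.apply_symm_apply]
      exact mkF_pullback_eq MP (homOver g'.1 tP) g' rfl g'.2 _ M hM hg'
  · -- the zero section
    obtain ⟨i⟩ := iso_of_mkF_eq_pullback MP (RigidifiedLineBundle.unit (𝟙 _))
      (fibrewiseAlgEquivZero_unit _) (homOver z tP) _ hz.symm ⟨z, hz1⟩ rfl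
    exact ⟨i.symm⟩
  · intro i
    exact inferInstanceAs (IsOpenImmersion (Scheme.LocalRepresentability.toGlued hf i))
  · intro x
    obtain ⟨i, y, hy⟩ := (Scheme.LocalRepresentability.glueData hf).openCover.exists_eq x
    exact ⟨i, y, hy⟩
  · intro i
    obtain ⟨e⟩ := iso_of_mkF_eq_pullback MP (A.chart i).univ (A.chart i).univ_mem
      (homOver (Scheme.LocalRepresentability.toGlued hf i) tP) _ (hj i).symm
      ⟨Scheme.LocalRepresentability.toGlued hf i, hj1 i⟩ rfl
    exact ⟨e.symm⟩

end Fermat.Agent.S25lib.Glue
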