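/-
S25lib / Glue / Statements  (helper2)  --  Project L (S25), block GLUE: the two interface statements of the block,
`extStatement : ExtStatement c ε` and `repStatement : RepStatement c ε` (see `S25lib/Iface`).
-/
import Fermat.Agent.S25lib.Glue.ExtChart
import Fermat.Agent.S25lib.Glue.Rep

set_option autoImplicit false

noncomputable section

universe u

open AlgebraicGeometry CategoryTheory CategoryTheory.Limits AlgebraicGeometry.RelPicard
  NeronModelInfra GoodReductionJacobian TopologicalSpace Opposite

namespace Fermat.Agent.S25lib.Glue

variable {k : Type u} [Field k] {C : Scheme.{u}} {c : C ⟶ Spec (CommRingCat.of k)}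
  {ε : SchemeHomOver (𝟙 (Spec (CommRingCat.of k))) c}

/-- the interface hypothesis (RIG) gives the surjectivity used in this block -/
theorem rigApp_of_iface (hq : Fermat.Agent.S25lib.RigApp c) : Glue.RigApp c :=
  fun t V => (hq t V).2

variable (c ε)

/-- **(Ext)**: (RIG) extends every affine-local chart -/
theorem extStatement : ExtStatement c ε :=
  fun hq A => ext_of_rigApp (rigApp_of_iface hq) A

/-- **(Rep)**: (RIG) and a chart cover give a representing designation, covered by the charts -/
theorem repStatement : RepStatement c ε :=
  fun hq A => rep_of_rigApp (rigApp_of_iface hq) A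

end Fermat.Agent.S25lib.Glue
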