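/-
S25lib / Glue / LocIso  (helper2)  --  Project L (S25), block GLUE: isomorphisms of two modules over an open,
through sections.
* `LocGen N W`: `N` has local generators over `W`.
* `LocIso N N' W`: a family of bijections `Γ(N, U) → Γ(N', U)`, `U ≤ W`, additive, linear and compatible with
  restriction; `refl`, `symm`, `trans`, `restrict`, `ofIso`, `smul` (by a unit of `Γ(X, W)`).
* `LocIso.exists_unit`: two local isomorphisms of a locally generated module differ by a unique unit.
-/
import Fermat.Agent.S25lib.Mod.CocycleGen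
import Fermat.Agent.S25lib.Mod.GlueO

set_option autoImplicit false

noncomputable section

universe u

open AlgebraicGeometry CategoryTheory TopologicalSpace

namespace Fermat.Agent.S25lib.Glue

variable {X : Scheme.{u}}

/-- `N` has local generators over `W` -/
def LocGen (N : X.Modules) (W : X.Opens) : Prop :=
  ∀ x ∈ W, ∃ U : X.Opens, x ∈ U ∧ U ≤ W ∧ ∃ s : Γ(N, U), Mod.IsGen N U s

theorem LocGen.mono {N : X.Modules} {W W' : X.Opens} (h : W' ≤ W) (hN : LocGen N W) :
    LocGen N W' := by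
  intro x hx
  obtain ⟨U, hxU, hUW, s, hs⟩ := hN x (h hx)
  exact ⟨U ⊓ W', ⟨hxU, hx⟩, inf_le_right, Mod.res N inf_le_left s, hs.res inf_le_left⟩

theorem locGen_of_isInvertible {N : X.Modules} (hN : Scheme.Modules.IsInvertible N)
    (W : X.Opens) : LocGen N W := by
  intro x hx
  obtain ⟨U, hxU, s, hs⟩ := Mod.exists_isGen_of_isInvertible hN x
  exact ⟨U ⊓ W, ⟨hxU, hx⟩, inf_le_right, Mod.res N inf_le_left s, hs.res inf_le_left⟩

theorem isInvertible_of_locGen {N : X.Modules} (hN : LocGen N ⊤) :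
    Scheme.Modules.IsInvertible N := by
  rw [Mod.isInvertible_iff_exists_isGen]
  intro x
  obtain ⟨U, hxU, -, s, hs⟩ := hN x trivial
  exact ⟨U, hxU, s, hs⟩

/-- an isomorphism `N|_W ≅ N'|_W`, through sections -/
structure LocIso (N N' : X.Modules) (W : X.Opens) where
  f : ∀ (U : X.Opens), U ≤ W → Γ(N, U) → Γ(N', U)
  f_add : ∀ (U : X.Opens) (h : U ≤ W) (a b : Γ(N, U)), f U h (a + b) = f U h a + f U h b
  f_smul : ∀ (U : X.Opens) (h : U ≤ W) (r : Γ(X, U)) (a : Γ(N, U)),
    f U h (r • a) = r • f U h a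
  f_res : ∀ (U U' : X.Opens) (h : U ≤ W) (h' : U' ≤ U) (a : Γ(N, U)),
    Mod.res N' h' (f U h a) = f U' (h'.trans h) (Mod.res N h' a)
  bij : ∀ (U : X.Opens) (h : U ≤ W), Function.Bijective (f U h)

namespace LocIso

variable {N N' N'' : X.Modules} {W : X.Opens}

theorem ext' {φ φ' : LocIso N N' W}
    (h : ∀ (U : X.Opens) (hU : U ≤ W) (a : Γ(N, U)), φ.f U hU a = φ'.f U hU a) : φ = φ' := by
  obtain ⟨f, _, _, _, _⟩ := φ
  obtain ⟨f', _, _, _, _⟩ := φ'
  have : f = f' := by
    funext U hU a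
    exact h U hU a
  subst this
  rfl

/-- the inverse maps -/
def inv (φ : LocIso N N' W) (U : X.Opens) (h : U ≤ W) (b : Γ(N', U)) : Γ(N, U) :=
  (Equiv.ofBijective _ (φ.bij U h)).symm b

theorem f_inv (φ : LocIso N N' W) (U : X.Opens) (h : U ≤ W) (b : Γ(N', U)) :
    φ.f U h (φ.inv U h b) = b :=
  (Equiv.ofBijective _ (φ.bij U h)).apply_symm_apply b

theorem inv_f (φ : LocIso N N' W) (U : X.Opens) (h : U ≤ W) (a : Γ(N, U)) :
    φ.inv U h (φ.f U h a) = a :=
  (Equiv.ofBijective _ (φ.bij U h)).symm_apply_apply a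

/-- the identity -/
def refl (N : X.Modules) (W : X.Opens) : LocIso N N W where
  f _ _ a := a
  f_add _ _ _ _ := rfl
  f_smul _ _ _ _ := rfl
  f_res _ _ _ _ _ := rfl
  bij _ _ := Function.bijective_id

/-- the inverse -/
def symm (φ : LocIso N N' W) : LocIso N' N W where
  f := φ.inv
  f_add U h a b := by
    apply (φ.bij U h).1
    rw [φ.f_add, φ.f_inv, φ.f_inv, φ.f_inv]
  f_smul U h r a := by
    apply (φ.bij U h).1
    rw [φ.f_smul, φ.f_inv, φ.f_inv]
  f_res U U' h h' a := by
    apply (φ.bij U' (h'.trans h)).1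
    rw [← φ.f_res U U' h h', φ.f_inv, φ.f_inv]
  bij U h := (Equiv.ofBijective _ (φ.bij U h)).symm.bijective

/-- the composite -/
def trans (φ : LocIso N N' W) (φ' : LocIso N' N'' W) : LocIso N N'' W where
  f U h a := φ'.f U h (φ.f U h a)
  f_add U h a b := by rw [φ.f_add, φ'.f_add]
  f_smul U h r a := by rw [φ.f_smul, φ'.f_smul]
  f_res U U' h h' a := by rw [φ'.f_res, φ.f_res]
  bij U h := (φ'.bij U h).comp (φ.bij U h)

/-- the restriction to a smaller open -/
def restrict (φ : LocIso N N' W) {W' : X.Opens} (hW : W' ≤ W) : LocIso N N' W' where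
  f U h a := φ.f U (h.trans hW) a
  f_add U _ a b := φ.f_add U _ a b
  f_smul U _ r a := φ.f_smul U _ r a
  f_res U U' _ h' a := φ.f_res U U' _ h' a
  bij U _ := φ.bij U _

/-- an isomorphism of modules, as a local isomorphism -/
def ofIso (e : N ≅ N') (W : X.Opens) : LocIso N N' W where
  f U _ a := e.hom.app U a
  f_add _ _ _ _ := map_add _ _ _
  f_smul _ _ _ _ := Scheme.Modules.Hom.app_smul _ _ _
  f_res _ _ _ h' a := (Mod.app_res e.hom h' a).symm
  bij U _ := ConcreteCategory.bijective_of_isIso (e.hom.app U)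

theorem isUnit_resO {U V : X.Opens} (h : V ≤ U) {u : Γ(X, U)} (hu : IsUnit u) :
    IsUnit (Mod.resO h u) :=
  hu.map (X.presheaf.map (homOfLE h).op).hom

/-- multiplication by a unit -/
def smul (u : Γ(X, W)) (hu : IsUnit u) (φ : LocIso N N' W) : LocIso N N' W where
  f U h a := Mod.resO h u • φ.f U h a
  f_add U h a b := by rw [φ.f_add, smul_add]
  f_smul U h r a := by rw [φ.f_smul, smul_comm]
  f_res U U' h h' a := by rw [Mod.res_smul, Mod.resO_resO, φ.f_res]
  bij U h := by
    have h1 : Function.Bijective (fun b : Γ(N', U) => Mod.resO h u • b) := by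
      have h2 := MulAction.bijective (β := Γ(N', U)) (isUnit_resO h hu).unit
      have h3 : (fun b : Γ(N', U) => (isUnit_resO h hu).unit • b) =
          fun b : Γ(N', U) => Mod.resO h u • b := by
        funext b
        rw [Units.smul_def, IsUnit.unit_spec]
      rwa [h3] at h2
    exact h1.comp (φ.bij U h)

/-- a local isomorphism maps generators to generators -/
theorem isGen (φ : LocIso N N' W) {U : X.Opens} (h : U ≤ W) {s : Γ(N, U)}
    (hs : Mod.IsGen N U s) : Mod.IsGen N' U (φ.f U h s) := by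
  intro V hV
  have key : (fun r : Γ(X, V) => r • Mod.res N' hV (φ.f U h s)) =
      (φ.f V (hV.trans h)) ∘ (fun r : Γ(X, V) => r • Mod.res N hV s) := by
    funext r
    simp only [Function.comp]
    rw [φ.f_smul, φ.f_res]
  rw [key]
  exact (φ.bij V _).comp (hs V hV)

theorem locGen (φ : LocIso N N' W) (hN : LocGen N W) : LocGen N' W := by
  intro x hx
  obtain ⟨U, hxU, hUW, s, hs⟩ := hN x hx
  exact ⟨U, hxU, hUW, φ.f U hUW s, φ.isGen hUW hs⟩

end LocIso

end Fermat.Agent.S25lib.Glue
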