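/-
S25lib / Glue / Torsor  (helper2)  --  Project L (S25), block GLUE.
* `LocIso.exists_scalar`, `LocIso.exists_unit`: two local isomorphisms of a locally generated module differ by a
  unit of `Γ(X, W)`.
* `LocIso.exists_glue`: local isomorphisms over a cover of `W` which agree on the overlaps glue.
* `LocIso.toIso`: a local isomorphism over `⊤` is an isomorphism of modules.
* `LocIso.ofGen`, `LocIso.exists_ofGens`: the local isomorphism defined by generators with equal transition
  functions.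
-/
import Fermat.Agent.S25lib.Glue.LocIso

set_option autoImplicit false

noncomputable section

universe u

open AlgebraicGeometry CategoryTheory TopologicalSpace

namespace Fermat.Agent.S25lib.Glue

variable {X : Scheme.{u}}

namespace LocIso

variable {N N' : X.Modules} {W : X.Opens}

/-- a scalar multiple of a generator determines the scalar -/
theorem isGen_smul_cancel {M : X.Modules} {U : X.Opens}
    {s : Γ(M, U)} (hs : Mod.IsGen M U s) {r r' : Γ(X, U)} (h : r • s = r' • s) : r = r' := by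
  have := (hs U le_rfl).1 (a₁ := r) (a₂ := r')
  simp only [Mod.res_self] at this
  exact this h

/-- two local isomorphisms differ by a function -/
theorem exists_scalar (hN : LocGen N W) (φ φ' : LocIso N N' W) :
    ∃ t : Γ(X, W), ∀ (U : X.Opens) (h : U ≤ W) (a : Γ(N, U)),
      φ'.f U h a = Mod.resO h t • φ.f U h a := by
  classical
  choose U hxU hUW s hs using fun x : {x // x ∈ W} => hN x.1 x.2
  have hs' : ∀ x, Mod.IsGen N' (U x) (φ.f (U x) (hUW x) (s x)) :=
    fun x => φ.isGen (hUW x) (hs x)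
  let u : ∀ x, Γ(X, U x) := fun x => (hs' x).coord le_rfl (φ'.f (U x) (hUW x) (s x))
  have hu : ∀ x, u x • φ.f (U x) (hUW x) (s x) = φ'.f (U x) (hUW x) (s x) := by
    intro x
    have := (hs' x).coord_smul le_rfl (φ'.f (U x) (hUW x) (s x))
    rwa [Mod.res_self] at this
  have key1 : ∀ x (V : X.Opens) (hV : V ≤ U x) (a : Γ(N, V)),
      φ'.f V (hV.trans (hUW x)) a = Mod.resO hV (u x) • φ.f V (hV.trans (hUW x)) a := by
    intro x V hV a
    obtain ⟨r, rfl⟩ : ∃ r : Γ(X, V), a = r • Mod.res N hV (s x) :=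
      ⟨_, ((hs x).coord_smul hV a).symm⟩
    rw [φ'.f_smul, φ.f_smul, ← φ'.f_res (U x) V (hUW x) hV, ← φ.f_res (U x) V (hUW x) hV,
      ← hu x, Mod.res_smul, smul_comm]
  have compat : ∀ x y, Mod.resO (inf_le_left : U x ⊓ U y ≤ U x) (u x) =
      Mod.resO (inf_le_right : U x ⊓ U y ≤ U y) (u y) := by
    intro x y
    have hg : Mod.IsGen N' (U x ⊓ U y) (φ.f (U x ⊓ U y) (inf_le_right.trans (hUW y))
        (Mod.res N inf_le_right (s y))) :=
      φ.isGen _ ((hs y).res inf_le_right)
    have h1 := key1 x (U x ⊓ U y) inf_le_left (Mod.res N inf_le_right (s y))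
    have h2 := key1 y (U x ⊓ U y) inf_le_right (Mod.res N inf_le_right (s y))
    exact isGen_smul_cancel hg (h1.symm.trans h2)
  have hcov : W ≤ ⨆ x, U x := fun y hy => Opens.mem_iSup.mpr ⟨⟨y, hy⟩, hxU ⟨y, hy⟩⟩
  obtain ⟨t, ht, -⟩ := Mod.exists_unique_glueO U W hUW hcov u compat
  refine ⟨t, fun V h a => ?_⟩
  have hcov' : V ≤ ⨆ x, V ⊓ U x := fun y hy =>
    Opens.mem_iSup.mpr ⟨⟨y, h hy⟩, ⟨hy, hxU ⟨y, h hy⟩⟩⟩
  apply Mod.eq_of_res_eq N' (fun x => V ⊓ U x) V (fun _ => inf_le_left) hcov'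
  intro x
  rw [φ'.f_res, Mod.res_smul, φ.f_res, Mod.resO_resO]
  rw [key1 x (V ⊓ U x) inf_le_right (Mod.res N inf_le_left a)]
  congr 1
  rw [← ht x, Mod.resO_resO]

/-- the function is determined -/
theorem scalar_unique (hN : LocGen N W) (φ : LocIso N N' W) (t t' : Γ(X, W))
    (h : ∀ (U : X.Opens) (hU : U ≤ W) (a : Γ(N, U)),
      Mod.resO hU t • φ.f U hU a = Mod.resO hU t' • φ.f U hU a) : t = t' := by
  classical
  choose U hxU hUW s hs using fun x : {x // x ∈ W} => hN x.1 x.2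
  have hcov : W ≤ ⨆ x, U x := fun y hy => Opens.mem_iSup.mpr ⟨⟨y, hy⟩, hxU ⟨y, hy⟩⟩
  apply Mod.eq_of_resO_eq U W hUW hcov
  intro x
  exact isGen_smul_cancel (φ.isGen (hUW x) (hs x)) (h (U x) (hUW x) (s x))

/-- two local isomorphisms differ by a unit -/
theorem exists_unit (hN : LocGen N W) (φ φ' : LocIso N N' W) :
    ∃ t : Γ(X, W), IsUnit t ∧ ∀ (U : X.Opens) (h : U ≤ W) (a : Γ(N, U)),
      φ'.f U h a = Mod.resO h t • φ.f U h a := by
  obtain ⟨t, ht⟩ := exists_scalar hN φ φ'
  obtain ⟨t', ht'⟩ := exists_scalar hN φ' φ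
  refine ⟨t, ?_, ht⟩
  have h1 : t' * t = 1 := by
    apply scalar_unique hN φ
    intro U hU a
    rw [Mod.resO_mul, mul_smul, ← ht, ← ht', Mod.resO_one, one_smul]
  exact IsUnit.of_mul_eq_one_right t' h1

end LocIso

end Fermat.Agent.S25lib.Glue
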