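/-
S25lib / Glue / GlueIso  (helper2)  --  Project L (S25), block GLUE.
* `LocIso.exists_glue`: local isomorphisms over a cover of `W` which agree on the overlaps glue.
* `LocIso.toIso`: a local isomorphism over `⊤` is an isomorphism of modules.
* `LocIso.ofGen`, `LocIso.exists_ofGens`: the local isomorphism defined by generators with equal transition
  functions.
-/
import Fermat.Agent.S25lib.Glue.Torsor

set_option autoImplicit false

noncomputable section

universe u

open AlgebraicGeometry CategoryTheory TopologicalSpace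

namespace Fermat.Agent.S25lib.Glue

variable {X : Scheme.{u}}

namespace LocIso

variable {N N' : X.Modules} {W : X.Opens}

section Glue

variable {κ : Type*} (Wk : κ → X.Opens) (hle : ∀ k, Wk k ≤ W) (hcov : W ≤ ⨆ k, Wk k)
  (φ : ∀ k, LocIso N N' (Wk k))
  (hφ : ∀ k l (U : X.Opens) (h : U ≤ Wk k) (h' : U ≤ Wk l) (a : Γ(N, U)),
    (φ k).f U h a = (φ l).f U h' a)

include hcov in
theorem glue_cover {U : X.Opens} (h : U ≤ W) : U ≤ ⨆ k, U ⊓ Wk k := by
  intro y hy
  obtain ⟨k, hk⟩ := Opens.mem_iSup.mp (hcov (h hy))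
  exact Opens.mem_iSup.mpr ⟨k, ⟨hy, hk⟩⟩

/-- the local images of a section -/
def glueLoc (U : X.Opens) (a : Γ(N, U)) (k : κ) : Γ(N', U ⊓ Wk k) :=
  (φ k).f (U ⊓ Wk k) inf_le_right (Mod.res N inf_le_left a)

include hφ in
theorem glueLoc_compat (U : X.Opens) (a : Γ(N, U)) (k l : κ) :
    Mod.res N' (inf_le_left : (U ⊓ Wk k) ⊓ (U ⊓ Wk l) ≤ U ⊓ Wk k) (glueLoc Wk φ U a k) =
      Mod.res N' (inf_le_right : (U ⊓ Wk k) ⊓ (U ⊓ Wk l) ≤ U ⊓ Wk l) (glueLoc Wk φ U a l) := by
  unfold glueLoc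
  rw [(φ k).f_res, (φ l).f_res, Mod.res_res, Mod.res_res]
  exact hφ k l _ _ _ _

/-- the glued map on sections -/
def glueFn (U : X.Opens) (h : U ≤ W) (a : Γ(N, U)) : Γ(N', U) :=
  (Mod.exists_unique_glue N' (fun k => U ⊓ Wk k) U (fun _ => inf_le_left)
    (glue_cover Wk hcov h) (glueLoc Wk φ U a) (glueLoc_compat Wk φ hφ U a)).choose

theorem glueFn_spec (U : X.Opens) (h : U ≤ W) (a : Γ(N, U)) (k : κ) :
    Mod.res N' (inf_le_left : U ⊓ Wk k ≤ U) (glueFn Wk hcov φ hφ U h a) = glueLoc Wk φ U a k :=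
  (Mod.exists_unique_glue N' (fun k => U ⊓ Wk k) U (fun _ => inf_le_left)
    (glue_cover Wk hcov h) (glueLoc Wk φ U a) (glueLoc_compat Wk φ hφ U a)).choose_spec.1 k

theorem glueFn_unique (U : X.Opens) (h : U ≤ W) (a : Γ(N, U)) (y : Γ(N', U))
    (hy : ∀ k, Mod.res N' (inf_le_left : U ⊓ Wk k ≤ U) y = glueLoc Wk φ U a k) :
    y = glueFn Wk hcov φ hφ U h a :=
  Mod.eq_of_res_eq N' (fun k => U ⊓ Wk k) U (fun _ => inf_le_left) (glue_cover Wk hcov h) _ _
    (fun k => (hy k).trans (glueFn_spec Wk hcov φ hφ U h a k).symm)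

/-- on an open inside a member of the cover the glued map is the local map -/
theorem glueFn_res_eq (U : X.Opens) (h : U ≤ W) (a : Γ(N, U)) (k : κ) {V : X.Opens}
    (hV : V ≤ U) (hV' : V ≤ Wk k) :
    Mod.res N' hV (glueFn Wk hcov φ hφ U h a) = (φ k).f V hV' (Mod.res N hV a) := by
  have hVk : V ≤ U ⊓ Wk k := le_inf hV hV'
  have := congrArg (Mod.res N' hVk) (glueFn_spec Wk hcov φ hφ U h a k)
  rw [Mod.res_res] at this
  rw [this]
  unfold glueLoc
  rw [(φ k).f_res, Mod.res_res]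

theorem glueFn_add (U : X.Opens) (h : U ≤ W) (a b : Γ(N, U)) :
    glueFn Wk hcov φ hφ U h (a + b) =
      glueFn Wk hcov φ hφ U h a + glueFn Wk hcov φ hφ U h b := by
  symm
  apply glueFn_unique
  intro k
  rw [Mod.res_add, glueFn_spec, glueFn_spec]
  unfold glueLoc
  rw [Mod.res_add, (φ k).f_add]

theorem glueFn_smul (U : X.Opens) (h : U ≤ W) (r : Γ(X, U)) (a : Γ(N, U)) :
    glueFn Wk hcov φ hφ U h (r • a) = r • glueFn Wk hcov φ hφ U h a := by
  symm
  apply glueFn_unique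
  intro k
  rw [Mod.res_smul, glueFn_spec]
  unfold glueLoc
  rw [Mod.res_smul, (φ k).f_smul]

theorem glueFn_res (U U' : X.Opens) (h : U ≤ W) (h' : U' ≤ U) (a : Γ(N, U)) :
    Mod.res N' h' (glueFn Wk hcov φ hφ U h a) =
      glueFn Wk hcov φ hφ U' (h'.trans h) (Mod.res N h' a) := by
  apply glueFn_unique
  intro k
  rw [Mod.res_res]
  rw [glueFn_res_eq Wk hcov φ hφ U h a k (inf_le_left.trans h') inf_le_right]
  unfold glueLoc
  rw [Mod.res_res]

theorem glueFn_injective (U : X.Opens) (h : U ≤ W) :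
    Function.Injective (glueFn Wk hcov φ hφ U h) := by
  intro a b hab
  apply Mod.eq_of_res_eq N (fun k => U ⊓ Wk k) U (fun _ => inf_le_left) (glue_cover Wk hcov h)
  intro k
  have h1 := congrArg (Mod.res N' (inf_le_left : U ⊓ Wk k ≤ U)) hab
  rw [glueFn_spec, glueFn_spec] at h1
  exact ((φ k).bij _ _).1 h1

end Glue

/-- **gluing of local isomorphisms** -/
theorem exists_glue {κ : Type*} (Wk : κ → X.Opens) (hle : ∀ k, Wk k ≤ W)
    (hcov : W ≤ ⨆ k, Wk k) (φ : ∀ k, LocIso N N' (Wk k))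
    (hφ : ∀ k l (U : X.Opens) (h : U ≤ Wk k) (h' : U ≤ Wk l) (a : Γ(N, U)),
      (φ k).f U h a = (φ l).f U h' a) :
    ∃ Φ : LocIso N N' W, ∀ k (U : X.Opens) (h : U ≤ Wk k) (a : Γ(N, U)),
      Φ.f U (h.trans (hle k)) a = (φ k).f U h a := by
  have hφ' : ∀ k l (U : X.Opens) (h : U ≤ Wk k) (h' : U ≤ Wk l) (b : Γ(N', U)),
      (φ k).symm.f U h b = (φ l).symm.f U h' b := by
    intro k l U h h' b
    apply ((φ k).bij U h).1
    change (φ k).f U h ((φ k).inv U h b) = (φ k).f U h ((φ l).inv U h' b)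
    rw [(φ k).f_inv, hφ k l U h h', (φ l).f_inv]
  refine ⟨⟨glueFn Wk hcov φ hφ, glueFn_add Wk hcov φ hφ, glueFn_smul Wk hcov φ hφ,
    glueFn_res Wk hcov φ hφ, fun U h => ⟨glueFn_injective Wk hcov φ hφ U h, fun b => ?_⟩⟩, ?_⟩
  · refine ⟨glueFn Wk hcov (fun k => (φ k).symm) hφ' U h b, ?_⟩
    symm
    apply glueFn_unique
    intro k
    unfold glueLoc
    rw [glueFn_spec]
    unfold glueLoc
    exact ((φ k).f_inv _ _ _).symm
  · intro k U h a
    have := glueFn_res_eq Wk hcov φ hφ U (h.trans (hle k)) a k le_rfl h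
    rwa [Mod.res_self, Mod.res_self] at this

section ToIso

variable (Φ : LocIso N N' ⊤)

/-- a local isomorphism over `⊤`, as a morphism of presheaves of abelian groups -/
def toNatTrans : N.presheaf ⟶ N'.presheaf where
  app V := AddCommGrpCat.ofHom
    { toFun := Φ.f V.unop le_top
      map_zero' := by
        have := Φ.f_add V.unop le_top 0 0
        rw [add_zero] at this
        exact left_eq_add.mp this
      map_add' := Φ.f_add V.unop le_top }
  naturality V V' g := by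
    ext m
    have h : V'.unop ≤ V.unop := leOfHom g.unop
    exact (Φ.f_res V.unop V'.unop le_top h m).symm

/-- a local isomorphism over `⊤`, as a morphism of modules -/
def toHom : N ⟶ N' :=
  ⟨PresheafOfModules.homMk Φ.toNatTrans (fun V r m => Φ.f_smul V.unop le_top r m)⟩

theorem toHom_app (V : X.Opens) (m : Γ(N, V)) : Φ.toHom.app V m = Φ.f V le_top m := rfl

theorem isIso_toHom : IsIso Φ.toHom := by
  rw [Scheme.Modules.Hom.isIso_iff_isIso_app]
  intro V
  rw [ConcreteCategory.isIso_iff_bijective]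
  exact Φ.bij V le_top

/-- **a local isomorphism over `⊤` is an isomorphism** -/
def toIso : N ≅ N' :=
  haveI := Φ.isIso_toHom
  asIso Φ.toHom

theorem toIso_hom_app (V : X.Opens) (m : Γ(N, V)) : Φ.toIso.hom.app V m = Φ.f V le_top m := rfl

end ToIso

/-- the local isomorphism defined by two generators -/
def ofGen {U : X.Opens} {s : Γ(N, U)} {s' : Γ(N', U)} (hs : Mod.IsGen N U s)
    (hs' : Mod.IsGen N' U s') : LocIso N N' U where
  f _ h a := Mod.locMap hs s' h a
  f_add _ h a b := Mod.locMap_add hs s' h a b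
  f_smul _ h r a := Mod.locMap_smul hs s' h r a
  f_res _ _ h h' a := Mod.locMap_res hs s' h h' a
  bij V h := by
    have key : ∀ (M M' : X.Modules) (t : Γ(M, U)) (t' : Γ(M', U)) (ht : Mod.IsGen M U t)
        (ht' : Mod.IsGen M' U t') (a : Γ(M, V)),
        Mod.locMap ht' t h (Mod.locMap ht t' h a) = a := by
      intro M M' t t' ht ht' a
      have h1 : Mod.locMap ht t' h a = ht.coord h a • Mod.res M' h t' := rfl
      rw [h1, Mod.locMap_smul, Mod.locMap_gen, ht.coord_smul]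
    exact Function.bijective_iff_has_inverse.mpr
      ⟨Mod.locMap hs' s h, key N N' s s' hs hs', key N' N s' s hs' hs⟩

theorem ofGen_gen {U : X.Opens} {s : Γ(N, U)} {s' : Γ(N', U)} (hs : Mod.IsGen N U s)
    (hs' : Mod.IsGen N' U s') : (ofGen hs hs').f U le_rfl s = s' := by
  have := Mod.locMap_gen hs s' (le_refl U)
  rw [Mod.res_self, Mod.res_self] at this
  exact this

/-- **the local isomorphism defined by generators with the same transition functions** -/
theorem exists_ofGens {ι : Type*} (U : ι → X.Opens) (hle : ∀ i, U i ≤ W) (hcov : W ≤ ⨆ i, U i)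
    (s : ∀ i, Γ(N, U i)) (hs : ∀ i, Mod.IsGen N (U i) (s i))
    (s' : ∀ i, Γ(N', U i)) (hs' : ∀ i, Mod.IsGen N' (U i) (s' i))
    (r : ∀ i j, Γ(X, U i ⊓ U j))
    (hr : ∀ i j, Mod.res N (inf_le_left : U i ⊓ U j ≤ U i) (s i) =
      r i j • Mod.res N (inf_le_right : U i ⊓ U j ≤ U j) (s j))
    (hr' : ∀ i j, Mod.res N' (inf_le_left : U i ⊓ U j ≤ U i) (s' i) =
      r i j • Mod.res N' (inf_le_right : U i ⊓ U j ≤ U j) (s' j)) :
    ∃ Φ : LocIso N N' W, ∀ i, Φ.f (U i) (hle i) (s i) = s' i := by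
  obtain ⟨Φ, hΦ⟩ := exists_glue U hle hcov (fun i => ofGen (hs i) (hs' i)) (by
    intro i j V h h' a
    exact Mod.locMap_eq_of_compat (hs i) (hs j) (s' i) (s' j) (r i j) (hr i j) (hr' i j) h h' a)
  refine ⟨Φ, fun i => ?_⟩
  rw [hΦ i (U i) le_rfl (s i)]
  exact ofGen_gen (hs i) (hs' i)

end LocIso

end Fermat.Agent.S25lib.Glue
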