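/-
S25lib / Glue / Rig  (helper2)  --  Project L (S25), block GLUE: rigidifications through sections.
For `σ : T ⟶ X`, `Rig σ N W` is an "evaluation along `σ`" `Γ(N, U) → Γ(T, σ⁻¹U)`, `U ≤ W`, additive,
`σ^♯`-semilinear, compatible with restrictions, mapping generators to units.
* `Rig.ofIso`: a trivialisation `σ^*N ≅ O_T` gives such an evaluation over `⊤`.
* `LocIso.IsNorm`: a local isomorphism compatible with the evaluations.
* `exists_isNorm`: over `q⁻¹V` (`σ ≫ q = 𝟙`) every local isomorphism can be normalised.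
* `isNorm_unique`: if moreover the functions on `q⁻¹V` come from `V`, the normalised isomorphism is unique.
-/
import Fermat.Agent.S25lib.Glue.GlueIso

set_option autoImplicit false

noncomputable section

universe u

open AlgebraicGeometry CategoryTheory TopologicalSpace

namespace Fermat.Agent.S25lib.Glue

variable {X T : Scheme.{u}}

theorem preimage_le (σ : T ⟶ X) {U U' : X.Opens} (h : U' ≤ U) : σ ⁻¹ᵁ U' ≤ σ ⁻¹ᵁ U :=
  fun _ hx => h hx

/-- `σ^♯` commutes with restrictions -/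
theorem app_resO (σ : T ⟶ X) {U U' : X.Opens} (h : U' ≤ U) (r : Γ(X, U)) :
    σ.app U' (Mod.resO h r) = Mod.resO (preimage_le σ h) (σ.app U r) := by
  have := σ.naturality (homOfLE h).op
  exact congr($this r)

/-- an evaluation of the sections of `N` along `σ` -/
structure Rig (σ : T ⟶ X) (N : X.Modules) (W : X.Opens) where
  ev : ∀ (U : X.Opens), U ≤ W → Γ(N, U) → Γ(T, σ ⁻¹ᵁ U)
  ev_add : ∀ (U : X.Opens) (h : U ≤ W) (a b : Γ(N, U)), ev U h (a + b) = ev U h a + ev U h b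
  ev_smul : ∀ (U : X.Opens) (h : U ≤ W) (r : Γ(X, U)) (a : Γ(N, U)),
    ev U h (r • a) = σ.app U r * ev U h a
  ev_res : ∀ (U U' : X.Opens) (h : U ≤ W) (h' : U' ≤ U) (a : Γ(N, U)),
    ev U' (h'.trans h) (Mod.res N h' a) = Mod.resO (preimage_le σ h') (ev U h a)
  ev_gen : ∀ (U : X.Opens) (h : U ≤ W) (s : Γ(N, U)), Mod.IsGen N U s → IsUnit (ev U h s)

namespace Rig

variable {σ : T ⟶ X} {N N' : X.Modules} {W : X.Opens}

/-- restriction to a smaller open -/
def restrict (R : Rig σ N W) {W' : X.Opens} (hW : W' ≤ W) : Rig σ N W' where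
  ev U h a := R.ev U (h.trans hW) a
  ev_add U _ a b := R.ev_add U _ a b
  ev_smul U _ r a := R.ev_smul U _ r a
  ev_res U U' _ h' a := R.ev_res U U' _ h' a
  ev_gen U _ s hs := R.ev_gen U _ s hs

/-- transport along a local isomorphism -/
def transport (R : Rig σ N W) (φ : LocIso N' N W) : Rig σ N' W where
  ev U h a := R.ev U h (φ.f U h a)
  ev_add U h a b := by rw [φ.f_add, R.ev_add]
  ev_smul U h r a := by rw [φ.f_smul, R.ev_smul]
  ev_res U U' h h' a := by rw [← φ.f_res, R.ev_res]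
  ev_gen U h s hs := R.ev_gen U h _ (φ.isGen h hs)

end Rig

/-- a generator of the unit module is a unit -/
theorem isUnit_of_isGen_unit {V : T.Opens} {x : Γ(Mod.unitM T, V)}
    (hx : Mod.IsGen (Mod.unitM T) V x) : IsUnit (Mod.ofUnit V x) := by
  obtain ⟨r, hr⟩ := (hx V le_rfl).2 (Mod.oneU V)
  rw [Mod.res_self] at hr
  have h1 : r * Mod.ofUnit V x = 1 := hr
  exact IsUnit.of_mul_eq_one r (by rw [mul_comm]; exact h1)

/-- the evaluation defined by a trivialisation of `σ^*N` -/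
def Rig.ofIso (σ : T ⟶ X) (N : X.Modules)
    (ρ : (Scheme.Modules.pullback σ).obj N ≅ SheafOfModules.unit T.ringCatSheaf) :
    Rig σ N ⊤ where
  ev U _ a := Mod.ofUnit (σ ⁻¹ᵁ U) (ρ.hom.app (σ ⁻¹ᵁ U) (Mod.pullSec σ N U a))
  ev_add U _ a b := by
    rw [Mod.pullSec_add, map_add]
    rfl
  ev_smul U _ r a := by
    rw [Mod.pullSec_smul, Scheme.Modules.Hom.app_smul]
    rfl
  ev_res U U' _ h' a := by
    have h1 : Mod.pullSec σ N U' (Mod.res N h' a) =
        Mod.res _ (preimage_le σ h') (Mod.pullSec σ N U a) := Mod.pullSec_res σ N h' a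
    rw [h1, Mod.app_res]
    rfl
  ev_gen U _ s hs :=
    isUnit_of_isGen_unit ((Mod.isGen_pullSec σ hs).map_iso ρ)

/-- a local isomorphism which is compatible with the evaluations -/
def LocIso.IsNorm {σ : T ⟶ X} {N N' : X.Modules} {W : X.Opens} (R : Rig σ N W) (R' : Rig σ N' W)
    (φ : LocIso N N' W) : Prop :=
  ∀ (U : X.Opens) (h : U ≤ W) (a : Γ(N, U)), R'.ev U h (φ.f U h a) = R.ev U h a

theorem id_app_resO {f : T ⟶ T} (hf : f = 𝟙 T) {V V' : T.Opens} (h' : V' ≤ f ⁻¹ᵁ V)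
    (h'' : V' ≤ V) (v : Γ(T, V)) : Mod.resO h' (f.app V v) = Mod.resO h'' v := by
  subst hf
  rfl

section Section

variable {σ : T ⟶ X} {q : X ⟶ T} (hσq : σ ≫ q = 𝟙 T)

include hσq in
theorem preimage_sigma_le {U : X.Opens} {V : T.Opens} (h : U ≤ q ⁻¹ᵁ V) : σ ⁻¹ᵁ U ≤ V := by
  intro y hy
  have h1 : (σ ≫ q).base y ∈ V := h hy
  rw [hσq] at h1
  exact h1

include hσq in
theorem sigma_mem {V : T.Opens} {y : T} (hy : y ∈ V) : σ.base y ∈ q ⁻¹ᵁ V := by
  have h1 : (σ ≫ q).base y ∈ V := by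
    rw [hσq]
    exact hy
  exact h1

include hσq in
/-- `σ^♯ ∘ q^♯` is the restriction -/
theorem sigma_app_q_app {U : X.Opens} {V : T.Opens} (h : U ≤ q ⁻¹ᵁ V) (v : Γ(T, V)) :
    σ.app U (Mod.resO h (q.app V v)) = Mod.resO (preimage_sigma_le hσq h) v := by
  rw [app_resO]
  have h1 : σ.app (q ⁻¹ᵁ V) (q.app V v) = (σ ≫ q).app V v := by
    rw [Scheme.Hom.comp_app]
    rfl
  rw [h1]
  exact id_app_resO hσq _ _ v

end Section

end Fermat.Agent.S25lib.Glue
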