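/-
S25lib / Glue / Norm  (helper2)  --  Project L (S25), block GLUE: normalisation of local isomorphisms by the
rigidifications.  Setting: `σ : T ⟶ X`, `q : X ⟶ T`, `σ ≫ q = 𝟙`.
* `exists_defect`: over `q⁻¹V`, a local isomorphism multiplies the evaluations by a function `d` on `V`.
* `exists_isNorm`: every local isomorphism over `q⁻¹V` can be normalised.
* `isNorm_unique`: if the functions on `q⁻¹V` come from `V`, the normalised local isomorphism is unique.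
-/
import Fermat.Agent.S25lib.Glue.Rig

set_option autoImplicit false

noncomputable section

universe u

open AlgebraicGeometry CategoryTheory TopologicalSpace

namespace Fermat.Agent.S25lib.Glue

variable {X T : Scheme.{u}} {σ : T ⟶ X} {q : X ⟶ T} (hσq : σ ≫ q = 𝟙 T)
  {N N' : X.Modules} {V : T.Opens}

include hσq in
/-- **the defect** of a local isomorphism with respect to the evaluations -/
theorem exists_defect (hN : LocGen N (q ⁻¹ᵁ V)) (R : Rig σ N (q ⁻¹ᵁ V))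
    (R' : Rig σ N' (q ⁻¹ᵁ V)) (φ : LocIso N N' (q ⁻¹ᵁ V)) :
    ∃ d : Γ(T, V), ∀ (U : X.Opens) (h : U ≤ q ⁻¹ᵁ V) (a : Γ(N, U)),
      R'.ev U h (φ.f U h a) = Mod.resO (preimage_sigma_le hσq h) d * R.ev U h a := by
  classical
  choose U hyU hUW s hs using fun y : {y // y ∈ V} => hN (σ.base y.1) (sigma_mem hσq y.2)
  have he : ∀ y, IsUnit (R.ev (U y) (hUW y) (s y)) := fun y => R.ev_gen _ _ _ (hs y)
  let d : ∀ y, Γ(T, σ ⁻¹ᵁ (U y)) := fun y =>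
    R'.ev (U y) (hUW y) (φ.f (U y) (hUW y) (s y)) * ((he y).unit⁻¹ : (Γ(T, σ ⁻¹ᵁ (U y)))ˣ)
  have hd : ∀ y, R'.ev (U y) (hUW y) (φ.f (U y) (hUW y) (s y)) =
      d y * R.ev (U y) (hUW y) (s y) := by
    intro y
    have h1 : ((he y).unit⁻¹ : (Γ(T, σ ⁻¹ᵁ (U y)))ˣ) * R.ev (U y) (hUW y) (s y) = 1 :=
      (he y).val_inv_mul
    change _ = _ * _ * _
    rw [mul_assoc, h1, mul_one]
  have key1 : ∀ y (V' : X.Opens) (hV : V' ≤ U y) (a : Γ(N, V')),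
      R'.ev V' (hV.trans (hUW y)) (φ.f V' (hV.trans (hUW y)) a) =
        Mod.resO (preimage_le σ hV) (d y) * R.ev V' (hV.trans (hUW y)) a := by
    intro y V' hV a
    obtain ⟨r, rfl⟩ : ∃ r : Γ(X, V'), a = r • Mod.res N hV (s y) :=
      ⟨_, ((hs y).coord_smul hV a).symm⟩
    rw [φ.f_smul, R'.ev_smul, R.ev_smul, ← φ.f_res (U y) V' (hUW y) hV,
      R'.ev_res (U y) V' (hUW y) hV, R.ev_res (U y) V' (hUW y) hV, hd y, Mod.resO_mul]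
    ring
  have compat : ∀ y y', Mod.resO (inf_le_left : σ ⁻¹ᵁ (U y) ⊓ σ ⁻¹ᵁ (U y') ≤ σ ⁻¹ᵁ (U y)) (d y) =
      Mod.resO (inf_le_right : σ ⁻¹ᵁ (U y) ⊓ σ ⁻¹ᵁ (U y') ≤ σ ⁻¹ᵁ (U y')) (d y') := by
    intro y y'
    have hg : IsUnit (R.ev (U y ⊓ U y') (inf_le_right.trans (hUW y'))
        (Mod.res N inf_le_right (s y'))) :=
      R.ev_gen _ _ _ ((hs y').res inf_le_right)
    have h1 := key1 y (U y ⊓ U y') inf_le_left (Mod.res N inf_le_right (s y'))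
    have h2 := key1 y' (U y ⊓ U y') inf_le_right (Mod.res N inf_le_right (s y'))
    exact hg.mul_right_cancel (h1.symm.trans h2)
  have hle : ∀ y, σ ⁻¹ᵁ (U y) ≤ V := fun y => preimage_sigma_le hσq (hUW y)
  have hcov : V ≤ ⨆ y, σ ⁻¹ᵁ (U y) := fun y hy => Opens.mem_iSup.mpr ⟨⟨y, hy⟩, hyU ⟨y, hy⟩⟩
  obtain ⟨t, ht, -⟩ := Mod.exists_unique_glueO (fun y => σ ⁻¹ᵁ (U y)) V hle hcov d compat
  refine ⟨t, fun U' h a => ?_⟩
  have hcov' : σ ⁻¹ᵁ U' ≤ ⨆ y : {y // y ∈ σ ⁻¹ᵁ U'},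
      σ ⁻¹ᵁ (U' ⊓ U ⟨y.1, preimage_sigma_le hσq h y.2⟩) := fun y hy =>
    Opens.mem_iSup.mpr ⟨⟨y, hy⟩, ⟨hy, hyU ⟨y, preimage_sigma_le hσq h hy⟩⟩⟩
  apply Mod.eq_of_resO_eq (fun y : {y // y ∈ σ ⁻¹ᵁ U'} =>
    σ ⁻¹ᵁ (U' ⊓ U ⟨y.1, preimage_sigma_le hσq h y.2⟩)) (σ ⁻¹ᵁ U')
    (fun _ => preimage_le σ inf_le_left) hcov'
  intro y
  rw [Mod.resO_mul, Mod.resO_resO, ← R'.ev_res U' _ h inf_le_left, ← R.ev_res U' _ h inf_le_left,
    φ.f_res U' _ h inf_le_left]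
  rw [key1 ⟨y.1, preimage_sigma_le hσq h y.2⟩ _ inf_le_right (Mod.res N inf_le_left a)]
  congr 1
  rw [← ht ⟨y.1, preimage_sigma_le hσq h y.2⟩, Mod.resO_resO]

include hσq in
/-- the defect is a unit -/
theorem exists_defect_unit (hN : LocGen N (q ⁻¹ᵁ V)) (R : Rig σ N (q ⁻¹ᵁ V))
    (R' : Rig σ N' (q ⁻¹ᵁ V)) (φ : LocIso N N' (q ⁻¹ᵁ V)) :
    ∃ d d' : Γ(T, V), d' * d = 1 ∧ ∀ (U : X.Opens) (h : U ≤ q ⁻¹ᵁ V) (a : Γ(N, U)),
      R'.ev U h (φ.f U h a) = Mod.resO (preimage_sigma_le hσq h) d * R.ev U h a := by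
  classical
  obtain ⟨d, hd⟩ := exists_defect hσq hN R R' φ
  obtain ⟨d', hd'⟩ := exists_defect hσq (φ.locGen hN) R' R φ.symm
  refine ⟨d, d', ?_, hd⟩
  choose U hyU hUW s hs using fun y : {y // y ∈ V} => hN (σ.base y.1) (sigma_mem hσq y.2)
  have hle : ∀ y, σ ⁻¹ᵁ (U y) ≤ V := fun y => preimage_sigma_le hσq (hUW y)
  have hcov : V ≤ ⨆ y, σ ⁻¹ᵁ (U y) := fun y hy => Opens.mem_iSup.mpr ⟨⟨y, hy⟩, hyU ⟨y, hy⟩⟩
  apply Mod.eq_of_resO_eq (fun y => σ ⁻¹ᵁ (U y)) V hle hcov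
  intro y
  have he : IsUnit (R.ev (U y) (hUW y) (s y)) := R.ev_gen _ _ _ (hs y)
  have h1 := hd (U y) (hUW y) (s y)
  have h2 := hd' (U y) (hUW y) (φ.f (U y) (hUW y) (s y))
  have h3 : φ.symm.f (U y) (hUW y) (φ.f (U y) (hUW y) (s y)) = s y := φ.inv_f _ _ _
  rw [h3, h1] at h2
  rw [Mod.resO_mul, Mod.resO_one]
  apply he.mul_right_cancel
  rw [one_mul, mul_assoc]
  exact h2.symm

include hσq in
/-- **normalisation** of a local isomorphism over `q⁻¹V` -/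
theorem exists_isNorm (hN : LocGen N (q ⁻¹ᵁ V)) (R : Rig σ N (q ⁻¹ᵁ V))
    (R' : Rig σ N' (q ⁻¹ᵁ V)) (φ : LocIso N N' (q ⁻¹ᵁ V)) :
    ∃ φ' : LocIso N N' (q ⁻¹ᵁ V), φ'.IsNorm R R' := by
  obtain ⟨d, d', hdd, hd⟩ := exists_defect_unit hσq hN R R' φ
  have hu : IsUnit (q.app V d') :=
    (IsUnit.of_mul_eq_one d hdd).map (q.app V).hom
  refine ⟨φ.smul (q.app V d') hu, fun U h a => ?_⟩
  change R'.ev U h (Mod.resO h (q.app V d') • φ.f U h a) = _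
  rw [R'.ev_smul, sigma_app_q_app hσq h, hd U h a, ← mul_assoc, ← Mod.resO_mul, hdd,
    Mod.resO_one, one_mul]

include hσq in
/-- **uniqueness** of the normalised local isomorphism -/
theorem isNorm_unique (hq : Function.Surjective (q.app V)) (hN : LocGen N (q ⁻¹ᵁ V))
    (R : Rig σ N (q ⁻¹ᵁ V)) (R' : Rig σ N' (q ⁻¹ᵁ V)) (φ φ' : LocIso N N' (q ⁻¹ᵁ V))
    (h : φ.IsNorm R R') (h' : φ'.IsNorm R R') : φ = φ' := by
  classical
  obtain ⟨t, ht⟩ := LocIso.exists_scalar hN φ φ'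
  obtain ⟨v, rfl⟩ := hq t
  have hv : v = 1 := by
    choose U hyU hUW s hs using fun y : {y // y ∈ V} => hN (σ.base y.1) (sigma_mem hσq y.2)
    have hle : ∀ y, σ ⁻¹ᵁ (U y) ≤ V := fun y => preimage_sigma_le hσq (hUW y)
    have hcov : V ≤ ⨆ y, σ ⁻¹ᵁ (U y) := fun y hy => Opens.mem_iSup.mpr ⟨⟨y, hy⟩, hyU ⟨y, hy⟩⟩
    apply Mod.eq_of_resO_eq (fun y => σ ⁻¹ᵁ (U y)) V hle hcov
    intro y
    have he : IsUnit (R.ev (U y) (hUW y) (s y)) := R.ev_gen _ _ _ (hs y)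
    have h1 := h' (U y) (hUW y) (s y)
    rw [ht (U y) (hUW y) (s y), R'.ev_smul, sigma_app_q_app hσq (hUW y), h (U y) (hUW y) (s y)] at h1
    rw [Mod.resO_one]
    apply he.mul_right_cancel
    rw [one_mul]
    exact h1
  subst hv
  apply LocIso.ext'
  intro U hU a
  rw [ht U hU a, map_one, Mod.resO_one, one_smul]

end Fermat.Agent.S25lib.Glue
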