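/-
S25lib / Glue / Sep  (helper2)  --  Project L (S25), block GLUE: **(SEP), intrinsic form**.
Setting: `σ : T ⟶ X`, `q : X ⟶ T`, `σ ≫ q = 𝟙`, the functions on `q⁻¹V` come from `V`.  Two rigidified
invertible modules on `X` which are isomorphic over `q⁻¹(V α)` for an open cover `V α` of `T` are isomorphic.
-/
import Fermat.Agent.S25lib.Glue.Norm

set_option autoImplicit false

noncomputable section

universe u

open AlgebraicGeometry CategoryTheory TopologicalSpace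

namespace Fermat.Agent.S25lib.Glue

variable {X T : Scheme.{u}} {σ : T ⟶ X} {q : X ⟶ T}

namespace LocIso.IsNorm

variable {N N' N'' : X.Modules} {W : X.Opens} {R : Rig σ N W} {R' : Rig σ N' W}
  {R'' : Rig σ N'' W}

theorem restrict {φ : LocIso N N' W} (h : φ.IsNorm R R') {W' : X.Opens} (hW : W' ≤ W) :
    (φ.restrict hW).IsNorm (R.restrict hW) (R'.restrict hW) :=
  fun U hU a => h U (hU.trans hW) a

theorem trans {φ : LocIso N N' W} {φ' : LocIso N' N'' W} (h : φ.IsNorm R R')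
    (h' : φ'.IsNorm R' R'') : (φ.trans φ').IsNorm R R'' :=
  fun U hU a => (h' U hU _).trans (h U hU a)

theorem refl (R : Rig σ N W) : (LocIso.refl N W).IsNorm R R :=
  fun _ _ _ => rfl

end LocIso.IsNorm

theorem iSup_preimage_eq_top {A : Type*} (q : X ⟶ T) (Vα : A → T.Opens) (hV : ⨆ α, Vα α = ⊤) :
    (⊤ : X.Opens) ≤ ⨆ α, q ⁻¹ᵁ Vα α := by
  intro x _
  have hx : q.base x ∈ (⨆ α, Vα α : T.Opens) := by rw [hV]; trivial
  obtain ⟨α, hα⟩ := Opens.mem_iSup.mp hx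
  exact Opens.mem_iSup.mpr ⟨α, hα⟩

/-- **(SEP), intrinsic form** -/
theorem sep_intrinsic {A : Type*} (hσq : σ ≫ q = 𝟙 T)
    (hq : ∀ V : T.Opens, Function.Surjective (q.app V)) (Vα : A → T.Opens)
    (hV : ⨆ α, Vα α = ⊤) (M M' : X.Modules) (hM : LocGen M ⊤) (R : Rig σ M ⊤) (R' : Rig σ M' ⊤)
    (φ : ∀ α, Nonempty (LocIso M M' (q ⁻¹ᵁ Vα α))) : Nonempty (M ≅ M') := by
  classical
  have h1 : ∀ α, ∃ φ' : LocIso M M' (q ⁻¹ᵁ Vα α),
      φ'.IsNorm (R.restrict le_top) (R'.restrict le_top) := fun α =>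
    exists_isNorm hσq (hM.mono le_top) _ _ (φ α).some
  choose φ' hφ' using h1
  have compat : ∀ α β (U : X.Opens) (h : U ≤ q ⁻¹ᵁ Vα α) (h' : U ≤ q ⁻¹ᵁ Vα β) (a : Γ(M, U)),
      (φ' α).f U h a = (φ' β).f U h' a := by
    intro α β U h h' a
    have hl : q ⁻¹ᵁ (Vα α ⊓ Vα β) ≤ q ⁻¹ᵁ Vα α := preimage_le q inf_le_left
    have hr : q ⁻¹ᵁ (Vα α ⊓ Vα β) ≤ q ⁻¹ᵁ Vα β := preimage_le q inf_le_right
    have := isNorm_unique hσq (hq (Vα α ⊓ Vα β)) (hM.mono le_top)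
      (R.restrict le_top) (R'.restrict le_top) ((φ' α).restrict hl) ((φ' β).restrict hr)
      ((hφ' α).restrict hl) ((hφ' β).restrict hr)
    have hU : U ≤ q ⁻¹ᵁ (Vα α ⊓ Vα β) := le_inf h h'
    exact congrArg (fun Φ : LocIso M M' (q ⁻¹ᵁ (Vα α ⊓ Vα β)) => Φ.f U hU a) this
  obtain ⟨Φ, -⟩ := LocIso.exists_glue (W := ⊤) (fun α => q ⁻¹ᵁ Vα α) (fun _ => le_top)
    (iSup_preimage_eq_top q Vα hV) φ' compat
  exact ⟨Φ.toIso⟩

end Fermat.Agent.S25lib.Glue
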