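/-
S25lib / Glue / GlueMod  (helper2)  --  Project L (S25), block GLUE: **(GLUE), intrinsic form**.
Setting: `σ : T ⟶ X`, `q : X ⟶ T`.  A `NormSys` is a family of modules `N α` on `X`, locally generated and
rigidified over `q⁻¹(V α)`, with normalised transition isomorphisms `Ψ α β` over the overlaps, satisfying the
cocycle condition.  From it (and a choice of local generators, `Gens`) we build the cocycle of units
`NormSys.cocycle`, its module `NormSys.glued`, the local isomorphisms `glued ≅ N α` over `q⁻¹(V α)`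
(`exists_locIso`) and a trivialisation of `σ^* glued` (`nonempty_rigid`).
-/
import Fermat.Agent.S25lib.Glue.Sep

set_option autoImplicit false

noncomputable section

universe u

open AlgebraicGeometry CategoryTheory TopologicalSpace

namespace Fermat.Agent.S25lib.Glue

variable {X T : Scheme.{u}}

/-- a unit multiple of a generator is a generator -/
theorem isGen_smul_of_isUnit {M : X.Modules} {U : X.Opens} {s : Γ(M, U)} (hs : Mod.IsGen M U s)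
    {r : Γ(X, U)} (hr : IsUnit r) : Mod.IsGen M U (r • s) := by
  intro V h
  have hr' : IsUnit (Mod.resO h r) := LocIso.isUnit_resO h hr
  have key : (fun a : Γ(X, V) => a • Mod.res M h (r • s)) =
      (fun a : Γ(X, V) => a • Mod.res M h s) ∘ (fun a : Γ(X, V) => a * Mod.resO h r) := by
    funext a
    simp only [Function.comp]
    rw [Mod.res_smul, mul_smul]
  rw [key]
  refine (hs V h).comp ?_
  have h2 := (Units.mulRight_bijective hr'.unit)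
  have h3 : (fun a : Γ(X, V) => a * (hr'.unit : Γ(X, V))) = fun a : Γ(X, V) => a * Mod.resO h r := by
    funext a
    rw [IsUnit.unit_spec]
  rwa [h3] at h2

/-- a unit is a generator of the unit module -/
theorem isGen_toUnit_of_isUnit {V : T.Opens} {e : Γ(T, V)} (he : IsUnit e) :
    Mod.IsGen (Mod.unitM T) V (Mod.toUnit V e) := by
  have := isGen_smul_of_isUnit (Mod.isGen_oneU V) he
  rwa [Mod.smul_oneU] at this

/-- a system of modules over the opens `q⁻¹(V α)` with normalised transition isomorphisms -/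
structure NormSys {A : Type*} (σ : T ⟶ X) (q : X ⟶ T) (Vα : A → T.Opens) (N : A → X.Modules) where
  R : ∀ α, Rig σ (N α) (q ⁻¹ᵁ Vα α)
  Ψ : ∀ α β (U : X.Opens), U ≤ q ⁻¹ᵁ Vα α → U ≤ q ⁻¹ᵁ Vα β → Γ(N α, U) → Γ(N β, U)
  Ψ_smul : ∀ α β (U : X.Opens) (h : U ≤ q ⁻¹ᵁ Vα α) (h' : U ≤ q ⁻¹ᵁ Vα β) (r : Γ(X, U))
    (a : Γ(N α, U)), Ψ α β U h h' (r • a) = r • Ψ α β U h h' a
  Ψ_res : ∀ α β (U U' : X.Opens) (h : U ≤ q ⁻¹ᵁ Vα α) (h' : U ≤ q ⁻¹ᵁ Vα β) (hU : U' ≤ U)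
    (a : Γ(N α, U)), Mod.res (N β) hU (Ψ α β U h h' a) =
      Ψ α β U' (hU.trans h) (hU.trans h') (Mod.res (N α) hU a)
  Ψ_gen : ∀ α β (U : X.Opens) (h : U ≤ q ⁻¹ᵁ Vα α) (h' : U ≤ q ⁻¹ᵁ Vα β) (s : Γ(N α, U)),
    Mod.IsGen (N α) U s → Mod.IsGen (N β) U (Ψ α β U h h' s)
  Ψ_norm : ∀ α β (U : X.Opens) (h : U ≤ q ⁻¹ᵁ Vα α) (h' : U ≤ q ⁻¹ᵁ Vα β) (a : Γ(N α, U)),
    (R β).ev U h' (Ψ α β U h h' a) = (R α).ev U h a
  Ψ_self : ∀ α (U : X.Opens) (h h' : U ≤ q ⁻¹ᵁ Vα α) (a : Γ(N α, U)), Ψ α α U h h' a = a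
  Ψ_comp : ∀ α β γ (U : X.Opens) (h : U ≤ q ⁻¹ᵁ Vα α) (h' : U ≤ q ⁻¹ᵁ Vα β)
    (h'' : U ≤ q ⁻¹ᵁ Vα γ) (a : Γ(N α, U)),
    Ψ β γ U h' h'' (Ψ α β U h h' a) = Ψ α γ U h h'' a

/-- a choice of local generators of the modules `N α`, indexed by the points of `X` -/
structure Gens {A : Type*} (q : X ⟶ T) (Vα : A → T.Opens) (N : A → X.Modules) where
  α : X → A
  U : X → X.Opens
  mem : ∀ x, x ∈ U x
  hUW : ∀ x, U x ≤ q ⁻¹ᵁ Vα (α x)
  s : ∀ x, Γ(N (α x), U x)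
  hs : ∀ x, Mod.IsGen (N (α x)) (U x) (s x)

theorem nonempty_gens {A : Type*} (q : X ⟶ T) (Vα : A → T.Opens) (hV : ⨆ α, Vα α = ⊤)
    (N : A → X.Modules) (hN : ∀ α, LocGen (N α) (q ⁻¹ᵁ Vα α)) : Nonempty (Gens q Vα N) := by
  classical
  have hx : ∀ x : X, ∃ α, x ∈ q ⁻¹ᵁ Vα α := fun x =>
    Opens.mem_iSup.mp (iSup_preimage_eq_top q Vα hV (Set.mem_univ x))
  choose α hα using hx
  choose U hxU hUW s hs using fun x : X => hN (α x) x (hα x)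
  exact ⟨⟨α, U, hxU, hUW, s, hs⟩⟩

namespace NormSys

variable {A : Type*} {σ : T ⟶ X} {q : X ⟶ T} {Vα : A → T.Opens} {N : A → X.Modules}
  (S : NormSys σ q Vα N) (G : Gens q Vα N)

/-- the image of the generator at `x` in the module of `y` -/
def tr (x y : X) : Γ(N (G.α y), G.U x ⊓ G.U y) :=
  S.Ψ (G.α x) (G.α y) (G.U x ⊓ G.U y) (inf_le_left.trans (G.hUW x)) (inf_le_right.trans (G.hUW y))
    (Mod.res (N (G.α x)) inf_le_left (G.s x))

/-- the transition functions -/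
def u (x y : X) : Γ(X, G.U x ⊓ G.U y) := (G.hs y).coord inf_le_right (S.tr G x y)

theorem u_smul (x y : X) :
    S.u G x y • Mod.res (N (G.α y)) inf_le_right (G.s y) = S.tr G x y :=
  (G.hs y).coord_smul _ _

theorem Ψ_gen_eq (x y : X) {V' : X.Opens} (h : V' ≤ G.U x) (h' : V' ≤ G.U y) :
    S.Ψ (G.α x) (G.α y) V' (h.trans (G.hUW x)) (h'.trans (G.hUW y))
        (Mod.res (N (G.α x)) h (G.s x)) =
      Mod.resO (le_inf h h') (S.u G x y) • Mod.res (N (G.α y)) h' (G.s y) := by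
  have h1 := congrArg (Mod.res (N (G.α y)) (le_inf h h')) (S.u_smul G x y)
  rw [Mod.res_smul, Mod.res_res] at h1
  rw [h1]
  unfold tr
  rw [S.Ψ_res, Mod.res_res]

theorem u_self (x : X) : S.u G x x = 1 := by
  unfold u tr
  rw [S.Ψ_self]
  exact (G.hs x).coord_self_res _

theorem u_mul (x y z : X) :
    Mod.resO (le_inf (inf_le_left.trans inf_le_left) (inf_le_left.trans inf_le_right) :
        G.U x ⊓ G.U y ⊓ G.U z ≤ G.U x ⊓ G.U y) (S.u G x y) *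
      Mod.resO (le_inf (inf_le_left.trans inf_le_right) inf_le_right :
        G.U x ⊓ G.U y ⊓ G.U z ≤ G.U y ⊓ G.U z) (S.u G y z) =
      Mod.resO (le_inf (inf_le_left.trans inf_le_left) inf_le_right :
        G.U x ⊓ G.U y ⊓ G.U z ≤ G.U x ⊓ G.U z) (S.u G x z) := by
  have hx : G.U x ⊓ G.U y ⊓ G.U z ≤ G.U x := inf_le_left.trans inf_le_left
  have hy : G.U x ⊓ G.U y ⊓ G.U z ≤ G.U y := inf_le_left.trans inf_le_right
  have hz : G.U x ⊓ G.U y ⊓ G.U z ≤ G.U z := inf_le_right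
  have hg : Mod.IsGen (N (G.α z)) (G.U x ⊓ G.U y ⊓ G.U z) (Mod.res (N (G.α z)) hz (G.s z)) :=
    (G.hs z).res hz
  apply LocIso.isGen_smul_cancel hg
  have h1 := S.Ψ_gen_eq G x z hx hz
  have h2 := S.Ψ_gen_eq G x y hx hy
  have h3 := S.Ψ_gen_eq G y z hy hz
  rw [← S.Ψ_comp (G.α x) (G.α y) (G.α z) _ (hx.trans (G.hUW x)) (hy.trans (G.hUW y))
    (hz.trans (G.hUW z)), h2, S.Ψ_smul, h3, ← mul_smul] at h1
  exact h1

/-- the cocycle of a system -/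
@[reducible] def cocycle : Mod.Cocycle X X where
  U := G.U
  hU := by
    rw [eq_top_iff]
    intro x _
    exact Opens.mem_iSup.mpr ⟨x, G.mem x⟩
  u := S.u G
  u_self := S.u_self G
  u_mul := S.u_mul G

/-- **the glued module** -/
abbrev glued : X.Modules := (S.cocycle G).toModule

theorem locGen_glued : LocGen (S.glued G) ⊤ :=
  locGen_of_isInvertible (S.cocycle G).isInvertible_toModule ⊤

/-- **the glued module is isomorphic to `N β` over `q⁻¹(V β)`** -/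
theorem exists_locIso (β : A) : Nonempty (LocIso (S.glued G) (N β) (q ⁻¹ᵁ Vα β)) := by
  have hle : ∀ x, G.U x ⊓ q ⁻¹ᵁ Vα β ≤ q ⁻¹ᵁ Vα β := fun _ => inf_le_right
  have hcov : q ⁻¹ᵁ Vα β ≤ ⨆ x, G.U x ⊓ q ⁻¹ᵁ Vα β := fun x hx =>
    Opens.mem_iSup.mpr ⟨x, ⟨G.mem x, hx⟩⟩
  have hα : ∀ x, G.U x ⊓ q ⁻¹ᵁ Vα β ≤ q ⁻¹ᵁ Vα (G.α x) := fun x => inf_le_left.trans (G.hUW x)
  obtain ⟨Φ, -⟩ := LocIso.exists_ofGens (N := S.glued G) (N' := N β)
    (fun x => G.U x ⊓ q ⁻¹ᵁ Vα β) hle hcov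
    (fun x => Mod.res (S.glued G) inf_le_left ((S.cocycle G).gen x))
    (fun x => ((S.cocycle G).isGen_gen x).res inf_le_left)
    (fun x => S.Ψ (G.α x) β _ (hα x) (hle x) (Mod.res (N (G.α x)) inf_le_left (G.s x)))
    (fun x => S.Ψ_gen _ _ _ _ _ _ ((G.hs x).res inf_le_left))
    (fun x y => Mod.resO (inf_le_inf inf_le_left inf_le_left) (S.u G x y))
    (by
      intro x y
      have h1 := congrArg (Mod.res (S.glued G) (inf_le_inf inf_le_left inf_le_left :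
        (G.U x ⊓ q ⁻¹ᵁ Vα β) ⊓ (G.U y ⊓ q ⁻¹ᵁ Vα β) ≤ G.U x ⊓ G.U y))
        ((S.cocycle G).res_gen x y)
      rw [Mod.res_smul, Mod.res_res, Mod.res_res] at h1
      rw [Mod.res_res, Mod.res_res]
      exact h1)
    (by
      intro x y
      have hx : (G.U x ⊓ q ⁻¹ᵁ Vα β) ⊓ (G.U y ⊓ q ⁻¹ᵁ Vα β) ≤ G.U x :=
        inf_le_left.trans inf_le_left
      have hy : (G.U x ⊓ q ⁻¹ᵁ Vα β) ⊓ (G.U y ⊓ q ⁻¹ᵁ Vα β) ≤ G.U y :=
        inf_le_right.trans inf_le_left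
      have hβ : (G.U x ⊓ q ⁻¹ᵁ Vα β) ⊓ (G.U y ⊓ q ⁻¹ᵁ Vα β) ≤ q ⁻¹ᵁ Vα β :=
        inf_le_left.trans inf_le_right
      rw [S.Ψ_res, S.Ψ_res, Mod.res_res, Mod.res_res]
      rw [← S.Ψ_comp (G.α x) (G.α y) β _ (hx.trans (G.hUW x)) (hy.trans (G.hUW y)) hβ,
        S.Ψ_gen_eq G x y hx hy, S.Ψ_smul])
  exact ⟨Φ⟩

/-- **the glued module is trivial along `σ`** -/
theorem nonempty_rigid :
    Nonempty ((Scheme.Modules.pullback σ).obj (S.glued G) ≅ SheafOfModules.unit T.ringCatSheaf) := by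
  let e : ∀ x, Γ(T, σ ⁻¹ᵁ G.U x) := fun x => (S.R (G.α x)).ev (G.U x) (G.hUW x) (G.s x)
  have he : ∀ x, IsUnit (e x) := fun x => (S.R (G.α x)).ev_gen _ _ _ (G.hs x)
  have hU : ⨆ x, σ ⁻¹ᵁ G.U x = ⊤ := by
    rw [eq_top_iff]
    intro y _
    exact Opens.mem_iSup.mpr ⟨σ.base y, G.mem (σ.base y)⟩
  obtain ⟨i, -⟩ := Mod.nonempty_iso_of_same_trans
    (M := (Scheme.Modules.pullback σ).obj (S.glued G)) (M' := Mod.unitM T)
    (fun x => σ ⁻¹ᵁ G.U x) hU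
    (fun x => Mod.pullSec σ (S.glued G) (G.U x) ((S.cocycle G).gen x))
    (fun x => Mod.isGen_pullSec σ ((S.cocycle G).isGen_gen x))
    (fun x => Mod.toUnit _ (e x)) (fun x => isGen_toUnit_of_isUnit (he x))
    (fun x y => σ.app (G.U x ⊓ G.U y) (S.u G x y))
    (by
      intro x y
      have h1 : Mod.res _ (preimage_le σ (inf_le_left : G.U x ⊓ G.U y ≤ G.U x))
          (Mod.pullSec σ (S.glued G) (G.U x) ((S.cocycle G).gen x)) =
          Mod.pullSec σ (S.glued G) (G.U x ⊓ G.U y)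
            (Mod.res (S.glued G) inf_le_left ((S.cocycle G).gen x)) :=
        (Mod.pullSec_res σ (S.glued G) inf_le_left ((S.cocycle G).gen x)).symm
      have h2 : Mod.res _ (preimage_le σ (inf_le_right : G.U x ⊓ G.U y ≤ G.U y))
          (Mod.pullSec σ (S.glued G) (G.U y) ((S.cocycle G).gen y)) =
          Mod.pullSec σ (S.glued G) (G.U x ⊓ G.U y)
            (Mod.res (S.glued G) inf_le_right ((S.cocycle G).gen y)) :=
        (Mod.pullSec_res σ (S.glued G) inf_le_right ((S.cocycle G).gen y)).symm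
      refine h1.trans ?_
      rw [(S.cocycle G).res_gen x y]
      change Mod.pullSec σ (S.glued G) (G.U x ⊓ G.U y) (S.u G x y • _) = _
      rw [Mod.pullSec_smul]
      exact congrArg _ h2.symm)
    (by
      intro x y
      have key : Mod.resO (preimage_le σ (inf_le_left : G.U x ⊓ G.U y ≤ G.U x)) (e x) =
          σ.app (G.U x ⊓ G.U y) (S.u G x y) *
            Mod.resO (preimage_le σ (inf_le_right : G.U x ⊓ G.U y ≤ G.U y)) (e y) := ?_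
      · exact congrArg (Mod.toUnit (σ ⁻¹ᵁ (G.U x ⊓ G.U y))) key
      have h1 := (S.R (G.α x)).ev_res (G.U x) (G.U x ⊓ G.U y) (G.hUW x) inf_le_left (G.s x)
      have h2 := (S.R (G.α y)).ev_res (G.U y) (G.U x ⊓ G.U y) (G.hUW y) inf_le_right (G.s y)
      have h3 := S.Ψ_norm (G.α x) (G.α y) (G.U x ⊓ G.U y) (inf_le_left.trans (G.hUW x))
        (inf_le_right.trans (G.hUW y)) (Mod.res (N (G.α x)) inf_le_left (G.s x))
      have h4 : S.Ψ (G.α x) (G.α y) (G.U x ⊓ G.U y) (inf_le_left.trans (G.hUW x))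
          (inf_le_right.trans (G.hUW y)) (Mod.res (N (G.α x)) inf_le_left (G.s x)) =
          S.u G x y • Mod.res (N (G.α y)) inf_le_right (G.s y) := (S.u_smul G x y).symm
      rw [h4, (S.R (G.α y)).ev_smul, h2, h1] at h3
      exact h3.symm)
  exact ⟨i⟩

end NormSys

/-- **(GLUE), intrinsic form** -/
theorem glue_intrinsic {A : Type*} {σ : T ⟶ X} {q : X ⟶ T} (hσq : σ ≫ q = 𝟙 T)
    (hq : ∀ V : T.Opens, Function.Surjective (q.app V)) (Vα : A → T.Opens)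
    (hV : ⨆ α, Vα α = ⊤) (N : A → X.Modules) (hN : ∀ α, LocGen (N α) (q ⁻¹ᵁ Vα α))
    (R : ∀ α, Rig σ (N α) (q ⁻¹ᵁ Vα α))
    (ψ : ∀ α β, Nonempty (LocIso (N α) (N β) (q ⁻¹ᵁ (Vα α ⊓ Vα β)))) :
    ∃ M : X.Modules, LocGen M ⊤ ∧
      Nonempty ((Scheme.Modules.pullback σ).obj M ≅ SheafOfModules.unit T.ringCatSheaf) ∧
      ∀ α, Nonempty (LocIso M (N α) (q ⁻¹ᵁ Vα α)) := by
  classical
  have hl : ∀ α β, q ⁻¹ᵁ (Vα α ⊓ Vα β) ≤ q ⁻¹ᵁ Vα α := fun α β => preimage_le q inf_le_left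
  have hr : ∀ α β, q ⁻¹ᵁ (Vα α ⊓ Vα β) ≤ q ⁻¹ᵁ Vα β := fun α β => preimage_le q inf_le_right
  have h1 : ∀ α β, ∃ φ : LocIso (N α) (N β) (q ⁻¹ᵁ (Vα α ⊓ Vα β)),
      φ.IsNorm ((R α).restrict (hl α β)) ((R β).restrict (hr α β)) := fun α β =>
    exists_isNorm hσq ((hN α).mono (hl α β)) _ _ (ψ α β).some
  choose ψ' hψ' using h1
  have hself : ∀ α (U : X.Opens) (h h' : U ≤ q ⁻¹ᵁ Vα α) (a : Γ(N α, U)),
      (ψ' α α).f U (le_inf h h') a = a := by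
    intro α U h h' a
    have := isNorm_unique hσq (hq (Vα α ⊓ Vα α)) ((hN α).mono (hl α α))
      ((R α).restrict (hl α α)) ((R α).restrict (hr α α)) (ψ' α α) (LocIso.refl _ _) (hψ' α α)
      (LocIso.IsNorm.refl _)
    exact congrArg (fun Φ : LocIso (N α) (N α) (q ⁻¹ᵁ (Vα α ⊓ Vα α)) => Φ.f U (le_inf h h') a) this
  have hcomp : ∀ α β γ (U : X.Opens) (h : U ≤ q ⁻¹ᵁ Vα α) (h' : U ≤ q ⁻¹ᵁ Vα β)
      (h'' : U ≤ q ⁻¹ᵁ Vα γ) (a : Γ(N α, U)),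
      (ψ' β γ).f U (le_inf h' h'') ((ψ' α β).f U (le_inf h h') a) =
        (ψ' α γ).f U (le_inf h h'') a := by
    intro α β γ U h h' h'' a
    have hab : q ⁻¹ᵁ (Vα α ⊓ Vα β ⊓ Vα γ) ≤ q ⁻¹ᵁ (Vα α ⊓ Vα β) := preimage_le q inf_le_left
    have hbc : q ⁻¹ᵁ (Vα α ⊓ Vα β ⊓ Vα γ) ≤ q ⁻¹ᵁ (Vα β ⊓ Vα γ) :=
      preimage_le q (le_inf (inf_le_left.trans inf_le_right) inf_le_right)
    have hac : q ⁻¹ᵁ (Vα α ⊓ Vα β ⊓ Vα γ) ≤ q ⁻¹ᵁ (Vα α ⊓ Vα γ) :=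
      preimage_le q (le_inf (inf_le_left.trans inf_le_left) inf_le_right)
    have h3α : q ⁻¹ᵁ (Vα α ⊓ Vα β ⊓ Vα γ) ≤ q ⁻¹ᵁ Vα α :=
      preimage_le q (inf_le_left.trans inf_le_left)
    have h3γ : q ⁻¹ᵁ (Vα α ⊓ Vα β ⊓ Vα γ) ≤ q ⁻¹ᵁ Vα γ := preimage_le q inf_le_right
    have n1 : (((ψ' α β).restrict hab).trans ((ψ' β γ).restrict hbc)).IsNorm
        ((R α).restrict h3α) ((R γ).restrict h3γ) :=
      fun U' hU' a' => (((hψ' α β).restrict hab).trans ((hψ' β γ).restrict hbc)) U' hU' a'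
    have n2 : ((ψ' α γ).restrict hac).IsNorm ((R α).restrict h3α) ((R γ).restrict h3γ) :=
      fun U' hU' a' => ((hψ' α γ).restrict hac) U' hU' a'
    have := isNorm_unique hσq (hq (Vα α ⊓ Vα β ⊓ Vα γ)) ((hN α).mono h3α) _ _ _ _ n1 n2
    have hU : U ≤ q ⁻¹ᵁ (Vα α ⊓ Vα β ⊓ Vα γ) := le_inf (le_inf h h') h''
    exact congrArg (fun Φ : LocIso (N α) (N γ) (q ⁻¹ᵁ (Vα α ⊓ Vα β ⊓ Vα γ)) => Φ.f U hU a) this
  let S : NormSys σ q Vα N :=
    { R := R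
      Ψ := fun α β U h h' a => (ψ' α β).f U (le_inf h h') a
      Ψ_smul := fun α β U h h' r a => (ψ' α β).f_smul U _ r a
      Ψ_res := fun α β U U' h h' hU a => (ψ' α β).f_res U U' _ hU a
      Ψ_gen := fun α β U h h' s hs => (ψ' α β).isGen _ hs
      Ψ_norm := fun α β U h h' a => hψ' α β U (le_inf h h') a
      Ψ_self := hself
      Ψ_comp := hcomp }
  obtain ⟨G⟩ := nonempty_gens q Vα hV N hN
  exact ⟨S.glued G, S.locGen_glued G, S.nonempty_rigid G, fun α => S.exists_locIso G α⟩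

end Fermat.Agent.S25lib.Glue
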