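/-
S25lib / Glue / ResIso  (helper2)  --  Project L (S25), block GLUE: restriction along an open immersion,
through sections.
`ResIso j N A`: the module `A` on `Y` is the restriction of the module `N` on `X` along `j : Y ⟶ X`: bijections
`Γ(N, U) → Γ(A, j⁻¹U)`, `U ≤ range j`, additive, `j^♯`-semilinear, compatible with restrictions.
* `ResIso.pull`: `j^*M` is the restriction of `M`;  `ResIso.push`: `A` is the restriction of `j_*A`.
* `precomp` (a `LocIso` on `X`), `postcomp` (an isomorphism on `Y`), `comp`, `congr`.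
* `ResIso.locIso`: two modules with the same restriction are isomorphic over `range j`.
* `ResIso.iso`: two restrictions of the same module are isomorphic.
-/
import Fermat.Agent.S25lib.Glue.GlueMod
import Fermat.Agent.S25lib.Mod.OpenImm

set_option autoImplicit false

noncomputable section

universe u

open AlgebraicGeometry CategoryTheory TopologicalSpace

namespace Fermat.Agent.S25lib.Glue

variable {X Y : Scheme.{u}}

/-- `A` is the restriction of `N` along `j`, through sections -/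
structure ResIso (j : Y ⟶ X) [IsOpenImmersion j] (N : X.Modules) (A : Y.Modules) where
  f : ∀ (U : X.Opens), U ≤ j.opensRange → Γ(N, U) → Γ(A, j ⁻¹ᵁ U)
  f_add : ∀ (U : X.Opens) (h : U ≤ j.opensRange) (a b : Γ(N, U)),
    f U h (a + b) = f U h a + f U h b
  f_smul : ∀ (U : X.Opens) (h : U ≤ j.opensRange) (r : Γ(X, U)) (a : Γ(N, U)),
    f U h (r • a) = j.app U r • f U h a
  f_res : ∀ (U U' : X.Opens) (h : U ≤ j.opensRange) (h' : U' ≤ U) (a : Γ(N, U)),
    Mod.res A (preimage_le j h') (f U h a) = f U' (h'.trans h) (Mod.res N h' a)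
  bij : ∀ (U : X.Opens) (h : U ≤ j.opensRange), Function.Bijective (f U h)

namespace ResIso

variable {j : Y ⟶ X} [IsOpenImmersion j] {N N' : X.Modules} {A A' : Y.Modules}

/-- the inverse maps -/
def inv (ρ : ResIso j N A) (U : X.Opens) (h : U ≤ j.opensRange) (b : Γ(A, j ⁻¹ᵁ U)) : Γ(N, U) :=
  (Equiv.ofBijective _ (ρ.bij U h)).symm b

theorem f_inv (ρ : ResIso j N A) (U : X.Opens) (h : U ≤ j.opensRange) (b : Γ(A, j ⁻¹ᵁ U)) :
    ρ.f U h (ρ.inv U h b) = b :=
  (Equiv.ofBijective _ (ρ.bij U h)).apply_symm_apply b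

theorem inv_f (ρ : ResIso j N A) (U : X.Opens) (h : U ≤ j.opensRange) (a : Γ(N, U)) :
    ρ.inv U h (ρ.f U h a) = a :=
  (Equiv.ofBijective _ (ρ.bij U h)).symm_apply_apply a

/-- the pullback along an open immersion is the restriction -/
def pull (j : Y ⟶ X) [IsOpenImmersion j] (M : X.Modules) :
    ResIso j M ((Scheme.Modules.pullback j).obj M) where
  f U _ a := Mod.pullSec j M U a
  f_add U _ a b := Mod.pullSec_add j M U a b
  f_smul U _ r a := Mod.pullSec_smul j M U r a
  f_res _ _ _ h' a := (Mod.pullSec_res j M h' a).symm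
  bij U h := Mod.pullSec_bijective_of_isOpenImmersion j M U h

/-- a module is the restriction of its pushforward -/
def push (j : Y ⟶ X) [IsOpenImmersion j] (A : Y.Modules) : ResIso j ((Scheme.Modules.pushforward j).obj A) A where
  f U _ a := Mod.ofPush j A U a
  f_add _ _ _ _ := rfl
  f_smul _ _ _ _ := rfl
  f_res _ _ _ _ _ := rfl
  bij _ _ := Function.bijective_id

/-- composition with a local isomorphism on `X` -/
def precomp (φ : LocIso N N' j.opensRange) (ρ : ResIso j N' A) : ResIso j N A where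
  f U h a := ρ.f U h (φ.f U h a)
  f_add U h a b := by rw [φ.f_add, ρ.f_add]
  f_smul U h r a := by rw [φ.f_smul, ρ.f_smul]
  f_res U U' h h' a := by rw [ρ.f_res, φ.f_res]
  bij U h := (ρ.bij U h).comp (φ.bij U h)

/-- composition with an isomorphism on `Y` -/
def postcomp (ρ : ResIso j N A) (e : A ≅ A') : ResIso j N A' where
  f U h a := e.hom.app (j ⁻¹ᵁ U) (ρ.f U h a)
  f_add U h a b := by rw [ρ.f_add, map_add]
  f_smul U h r a := by rw [ρ.f_smul, Scheme.Modules.Hom.app_smul]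
  f_res U U' h h' a := by rw [← Mod.app_res, ρ.f_res]
  bij U h := (Mod.bijective_app_of_iso e (j ⁻¹ᵁ U)).comp (ρ.bij U h)

/-- restrictions along equal morphisms -/
def congr {j j' : Y ⟶ X} [IsOpenImmersion j] [IsOpenImmersion j'] (h : j = j')
    (ρ : ResIso j N A) : ResIso j' N A := by
  subst h
  exact ρ

/-- two modules with the same restriction are isomorphic over the range -/
def locIso (ρ : ResIso j N A) (ρ' : ResIso j N' A) : LocIso N N' j.opensRange where
  f U h a := ρ'.inv U h (ρ.f U h a)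
  f_add U h a b := by
    apply (ρ'.bij U h).1
    rw [ρ'.f_add, ρ'.f_inv, ρ'.f_inv, ρ'.f_inv, ρ.f_add]
  f_smul U h r a := by
    apply (ρ'.bij U h).1
    rw [ρ'.f_smul, ρ'.f_inv, ρ'.f_inv, ρ.f_smul]
  f_res U U' h h' a := by
    apply (ρ'.bij U' (h'.trans h)).1
    rw [← ρ'.f_res U U' h h', ρ'.f_inv, ρ'.f_inv, ρ.f_res]
  bij U h := (Equiv.ofBijective _ (ρ'.bij U h)).symm.bijective.comp (ρ.bij U h)

theorem inv_add (ρ : ResIso j N A) (U : X.Opens) (h : U ≤ j.opensRange) (b b' : Γ(A, j ⁻¹ᵁ U)) :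
    ρ.inv U h (b + b') = ρ.inv U h b + ρ.inv U h b' := by
  apply (ρ.bij U h).1
  rw [ρ.f_add, ρ.f_inv, ρ.f_inv, ρ.f_inv]

theorem inv_smul (ρ : ResIso j N A) (U : X.Opens) (h : U ≤ j.opensRange) (r : Γ(X, U))
    (b : Γ(A, j ⁻¹ᵁ U)) : ρ.inv U h (j.app U r • b) = r • ρ.inv U h b := by
  apply (ρ.bij U h).1
  rw [ρ.f_smul, ρ.f_inv, ρ.f_inv]

theorem inv_res (ρ : ResIso j N A) (U U' : X.Opens) (h : U ≤ j.opensRange) (h' : U' ≤ U)
    (b : Γ(A, j ⁻¹ᵁ U)) :
    Mod.res N h' (ρ.inv U h b) = ρ.inv U' (h'.trans h) (Mod.res A (preimage_le j h') b) := by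
  apply (ρ.bij U' (h'.trans h)).1
  rw [← ρ.f_res U U' h h', ρ.f_inv, ρ.f_inv]

theorem app_bijective (j : Y ⟶ X) [IsOpenImmersion j] (U : X.Opens) (h : U ≤ j.opensRange) :
    Function.Bijective (j.app U) := by
  have := j.isIso_app U h
  exact ConcreteCategory.bijective_of_isIso (j.app U)

/-- restriction between two opens which contain each other -/
theorem res_bijective (M : X.Modules) {U V : X.Opens} (h : V ≤ U) (h' : U ≤ V) :
    Function.Bijective (Mod.res M h) :=
  Function.bijective_iff_has_inverse.mpr ⟨Mod.res M h',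
    fun a => by rw [Mod.res_res, Mod.res_self], fun a => by rw [Mod.res_res, Mod.res_self]⟩

theorem resO_bijective {U V : X.Opens} (h : V ≤ U) (h' : U ≤ V) :
    Function.Bijective (Mod.resO (X := X) h) :=
  Function.bijective_iff_has_inverse.mpr ⟨Mod.resO h',
    fun a => by rw [Mod.resO_resO, Mod.resO_self], fun a => by rw [Mod.resO_resO, Mod.resO_self]⟩

/-- restrictions compose -/
def comp {Z : Scheme.{u}} {g : Z ⟶ Y} [IsOpenImmersion g] {A'' : Z.Modules}
    (ρ : ResIso j N A) (ρ' : ResIso g A A'') : ResIso (g ≫ j) N A'' :=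
  have h1 : ∀ U : X.Opens, U ≤ (g ≫ j).opensRange → U ≤ j.opensRange := fun U h => by
    refine h.trans ?_
    rw [Scheme.Hom.opensRange_comp]
    exact j.image_le_opensRange _
  have h2 : ∀ U : X.Opens, U ≤ (g ≫ j).opensRange → j ⁻¹ᵁ U ≤ g.opensRange := fun U h y hy => by
    obtain ⟨z, hz⟩ := Scheme.Hom.mem_opensRange.mp (h hy)
    have : g z = y := j.isOpenEmbedding.injective hz
    exact Scheme.Hom.mem_opensRange.mpr ⟨z, this⟩
  { f := fun U h a => ρ'.f (j ⁻¹ᵁ U) (h2 U h) (ρ.f U (h1 U h) a)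
    f_add := fun U h a b => by
      rw [ρ.f_add, ρ'.f_add]
      rfl
    f_smul := fun U h r a => by
      rw [ρ.f_smul, ρ'.f_smul]
      rfl
    f_res := fun U U' h h' a => by
      rw [← ρ.f_res U U' (h1 U h) h', ← ρ'.f_res (j ⁻¹ᵁ U) (j ⁻¹ᵁ U') (h2 U h) (preimage_le j h')]
      rfl
    bij := fun U h => (ρ'.bij _ (h2 U h)).comp (ρ.bij U (h1 U h)) }

/-- a restriction maps generators to generators (and conversely) -/
theorem isGen_of (ρ : ResIso j N A) {U : X.Opens} (h : U ≤ j.opensRange) {s : Γ(N, U)}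
    (hs : Mod.IsGen A (j ⁻¹ᵁ U) (ρ.f U h s)) : Mod.IsGen N U s := by
  intro V hV
  have key : (ρ.f V (hV.trans h)) ∘ (fun r : Γ(X, V) => r • Mod.res N hV s) =
      (fun r' : Γ(Y, j ⁻¹ᵁ V) => r' • Mod.res A (preimage_le j hV) (ρ.f U h s)) ∘ (j.app V) := by
    funext r
    simp only [Function.comp]
    rw [ρ.f_smul, ρ.f_res]
  have hb : Function.Bijective ((ρ.f V (hV.trans h)) ∘ (fun r : Γ(X, V) => r • Mod.res N hV s)) := by
    rw [key]
    exact (hs (j ⁻¹ᵁ V) (preimage_le j hV)).comp (app_bijective j V (hV.trans h))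
  exact (Function.Bijective.of_comp_iff' (ρ.bij V (hV.trans h)) _).mp hb

theorem isGen (ρ : ResIso j N A) {U : X.Opens} (h : U ≤ j.opensRange) {s : Γ(N, U)}
    (hs : Mod.IsGen N U s) : Mod.IsGen A (j ⁻¹ᵁ U) (ρ.f U h s) := by
  intro V' hV'
  have hV : j ''ᵁ V' ≤ U := by
    refine (j.image_mono hV').trans ?_
    rw [j.image_preimage_eq_opensRange_inf]
    exact inf_le_right
  have e : j ⁻¹ᵁ (j ''ᵁ V') = V' := j.preimage_image_eq V'
  have hle : V' ≤ j ⁻¹ᵁ (j ''ᵁ V') := le_of_eq e.symm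
  have hge : j ⁻¹ᵁ (j ''ᵁ V') ≤ V' := le_of_eq e
  have key : (fun r' : Γ(Y, V') => r' • Mod.res A hV' (ρ.f U h s)) ∘
      ((Mod.resO hle) ∘ (j.app (j ''ᵁ V'))) =
      (Mod.res A hle) ∘ (ρ.f (j ''ᵁ V') (hV.trans h)) ∘
        (fun r : Γ(X, j ''ᵁ V') => r • Mod.res N hV s) := by
    funext r
    simp only [Function.comp]
    rw [ρ.f_smul, Mod.res_smul, ← ρ.f_res U _ h hV, Mod.res_res]
  have hb : Function.Bijective ((fun r' : Γ(Y, V') => r' • Mod.res A hV' (ρ.f U h s)) ∘
      ((Mod.resO hle) ∘ (j.app (j ''ᵁ V')))) := by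
    rw [key]
    exact (res_bijective A hle hge).comp ((ρ.bij _ _).comp (hs _ hV))
  exact (Function.Bijective.of_comp_iff _
    ((resO_bijective hle hge).comp (app_bijective j _ (hV.trans h)))).mp hb

/-- local generators of the restriction give local generators over the range -/
theorem locGen (ρ : ResIso j N A) (hA : LocGen A ⊤) : LocGen N j.opensRange := by
  intro x hx
  obtain ⟨y, rfl⟩ := Scheme.Hom.mem_opensRange.mp hx
  obtain ⟨U', hyU', -, s', hs'⟩ := hA y trivial
  have e : j ⁻¹ᵁ (j ''ᵁ U') = U' := j.preimage_image_eq U'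
  have hU : j ''ᵁ U' ≤ j.opensRange := j.image_le_opensRange U'
  refine ⟨j ''ᵁ U', ⟨y, hyU', rfl⟩, hU, ρ.inv _ hU (Mod.res A (le_of_eq e) s'), ?_⟩
  apply ρ.isGen_of hU
  rw [ρ.f_inv]
  exact hs'.res (le_of_eq e)

/-- two restrictions of the same module are isomorphic: the local isomorphism -/
def locIsoTop (ρ : ResIso j N A) (ρ' : ResIso j N A') : LocIso A A' ⊤ :=
  have e : ∀ U' : Y.Opens, j ⁻¹ᵁ (j ''ᵁ U') = U' := fun U' => j.preimage_image_eq U'
  have hle : ∀ U' : Y.Opens, U' ≤ j ⁻¹ᵁ (j ''ᵁ U') := fun U' => le_of_eq (e U').symm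
  have hge : ∀ U' : Y.Opens, j ⁻¹ᵁ (j ''ᵁ U') ≤ U' := fun U' => le_of_eq (e U')
  have hU : ∀ U' : Y.Opens, j ''ᵁ U' ≤ j.opensRange := fun U' => j.image_le_opensRange U'
  { f := fun U' _ a => Mod.res A' (hle U') (ρ'.f _ (hU U') (ρ.inv _ (hU U') (Mod.res A (hge U') a)))
    f_add := fun U' _ a b => by rw [Mod.res_add, ρ.inv_add, ρ'.f_add, Mod.res_add]
    f_smul := fun U' _ r a => by
      obtain ⟨r₀, hr₀⟩ := (app_bijective j _ (hU U')).2 (Mod.resO (hge U') r)
      have hr : r = Mod.resO (hle U') (j.app _ r₀) := by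
        rw [hr₀, Mod.resO_resO, Mod.resO_self]
      rw [Mod.res_smul, ← hr₀, ρ.inv_smul, ρ'.f_smul, Mod.res_smul, ← hr]
    f_res := fun U' U'' _ h' a => by
      have himg : j ''ᵁ U'' ≤ j ''ᵁ U' := j.image_mono h'
      rw [Mod.res_res]
      have h1 : Mod.res A (hge U'') (Mod.res A h' a) =
          Mod.res A (preimage_le j himg) (Mod.res A (hge U') a) := by
        rw [Mod.res_res, Mod.res_res]
      rw [h1, ← ρ.inv_res _ _ (hU U') himg, ← ρ'.f_res _ _ (hU U') himg, Mod.res_res]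
    bij := fun U' _ => (res_bijective A' (hle U') (hge U')).comp
      ((ρ'.bij _ (hU U')).comp ((Equiv.ofBijective _ (ρ.bij _ (hU U'))).symm.bijective.comp
        (res_bijective A (hge U') (hle U')))) }

/-- **two restrictions of the same module are isomorphic** -/
def iso (ρ : ResIso j N A) (ρ' : ResIso j N A') : A ≅ A' := (ρ.locIsoTop ρ').toIso

end ResIso

end Fermat.Agent.S25lib.Glue
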