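/-
S25lib / Glue / RigPush  (helper2)  --  Project L (S25), block GLUE: transport of an evaluation along a square of
open immersions.  Given `j : Y ⟶ X`, `τ : T' ⟶ T` open immersions, `σ' : T' ⟶ Y`, `σ : T ⟶ X` with
`σ' ≫ j = τ ≫ σ`, a restriction `ρ : ResIso j N A` and an evaluation of `A` along `σ'`, we get an evaluation of
`N` along `σ` over every open `W ≤ range j` with `σ⁻¹W ≤ range τ`.
-/
import Fermat.Agent.S25lib.Glue.ResIso

set_option autoImplicit false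

noncomputable section

universe u

open AlgebraicGeometry CategoryTheory TopologicalSpace

namespace Fermat.Agent.S25lib.Glue

variable {X Y T T' : Scheme.{u}}

theorem app_congr_resO {p p' : T' ⟶ X} (h : p = p') (U : X.Opens) (hle : p' ⁻¹ᵁ U ≤ p ⁻¹ᵁ U)
    (r : Γ(X, U)) : Mod.resO hle (p.app U r) = p'.app U r := by
  subst h
  exact Mod.resO_self _

section Push

variable {j : Y ⟶ X} [IsOpenImmersion j] {τ : T' ⟶ T} [IsOpenImmersion τ] {σ' : T' ⟶ Y}
  {σ : T ⟶ X} (sq : σ' ≫ j = τ ≫ σ) {N : X.Modules} {A : Y.Modules} (ρ : ResIso j N A)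
  (R' : Rig σ' A ⊤) {W : X.Opens} (hW : W ≤ j.opensRange) (hW' : σ ⁻¹ᵁ W ≤ τ.opensRange)

omit [IsOpenImmersion j] [IsOpenImmersion τ] in
include sq in
theorem pushCast_le (U : X.Opens) : τ ⁻¹ᵁ (σ ⁻¹ᵁ U) ≤ σ' ⁻¹ᵁ (j ⁻¹ᵁ U) := by
  have : (τ ≫ σ) ⁻¹ᵁ U = (σ' ≫ j) ⁻¹ᵁ U := by rw [sq]
  exact le_of_eq this

/-- the evaluation upstairs, as a function on `τ⁻¹σ⁻¹U` -/
def pushUp (U : X.Opens) (h : U ≤ W) (a : Γ(N, U)) : Γ(T', τ ⁻¹ᵁ (σ ⁻¹ᵁ U)) :=
  Mod.resO (pushCast_le sq U) (R'.ev (j ⁻¹ᵁ U) le_top (ρ.f U (h.trans hW) a))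

include hW' in
theorem push_bij (U : X.Opens) (h : U ≤ W) : Function.Bijective (τ.app (σ ⁻¹ᵁ U)) :=
  ResIso.app_bijective τ _ ((preimage_le σ h).trans hW')

/-- the pushed evaluation -/
def pushEv (U : X.Opens) (h : U ≤ W) (a : Γ(N, U)) : Γ(T, σ ⁻¹ᵁ U) :=
  (Equiv.ofBijective _ (push_bij hW' U h)).symm (pushUp sq ρ R' hW U h a)

theorem app_pushEv (U : X.Opens) (h : U ≤ W) (a : Γ(N, U)) :
    τ.app (σ ⁻¹ᵁ U) (pushEv sq ρ R' hW hW' U h a) = pushUp sq ρ R' hW U h a :=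
  (Equiv.ofBijective _ (push_bij hW' U h)).apply_symm_apply _

/-- **transport of an evaluation along a square of open immersions** -/
def Rig.push : Rig σ N W where
  ev := pushEv sq ρ R' hW hW'
  ev_add U h a b := by
    apply (push_bij hW' U h).1
    rw [map_add, app_pushEv, app_pushEv, app_pushEv]
    unfold pushUp
    rw [ρ.f_add, R'.ev_add, Mod.resO_add]
  ev_smul U h r a := by
    apply (push_bij hW' U h).1
    rw [map_mul, app_pushEv, app_pushEv]
    unfold pushUp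
    rw [ρ.f_smul, R'.ev_smul, Mod.resO_mul]
    congr 1
    exact app_congr_resO sq U (pushCast_le sq U) r
  ev_res U U' h h' a := by
    apply (push_bij hW' U' (h'.trans h)).1
    rw [app_pushEv, app_resO, app_pushEv]
    unfold pushUp
    rw [← ρ.f_res U U' (h.trans hW) h', R'.ev_res (j ⁻¹ᵁ U) (j ⁻¹ᵁ U') le_top (preimage_le j h'),
      Mod.resO_resO, Mod.resO_resO]
  ev_gen U h s hs := by
    have h1 : IsUnit (pushUp sq ρ R' hW U h s) :=
      LocIso.isUnit_resO _ (R'.ev_gen _ _ _ (ρ.isGen (h.trans hW) hs))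
    obtain ⟨c', hc'⟩ := h1.exists_right_inv
    obtain ⟨e', he'⟩ := (push_bij hW' U h).2 c'
    refine IsUnit.of_mul_eq_one e' ?_
    apply (push_bij hW' U h).1
    rw [map_mul, app_pushEv, he', hc', map_one]

end Push

end Fermat.Agent.S25lib.Glue
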